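/-
P10 / G6 (helper8): tame inertia is (pro)cyclic.

For a prime `q`, a valuation subring `A` of `ℚ̄` over `q` and a homomorphism `φ` from `G_ℚ` to a
finite group of order prime to `q` which factors through a finite level, the image of the inertia
group of `A` is cyclic (`tame_inertia_image_cyclic`).

The proof works directly in `ℚ̄` with the `ℚ`-valued order function `qvOrd` of `Lib/S05/QValQbar`:
* discreteness of the order function on a finite extension (`tame_exists_uniformizer`);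
* the tame character `σ ↦ σ(ϖ)/ϖ mod 𝔪` (`tameChar`);
* Lagrange resolvents: an inertia element which is "wild on `F`" has `q`-power order on a smaller
  normal level (`tame_wild_orderOf`).
-/
import Mathlib
import Fermat.Agent.Lib.S05.QValQbar

set_option autoImplicit false
set_option linter.style.haveILetI false

namespace Fermat.Agent.TW

open ValuationSubring Polynomial
open Fermat.Agent.S05Lib

local notation "Qb" => AlgebraicClosure ℚ
local notation "GQ" => (AlgebraicClosure ℚ ≃ₐ[ℚ] AlgebraicClosure ℚ)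

section Bounded

variable {L : Type*} [Field L] [CharZero L] (A : ValuationSubring L)
variable {q : ℕ} (hq : q.Prime) (hA : A.LiesOverPrime q)

include hq hA in
/-- the valuation of a nonzero rational number is an integral power of the valuation of `q` -/
theorem tame_valuation_ratCast_eq_zpow {c : ℚ} (hc : c ≠ 0) :
    ∃ s : ℤ, A.valuation ((c : ℚ) : L) = A.valuation (q : L) ^ s := by
  obtain ⟨hπ0, -⟩ := qv_pi_pos A hq hA
  have hnum : c.num ≠ 0 := Rat.num_ne_zero.mpr hc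
  have hden : (c.den : ℤ) ≠ 0 := by exact_mod_cast c.den_nz
  obtain ⟨a, ha⟩ := qv_valuation_intCast_eq_pow A hq hA hnum
  obtain ⟨b, hb⟩ := qv_valuation_intCast_eq_pow A hq hA hden
  refine ⟨(a : ℤ) - b, ?_⟩
  have hcast : ((c : ℚ) : L) = ((c.num : ℤ) : L) / (((c.den : ℕ) : ℤ) : L) := by
    rw [Rat.cast_def]; push_cast; rfl
  rw [hcast, map_div₀, ha, hb, zpow_sub₀ hπ0.ne', zpow_natCast, zpow_natCast]

include hq hA in
/-- **Bounded exponent.** If `x ≠ 0` is a root of a nonzero rational polynomial `p`, then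
`w(x)^m = w(q)^s` with `0 < m ≤ deg p`. -/
theorem tame_exists_pow_eq_bdd {x : L} (hx0 : x ≠ 0) {p : ℚ[X]} (hp0 : p ≠ 0)
    (hp : aeval x p = 0) :
    ∃ m : ℕ, 0 < m ∧ m ≤ p.natDegree ∧ ∃ s : ℤ, A.valuation x ^ m = A.valuation (q : L) ^ s := by
  classical
  set w := A.valuation with hw
  have hq0 : (q : L) ≠ 0 := by exact_mod_cast hq.ne_zero
  have hπ0 : w (q : L) ≠ 0 := (Valuation.ne_zero_iff _).mpr hq0
  have hwx0 : w x ≠ 0 := (Valuation.ne_zero_iff _).mpr hx0
  set term : ℕ → L := fun i => ((p.coeff i : ℚ) : L) * x ^ i with hterm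
  have hsum : ∑ i ∈ p.support, term i = 0 := by
    rw [← hp, Polynomial.aeval_def, Polynomial.eval₂_eq_sum, Polynomial.sum_def]
    simp [hterm]
  have hne : p.support.Nonempty := Polynomial.support_nonempty.mpr hp0
  have hterm0 : ∀ i ∈ p.support, term i ≠ 0 := by
    intro i hi
    have hc : p.coeff i ≠ 0 := Polynomial.mem_support_iff.mp hi
    exact mul_ne_zero (by exact_mod_cast hc) (pow_ne_zero _ hx0)
  obtain ⟨i₀, hi₀, hmax⟩ := Finset.exists_max_image p.support (fun i => w (term i)) hne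
  have hex : ∃ j ∈ p.support, j ≠ i₀ ∧ w (term j) = w (term i₀) := by
    by_contra hno
    push Not at hno
    have hlt : ∀ j ∈ p.support.erase i₀, w (term j) < w (term i₀) := by
      intro j hj
      obtain ⟨hji, hjs⟩ := Finset.mem_erase.mp hj
      exact lt_of_le_of_ne (hmax j hjs) (hno j hjs hji)
    have hg : w (term i₀) ≠ 0 := (Valuation.ne_zero_iff _).mpr (hterm0 i₀ hi₀)
    have h1 : w (∑ j ∈ p.support.erase i₀, term j) < w (term i₀) := Valuation.map_sum_lt w hg hlt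
    have h2 : w (term i₀ + ∑ j ∈ p.support.erase i₀, term j) = w (term i₀) :=
      Valuation.map_add_eq_of_lt_left w h1
    rw [Finset.add_sum_erase _ _ hi₀, hsum, map_zero] at h2
    exact hg h2.symm
  obtain ⟨j, hj, hji, hjeq⟩ := hex
  have hcj : p.coeff j ≠ 0 := Polynomial.mem_support_iff.mp hj
  have hci : p.coeff i₀ ≠ 0 := Polynomial.mem_support_iff.mp hi₀
  have hjle : j ≤ p.natDegree := Polynomial.le_natDegree_of_ne_zero hcj
  have hile : i₀ ≤ p.natDegree := Polynomial.le_natDegree_of_ne_zero hci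
  obtain ⟨a, ha⟩ := tame_valuation_ratCast_eq_zpow A hq hA hcj
  obtain ⟨b, hb⟩ := tame_valuation_ratCast_eq_zpow A hq hA hci
  simp only [hterm, map_mul, map_pow] at hjeq
  rw [← hw] at ha hb
  rw [ha, hb] at hjeq
  -- hjeq : π ^ a * w x ^ j = π ^ b * w x ^ i₀
  have hpa : w (q : L) ^ a ≠ 0 := zpow_ne_zero _ hπ0
  have hpb : w (q : L) ^ b ≠ 0 := zpow_ne_zero _ hπ0
  rcases lt_or_gt_of_ne hji with hlt | hgt
  · -- j < i₀
    refine ⟨i₀ - j, Nat.sub_pos_of_lt hlt, (Nat.sub_le _ _).trans hile, a - b, ?_⟩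
    have hpj : w x ^ j ≠ 0 := pow_ne_zero _ hwx0
    rw [zpow_sub₀ hπ0, eq_div_iff hpb]
    have : w x ^ i₀ = w x ^ (i₀ - j) * w x ^ j := by
      rw [← pow_add, Nat.sub_add_cancel hlt.le]
    rw [this] at hjeq
    apply mul_right_cancel₀ hpj
    rw [hjeq]; ac_rfl
  · -- i₀ < j
    refine ⟨j - i₀, Nat.sub_pos_of_lt hgt, (Nat.sub_le _ _).trans hjle, b - a, ?_⟩
    have hpi : w x ^ i₀ ≠ 0 := pow_ne_zero _ hwx0
    rw [zpow_sub₀ hπ0, eq_div_iff hpa]
    have : w x ^ j = w x ^ (j - i₀) * w x ^ i₀ := by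
      rw [← pow_add, Nat.sub_add_cancel hgt.le]
    rw [this] at hjeq
    apply mul_right_cancel₀ hpi
    rw [← hjeq]; ac_rfl

end Bounded

section Discrete

variable (A : ValuationSubring Qb) {q : ℕ} (hq : q.Prime) (hA : A.LiesOverPrime q)

include hq hA in
/-- On a finite extension `F` of `ℚ` inside `ℚ̄` the order function takes values in
`(1/n!)ℤ`, `n = [F : ℚ]`. -/
theorem tame_ord_mem_lattice (F : IntermediateField ℚ Qb) [FiniteDimensional ℚ F] {x : Qb}
    (hx : x ∈ F) (hx0 : x ≠ 0) :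
    ∃ s : ℤ, qvOrd A q x = (s : ℚ) / ((Module.finrank ℚ F).factorial : ℚ) := by
  have halg : IsIntegral ℚ x := (AlgebraicClosure.isAlgebraic ℚ).isIntegral.isIntegral x
  have hdeg : (minpoly ℚ x).natDegree ≤ Module.finrank ℚ F := by
    have h1 : minpoly ℚ (⟨x, hx⟩ : F) = minpoly ℚ x :=
      (minpoly.algebraMap_eq (algebraMap F Qb).injective (⟨x, hx⟩ : F)).symm
    rw [← h1]
    exact minpoly.natDegree_le _
  obtain ⟨m, hm, hmle, s, hs⟩ := tame_exists_pow_eq_bdd A hq hA hx0 (minpoly.ne_zero halg)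
    (minpoly.aeval ℚ x)
  rw [qvOrd_eq A hq hA hm hs]
  have hdvd : m ∣ (Module.finrank ℚ F).factorial := Nat.dvd_factorial hm (hmle.trans hdeg)
  obtain ⟨c, hc⟩ := hdvd
  refine ⟨s * c, ?_⟩
  have hmq : (m : ℚ) ≠ 0 := by exact_mod_cast hm.ne'
  have hcq : (c : ℚ) ≠ 0 := by
    intro h0
    have : c = 0 := by exact_mod_cast h0
    rw [this, mul_zero] at hc
    exact (Nat.factorial_pos _).ne' hc
  rw [hc]
  push_cast
  field_simp

include hq hA in
/-- **Discreteness.** A finite extension `F` of `ℚ` inside `ℚ̄` has a uniformiser for `A`. -/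
theorem tame_exists_uniformizer (F : IntermediateField ℚ Qb) [FiniteDimensional ℚ F] :
    ∃ ϖ : Qb, ϖ ∈ F ∧ ϖ ≠ 0 ∧ 0 < qvOrd A q ϖ ∧
      ∀ x : Qb, x ∈ F → x ≠ 0 → ∃ k : ℤ, qvOrd A q x = k * qvOrd A q ϖ := by
  classical
  set N : ℕ := (Module.finrank ℚ F).factorial with hN
  have hNpos : 0 < N := Nat.factorial_pos _
  have hNq : (0 : ℚ) < N := by exact_mod_cast hNpos
  have halg := qv_isAlgebraic_int_qbar
  -- positive numerators
  let P : ℕ → Prop := fun k => 0 < k ∧ ∃ x : Qb, x ∈ F ∧ x ≠ 0 ∧ qvOrd A q x = (k : ℚ) / N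
  have hP : ∃ k, P k := by
    refine ⟨N, hNpos, (q : Qb), ?_, by exact_mod_cast hq.ne_zero, ?_⟩
    · exact natCast_mem F q
    · rw [qvOrd_q A hq hA, div_self hNq.ne']
  obtain ⟨hk₀pos, ϖ, hϖF, hϖ0, hϖ⟩ := Nat.find_spec hP
  set k₀ := Nat.find hP with hk₀
  have hk₀q : (0 : ℚ) < k₀ := by exact_mod_cast hk₀pos
  refine ⟨ϖ, hϖF, hϖ0, by rw [hϖ]; positivity, fun x hxF hx0 => ?_⟩
  obtain ⟨s, hs⟩ := tame_ord_mem_lattice A hq hA F hxF hx0
  rw [← hN] at hs
  -- Euclidean division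
  set c : ℤ := s / k₀ with hc
  set r : ℤ := s % k₀ with hr
  have hk₀z : (0 : ℤ) < k₀ := by exact_mod_cast hk₀pos
  have hr0 : 0 ≤ r := Int.emod_nonneg _ hk₀z.ne'
  have hrlt : r < k₀ := Int.emod_lt_of_pos _ hk₀z
  have hdiv : s = k₀ * c + r := (Int.mul_ediv_add_emod s k₀).symm
  refine ⟨c, ?_⟩
  -- y = x / ϖ ^ c
  set y : Qb := x / ϖ ^ c with hy
  have hyF : y ∈ F := div_mem hxF (zpow_mem hϖF c)
  have hϖc0 : ϖ ^ c ≠ 0 := zpow_ne_zero _ hϖ0
  have hy0 : y ≠ 0 := div_ne_zero hx0 hϖc0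
  have hordzpow : qvOrd A q (ϖ ^ c) = c * qvOrd A q ϖ := by
    have hv := qvalOf A hq hA halg
    rcases Int.eq_nat_or_neg c with ⟨n, hn | hn⟩
    · rw [hn, zpow_natCast]
      exact (qvalOf A hq hA halg).ord_pow hϖ0 n |>.trans (by push_cast; rfl)
    · rw [hn, zpow_neg, zpow_natCast]
      have h1 := (qvalOf A hq hA halg).ord_inv (pow_ne_zero n hϖ0)
      have h2 := (qvalOf A hq hA halg).ord_pow hϖ0 n
      change qvOrd A q (ϖ ^ n)⁻¹ = -qvOrd A q (ϖ ^ n) at h1
      change qvOrd A q (ϖ ^ n) = n * qvOrd A q ϖ at h2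
      rw [h1, h2]; push_cast; ring
  have hordy : qvOrd A q y = (r : ℚ) / N := by
    have h1 := (qvalOf A hq hA halg).ord_div hx0 hϖc0
    change qvOrd A q (x / ϖ ^ c) = qvOrd A q x - qvOrd A q (ϖ ^ c) at h1
    rw [hy, h1, hordzpow, hs, hϖ, hdiv]
    push_cast
    field_simp
    ring
  -- minimality forces r = 0
  have hr_eq : r = 0 := by
    by_contra hne
    have hrpos : 0 < r := lt_of_le_of_ne hr0 (Ne.symm hne)
    have hmem : P r.toNat := by
      refine ⟨by omega, y, hyF, hy0, ?_⟩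
      rw [hordy]
      congr 1
      have : ((r.toNat : ℤ) : ℚ) = (r : ℚ) := by rw [Int.toNat_of_nonneg hr0]
      exact_mod_cast this.symm
    have := Nat.find_min' hP hmem
    omega
  rw [hs, hϖ, hdiv, hr_eq]
  push_cast
  field_simp
  ring

end Discrete

section Wild

variable (A : ValuationSubring Qb) {q : ℕ} (hq : q.Prime) (hA : A.LiesOverPrime q)

include hq hA in
/-- inertia preserves the valuation -/
theorem tame_valuation_apply {σ : GQ} (hσ : σ ∈ A.inertiaSubgroupIn ℚ) (x : Qb) :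
    A.valuation (σ x) = A.valuation x := by
  by_cases hx : x = 0
  · subst hx; simp
  have hσx : σ x ≠ 0 := (map_ne_zero_iff σ σ.injective).mpr hx
  have h := qv_inertia_ord A hq hA qv_isAlgebraic_int_qbar hσ x
  apply le_antisymm
  · rw [qv_le_iff A hq hA qv_isAlgebraic_int_qbar hσx hx, h]
  · rw [qv_le_iff A hq hA qv_isAlgebraic_int_qbar hx hσx, h]

/-- `σ` is *wild at `x`*: `σ x / x ≡ 1` modulo the maximal ideal. -/
def TameWild (σ : GQ) (x : Qb) : Prop := A.valuation (σ x - x) < A.valuation x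

variable {A}

theorem TameWild.ne_zero {σ : GQ} {x : Qb} (h : TameWild A σ x) : x ≠ 0 := by
  rintro rfl
  unfold TameWild at h
  simp at h

theorem tameWild_one {x : Qb} (hx : x ≠ 0) : TameWild A 1 x := by
  unfold TameWild
  rw [AlgEquiv.one_apply, sub_self, map_zero]
  exact lt_of_le_of_ne zero_le ((Valuation.ne_zero_iff _).mpr hx).symm

theorem tameWild_of_unit {σ : GQ} (hσ : σ ∈ A.inertiaSubgroupIn ℚ) {u : Qb}
    (hu : A.valuation u = 1) : TameWild A σ u := by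
  unfold TameWild
  rw [hu]
  exact (qv_mem_inertiaSubgroupIn A hσ).2 u ((A.valuation_le_one_iff u).mp hu.le)

include hq hA in
theorem TameWild.mul {σ : GQ} (hσ : σ ∈ A.inertiaSubgroupIn ℚ) {x y : Qb}
    (hx : TameWild A σ x) (hy : TameWild A σ y) : TameWild A σ (x * y) := by
  unfold TameWild at *
  have e : σ (x * y) - x * y = σ x * (σ y - y) + (σ x - x) * y := by rw [map_mul]; ring
  have hx0 : 0 < A.valuation x := lt_of_le_of_lt zero_le hx
  have hy0 : 0 < A.valuation y := lt_of_le_of_lt zero_le hy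
  rw [e, map_mul]
  refine lt_of_le_of_lt (Valuation.map_add _ _ _) (max_lt ?_ ?_)
  · rw [map_mul, tame_valuation_apply A hq hA hσ]
    exact mul_lt_mul_of_pos_left hy hx0
  · rw [map_mul]
    exact mul_lt_mul_of_pos_right hx hy0

include hq hA in
theorem TameWild.inv {σ : GQ} (hσ : σ ∈ A.inertiaSubgroupIn ℚ) {x : Qb}
    (hx : TameWild A σ x) : TameWild A σ x⁻¹ := by
  have hx0 : x ≠ 0 := hx.ne_zero
  have hσx0 : σ x ≠ 0 := (map_ne_zero_iff σ σ.injective).mpr hx0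
  unfold TameWild at *
  have e : σ x⁻¹ - x⁻¹ = -(σ x - x) * (x⁻¹ * (σ x)⁻¹) := by
    rw [map_inv₀]; field_simp; ring
  have hv0 : 0 < A.valuation x := lt_of_le_of_lt zero_le hx
  rw [e, map_mul, Valuation.map_neg, map_mul, map_inv₀, map_inv₀,
    tame_valuation_apply A hq hA hσ]
  have hinv : 0 < (A.valuation x)⁻¹ := inv_pos.mpr hv0
  calc A.valuation (σ x - x) * ((A.valuation x)⁻¹ * (A.valuation x)⁻¹)
      < A.valuation x * ((A.valuation x)⁻¹ * (A.valuation x)⁻¹) :=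
        mul_lt_mul_of_pos_right hx (mul_pos hinv hinv)
    _ = (A.valuation x)⁻¹ := by
        rw [← mul_assoc, mul_inv_cancel₀ hv0.ne', one_mul]

include hq hA in
theorem TameWild.zpow {σ : GQ} (hσ : σ ∈ A.inertiaSubgroupIn ℚ) {x : Qb}
    (hx : TameWild A σ x) (k : ℤ) : TameWild A σ (x ^ k) := by
  have hnat : ∀ n : ℕ, TameWild A σ (x ^ n) := by
    intro n
    induction n with
    | zero =>
      rw [pow_zero]
      exact tameWild_of_unit hσ (map_one _)
    | succ n ih => rw [pow_succ]; exact ih.mul hq hA hσ hx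
  rcases Int.eq_nat_or_neg k with ⟨n, hn | hn⟩
  · rw [hn, zpow_natCast]; exact hnat n
  · rw [hn, zpow_neg, zpow_natCast]; exact (hnat n).inv hq hA hσ

include hq hA in
/-- composition: wild at `x` is stable under products of inertia elements -/
theorem TameWild.comp {σ τ : GQ} (hσ : σ ∈ A.inertiaSubgroupIn ℚ) {x : Qb}
    (hx : TameWild A σ x) (hy : TameWild A τ x) : TameWild A (σ * τ) x := by
  unfold TameWild at *
  have e : (σ * τ) x - x = σ (τ x - x) + (σ x - x) := by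
    rw [AlgEquiv.mul_apply, map_sub]; ring
  rw [e]
  refine lt_of_le_of_lt (Valuation.map_add _ _ _) (max_lt ?_ hx)
  rw [tame_valuation_apply A hq hA hσ]
  exact hy

include hq hA in
theorem TameWild.pow_left {σ : GQ} (hσ : σ ∈ A.inertiaSubgroupIn ℚ) {x : Qb}
    (hx : TameWild A σ x) (n : ℕ) : TameWild A (σ ^ n) x := by
  induction n with
  | zero => rw [pow_zero]; exact tameWild_one hx.ne_zero
  | succ n ih => rw [pow_succ']; exact TameWild.comp hq hA hσ hx ih

include hq hA in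
/-- **Roots of unity of order prime to `q` inject into the residue field.** -/
theorem tame_rootOfUnity_eq_one {η : Qb} {d : ℕ} (hd : d.Coprime q) (hη : η ^ d = 1)
    (h1 : A.valuation (η - 1) < 1) : η = 1 := by
  by_contra hne
  have hd0 : d ≠ 0 := by
    rintro rfl
    rw [Nat.coprime_zero_left] at hd
    exact hq.ne_one hd
  have hvη : A.valuation η = 1 := by
    have : A.valuation η ^ d = 1 := by rw [← map_pow, hη, map_one]
    exact (pow_eq_one_iff_of_nonneg zero_le hd0).mp this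
  have hsum : ∑ i ∈ Finset.range d, η ^ i = 0 := by
    have h := geom_sum_mul η d
    rw [hη, sub_self] at h
    exact (mul_eq_zero.mp h).resolve_right (sub_ne_zero.mpr hne)
  -- each `η ^ i - 1` is in the maximal ideal
  have hpow : ∀ i : ℕ, A.valuation (η ^ i - 1) < 1 := by
    intro i
    have h := geom_sum_mul η i
    rw [← h, map_mul]
    have hle : A.valuation (∑ j ∈ Finset.range i, η ^ j) ≤ 1 := by
      refine Valuation.map_sum_le _ (fun j _ => ?_)
      rw [map_pow, hvη, one_pow]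
    calc A.valuation (∑ j ∈ Finset.range i, η ^ j) * A.valuation (η - 1)
        ≤ 1 * A.valuation (η - 1) := mul_le_mul_left hle _
      _ = A.valuation (η - 1) := one_mul _
      _ < 1 := h1
  have hd1 : A.valuation ((d : ℤ) : Qb) = 1 := by
    apply qv_valuation_intCast_eq_one A hq hA
    intro hdvd
    have h2 : q ∣ d := by exact_mod_cast hdvd
    have h3 : q ∣ Nat.gcd d q := Nat.dvd_gcd h2 dvd_rfl
    rw [hd] at h3
    exact hq.ne_one (Nat.dvd_one.mp h3)
  have hlt : A.valuation (∑ i ∈ Finset.range d, (η ^ i - 1)) < 1 :=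
    Valuation.map_sum_lt _ one_ne_zero (fun i _ => hpow i)
  rw [Finset.sum_sub_distrib, hsum, zero_sub, Valuation.map_neg] at hlt
  simp only [Finset.sum_const, Finset.card_range, nsmul_eq_mul, mul_one] at hlt
  have : A.valuation ((d : ℤ) : Qb) < 1 := by simpa using hlt
  rw [hd1] at this
  exact lt_irrefl _ this

include hq hA in
/-- inertia fixes the roots of unity of order prime to `q` -/
theorem tame_inertia_fixes_rootOfUnity {σ : GQ} (hσ : σ ∈ A.inertiaSubgroupIn ℚ) {η : Qb} {d : ℕ}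
    (hd : d.Coprime q) (hη : η ^ d = 1) : σ η = η := by
  have hd0 : d ≠ 0 := by
    rintro rfl
    rw [Nat.coprime_zero_left] at hd
    exact hq.ne_one hd
  have hη0 : η ≠ 0 := by
    rintro rfl
    rw [zero_pow hd0] at hη
    exact zero_ne_one hη
  have hvη : A.valuation η = 1 := by
    have : A.valuation η ^ d = 1 := by rw [← map_pow, hη, map_one]
    exact (pow_eq_one_iff_of_nonneg zero_le hd0).mp this
  have hw : TameWild A σ η := tameWild_of_unit hσ hvη
  unfold TameWild at hw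
  rw [hvη] at hw
  have h2 : (σ η / η) ^ d = 1 := by
    rw [div_pow, ← map_pow, hη, map_one, div_one]
  have h3 : A.valuation (σ η / η - 1) < 1 := by
    have : σ η / η - 1 = (σ η - η) / η := by field_simp
    rw [this, map_div₀, hvη, div_one]
    exact hw
  have := tame_rootOfUnity_eq_one hq hA hd h2 h3
  rwa [div_eq_one_iff_eq hη0] at this

include hq hA in
/-- If `σ ∈ I` is wild at a uniformiser `ϖ` of `F`, it is wild at every nonzero element of `F`. -/
theorem tameWild_of_uniformizer {σ : GQ} (hσ : σ ∈ A.inertiaSubgroupIn ℚ) {ϖ : Qb}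
    (hϖ : TameWild A σ ϖ) {x : Qb} (hx0 : x ≠ 0)
    (hx : ∃ k : ℤ, qvOrd A q x = k * qvOrd A q ϖ) : TameWild A σ x := by
  obtain ⟨k, hk⟩ := hx
  have hϖ0 : ϖ ≠ 0 := hϖ.ne_zero
  have halg := qv_isAlgebraic_int_qbar
  set u : Qb := x / ϖ ^ k with hu
  have hϖk0 : ϖ ^ k ≠ 0 := zpow_ne_zero _ hϖ0
  have hu0 : u ≠ 0 := div_ne_zero hx0 hϖk0
  have hordzpow : qvOrd A q (ϖ ^ k) = k * qvOrd A q ϖ := by
    rcases Int.eq_nat_or_neg k with ⟨n, hn | hn⟩
    · rw [hn, zpow_natCast]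
      exact (qvalOf A hq hA halg).ord_pow hϖ0 n |>.trans (by push_cast; rfl)
    · rw [hn, zpow_neg, zpow_natCast]
      have h1 := (qvalOf A hq hA halg).ord_inv (pow_ne_zero n hϖ0)
      have h2 := (qvalOf A hq hA halg).ord_pow hϖ0 n
      change qvOrd A q (ϖ ^ n)⁻¹ = -qvOrd A q (ϖ ^ n) at h1
      change qvOrd A q (ϖ ^ n) = n * qvOrd A q ϖ at h2
      rw [h1, h2]; push_cast; ring
  have hordu : qvOrd A q u = 0 := by
    have h1 := (qvalOf A hq hA halg).ord_div hx0 hϖk0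
    change qvOrd A q (x / ϖ ^ k) = qvOrd A q x - qvOrd A q (ϖ ^ k) at h1
    rw [hu, h1, hordzpow, hk, sub_self]
  have hvu : A.valuation u = 1 := by
    apply le_antisymm
    · rw [← map_one A.valuation, qv_le_iff A hq hA halg hu0 one_ne_zero, qvOrd_one A hq hA, hordu]
    · rw [← map_one A.valuation, qv_le_iff A hq hA halg one_ne_zero hu0, qvOrd_one A hq hA, hordu]
  have hxe : x = u * ϖ ^ k := by rw [hu, div_mul_cancel₀ _ hϖk0]
  rw [hxe]
  exact (tameWild_of_unit hσ hvu).mul hq hA hσ (hϖ.zpow hq hA hσ k)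

end Wild

section Resolvent

/-- every automorphism has bounded finite order modulo the fixing subgroup of a finite extension -/
theorem tame_exists_pow_mem_fixingSubgroup {K L : Type*} [Field K] [Field L] [Algebra K L]
    (E : IntermediateField K L) [FiniteDimensional K E] :
    ∃ B : ℕ, 0 < B ∧ ∀ σ : L ≃ₐ[K] L, ∃ n : ℕ, 0 < n ∧ n ≤ B ∧ σ ^ n ∈ E.fixingSubgroup := by
  classical
  have hfin : Finite (E →ₐ[K] L) := Finite.of_fintype _
  letI := Fintype.ofFinite (E →ₐ[K] L)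
  refine ⟨Fintype.card (E →ₐ[K] L), Fintype.card_pos_iff.mpr ⟨E.val⟩, fun σ => ?_⟩
  let r : Fin (Fintype.card (E →ₐ[K] L) + 1) → (E →ₐ[K] L) :=
    fun j => ((σ ^ (j : ℕ) : L ≃ₐ[K] L) : L →ₐ[K] L).comp E.val
  obtain ⟨i, j, hij, hr⟩ := Fintype.exists_ne_map_eq_of_card_lt r (by simp)
  have key : ∀ i j : Fin (Fintype.card (E →ₐ[K] L) + 1), (i : ℕ) < j → r i = r j →
      ∃ n : ℕ, 0 < n ∧ n ≤ Fintype.card (E →ₐ[K] L) ∧ σ ^ n ∈ E.fixingSubgroup := by
    intro i j hlt hr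
    refine ⟨j - i, Nat.sub_pos_of_lt hlt, ?_, ?_⟩
    · have := j.2
      omega
    rw [IntermediateField.mem_fixingSubgroup_iff]
    intro x hx
    have h1 := DFunLike.congr_fun hr (⟨x, hx⟩ : E)
    have h1' : (σ ^ (i : ℕ)) x = (σ ^ (j : ℕ)) x := h1
    have h2 : σ ^ (j : ℕ) = σ ^ (i : ℕ) * σ ^ ((j : ℕ) - i) := by
      rw [← pow_add, Nat.add_sub_cancel' hlt.le]
    rw [h2, AlgEquiv.mul_apply] at h1'
    exact ((σ ^ (i : ℕ)).injective h1').symm
  rcases lt_or_gt_of_ne (fun h => hij (Fin.ext h)) with h | h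
  · exact key i j h hr
  · exact key j i h hr.symm

variable (A : ValuationSubring Qb) {q : ℕ} (hq : q.Prime) (hA : A.LiesOverPrime q)
variable {A}

include hq hA in
/-- **Lagrange resolvent.** Let `F₁ ⊆ F` be subfields of `ℚ̄`, `σ ∈ I` wild on `F` and stabilising
`F`, and suppose that the order `d` of `σ` modulo the fixing subgroup of `F₁` is prime to `q` and
that `F` contains a primitive `d`-th root of unity.  Then `d = 1`. -/
theorem tame_resolvent (F₁ F : IntermediateField ℚ Qb) (hle : F₁ ≤ F) {σ : GQ}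
    (hσ : σ ∈ A.inertiaSubgroupIn ℚ) (hstab : ∀ y : Qb, y ∈ F → σ y ∈ F)
    (hwild : ∀ y : Qb, y ∈ F → y ≠ 0 → TameWild A σ y)
    {d : ℕ} (hdpos : 0 < d) (hσd : σ ^ d ∈ F₁.fixingSubgroup)
    (hmin : ∀ j : ℕ, 0 < j → j < d → σ ^ j ∉ F₁.fixingSubgroup)
    (hd : d.Coprime q) {ζ : Qb} (hζF : ζ ∈ F) (hζ : IsPrimitiveRoot ζ d) : d = 1 := by
  classical
  have hζd : ζ ^ d = 1 := hζ.pow_eq_one
  have hζ0 : ζ ≠ 0 := hζ.ne_zero hdpos.ne'
  have hσζ : σ ζ = ζ := tame_inertia_fixes_rootOfUnity hq hA hσ hd hζd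
  have hσζinv : σ ζ⁻¹ = ζ⁻¹ := by rw [map_inv₀, hσζ]
  have hstabpow : ∀ (j : ℕ) (y : Qb), y ∈ F → (σ ^ j) y ∈ F := by
    intro j
    induction j with
    | zero => intro y hy; simpa using hy
    | succ j ih =>
      intro y hy
      rw [pow_succ', AlgEquiv.mul_apply]
      exact hstab _ (ih y hy)
  -- Dedekind independence
  let f : Fin d → (F₁ →* Qb) := fun j =>
    ((σ ^ (j : ℕ) : GQ) : Qb →* Qb).comp ((algebraMap F₁ Qb : F₁ →+* Qb) : F₁ →* Qb)
  have hf_apply : ∀ (j : Fin d) (x : F₁), f j x = (σ ^ (j : ℕ)) (x : Qb) := fun j x => rfl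
  have hfinj : Function.Injective f := by
    have key : ∀ i j : Fin d, (i : ℕ) < j → f i ≠ f j := by
      intro i j hlt hij
      refine hmin (j - i) (Nat.sub_pos_of_lt hlt) (lt_of_le_of_lt (Nat.sub_le _ _) j.2) ?_
      rw [IntermediateField.mem_fixingSubgroup_iff]
      intro x hx
      have h1 := DFunLike.congr_fun hij (⟨x, hx⟩ : F₁)
      rw [hf_apply, hf_apply] at h1
      have h2 : σ ^ (j : ℕ) = σ ^ (i : ℕ) * σ ^ ((j : ℕ) - i) := by
        rw [← pow_add, Nat.add_sub_cancel' hlt.le]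
      rw [h2, AlgEquiv.mul_apply] at h1
      exact ((σ ^ (i : ℕ)).injective h1).symm
    intro i j hij
    by_contra hne
    rcases lt_or_gt_of_ne (fun h => hne (Fin.ext h)) with h | h
    · exact key i j h hij
    · exact key j i h hij.symm
  have hli : LinearIndependent Qb (fun j : Fin d => ((f j : F₁ →* Qb) : F₁ → Qb)) :=
    (linearIndependent_monoidHom F₁ Qb).comp f hfinj
  have hex : ∃ x : F₁, ∑ j : Fin d, (ζ⁻¹) ^ (j : ℕ) * f j x ≠ 0 := by
    by_contra hall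
    push Not at hall
    have hz : ∑ j : Fin d, ((ζ⁻¹) ^ (j : ℕ)) • ((f j : F₁ →* Qb) : F₁ → Qb) = 0 := by
      funext x
      simp only [Finset.sum_apply, Pi.smul_apply, smul_eq_mul, Pi.zero_apply]
      exact hall x
    have h0 := (Fintype.linearIndependent_iff.mp hli) _ hz ⟨0, hdpos⟩
    simp at h0
  obtain ⟨x, hx⟩ := hex
  -- the resolvent
  set g : ℕ → Qb := fun j => (ζ⁻¹) ^ j * (σ ^ j) (x : Qb) with hg
  set α : Qb := ∑ j ∈ Finset.range d, g j with hα
  have hα_eq : α = ∑ j : Fin d, (ζ⁻¹) ^ (j : ℕ) * f j x := by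
    rw [hα, ← Fin.sum_univ_eq_sum_range]
    exact Finset.sum_congr rfl (fun j _ => by rw [hf_apply])
  have hα0 : α ≠ 0 := by rw [hα_eq]; exact hx
  have hαF : α ∈ F := by
    rw [hα]
    refine sum_mem (fun j _ => ?_)
    exact mul_mem (pow_mem (inv_mem hζF) j) (hstabpow j _ (hle (SetLike.coe_mem x)))
  -- `σ α = ζ α`
  have hgd : g d = g 0 := by
    simp only [hg]
    have hfix : (σ ^ d) (x : Qb) = x :=
      (IntermediateField.mem_fixingSubgroup_iff _ _).mp hσd _ (SetLike.coe_mem x)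
    rw [hfix, inv_pow, hζd, inv_one, one_mul, pow_zero, pow_zero, one_mul]
    simp
  have hσg : ∀ j, σ (g j) = ζ * g (j + 1) := by
    intro j
    simp only [hg]
    rw [map_mul, map_pow, hσζinv, pow_succ (ζ⁻¹) j, pow_succ' σ j, AlgEquiv.mul_apply]
    field_simp
  have hσα : σ α = ζ * α := by
    have h1 : ∑ j ∈ Finset.range d, g (j + 1) = ∑ j ∈ Finset.range d, g j := by
      have e1 := Finset.sum_range_succ' g d
      have e2 := Finset.sum_range_succ g d
      rw [e2, hgd] at e1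
      exact (add_right_cancel e1).symm
    rw [hα, map_sum, ← h1, Finset.mul_sum]
    exact Finset.sum_congr rfl (fun j _ => hσg j)
  -- wildness
  have hw := hwild α hαF hα0
  unfold TameWild at hw
  rw [hσα] at hw
  have e : ζ * α - α = (ζ - 1) * α := by ring
  rw [e, map_mul] at hw
  have hlt : A.valuation (ζ - 1) < 1 := by
    by_contra hge
    push Not at hge
    have := mul_le_mul_left hge (A.valuation α)
    rw [one_mul] at this
    exact absurd hw (not_lt.mpr this)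
  have hζ1 : ζ = 1 := tame_rootOfUnity_eq_one hq hA hd hζd hlt
  have := hζ.eq_orderOf
  rw [this, hζ1, orderOf_one]

include hq hA in
/-- An inertia element which is wild on `F` has `q`-power order on `F₁ ⊆ F`, provided `F` is stable
under `G_ℚ` and contains enough roots of unity. -/
theorem tame_wild_pow_mem (F₁ F : IntermediateField ℚ Qb) (hle : F₁ ≤ F)
    (hstab : ∀ (σ : GQ) (y : Qb), y ∈ F → σ y ∈ F)
    {B : ℕ} (hB : ∀ σ : GQ, ∃ n : ℕ, 0 < n ∧ n ≤ B ∧ σ ^ n ∈ F₁.fixingSubgroup)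
    {ζ : Qb} (hζF : ζ ∈ F) (hζ : IsPrimitiveRoot ζ B.factorial)
    {σ : GQ} (hσ : σ ∈ A.inertiaSubgroupIn ℚ)
    (hwild : ∀ y : Qb, y ∈ F → y ≠ 0 → TameWild A σ y) :
    ∃ a : ℕ, σ ^ (q ^ a) ∈ F₁.fixingSubgroup := by
  classical
  have hP : ∃ n : ℕ, 0 < n ∧ σ ^ n ∈ F₁.fixingSubgroup := by
    obtain ⟨n, hn, -, h⟩ := hB σ
    exact ⟨n, hn, h⟩
  set n := Nat.find hP with hn
  obtain ⟨hnpos, hnmem⟩ := Nat.find_spec hP
  have hnB : n ≤ B := by
    obtain ⟨m, hm, hmB, h⟩ := hB σ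
    exact (Nat.find_min' hP ⟨hm, h⟩).trans hmB
  obtain ⟨a, d, hqd, hnd⟩ := Nat.exists_eq_pow_mul_and_not_dvd hnpos.ne' q hq.ne_one
  have hdpos : 0 < d := by
    rcases Nat.eq_zero_or_pos d with h | h
    · rw [h, mul_zero] at hnd; omega
    · exact h
  have hqa : 0 < q ^ a := pow_pos hq.pos a
  set τ : GQ := σ ^ (q ^ a) with hτ
  have hτI : τ ∈ A.inertiaSubgroupIn ℚ := Subgroup.pow_mem _ hσ _
  have hτd : τ ^ d ∈ F₁.fixingSubgroup := by
    rw [hτ, ← pow_mul, ← hnd]; exact hnmem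
  have hτmin : ∀ j : ℕ, 0 < j → j < d → τ ^ j ∉ F₁.fixingSubgroup := by
    intro j hj hjd hmem
    rw [hτ, ← pow_mul] at hmem
    have h1 : n ≤ q ^ a * j := Nat.find_min' hP ⟨Nat.mul_pos hqa hj, hmem⟩
    have h2 : q ^ a * j < q ^ a * d := Nat.mul_lt_mul_of_pos_left hjd hqa
    omega
  have hdn : d ∣ n := ⟨q ^ a, by rw [hn, hnd, mul_comm]⟩
  have hdB : d ∣ B.factorial := hdn.trans (Nat.dvd_factorial hnpos hnB)
  obtain ⟨c, hc⟩ := hdB
  have hζd : IsPrimitiveRoot (ζ ^ c) d :=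
    IsPrimitiveRoot.pow (Nat.factorial_pos B) hζ (by rw [hc, mul_comm])
  have hcop : d.Coprime q := ((Nat.Prime.coprime_iff_not_dvd hq).mpr hqd).symm
  have hwildτ : ∀ y : Qb, y ∈ F → y ≠ 0 → TameWild A τ y := fun y hy hy0 =>
    (hwild y hy hy0).pow_left hq hA hσ _
  have hd1 := tame_resolvent hq hA F₁ F hle hτI (hstab τ) hwildτ hdpos hτd hτmin hcop
    (pow_mem hζF c) hζd
  refine ⟨a, ?_⟩
  rw [hd1, pow_one] at hτd
  exact hτd

end Resolvent

section Character

variable (A : ValuationSubring Qb) {q : ℕ} (hq : q.Prime) (hA : A.LiesOverPrime q)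

include hq hA in
theorem tame_unit_div {σ : GQ} (hσ : σ ∈ A.inertiaSubgroupIn ℚ) {ϖ : Qb} (hϖ : ϖ ≠ 0) :
    A.valuation (σ ϖ / ϖ) = 1 := by
  rw [map_div₀, tame_valuation_apply A hq hA hσ]
  exact div_self ((Valuation.ne_zero_iff _).mpr hϖ)

/-- the unit `σ ϖ / ϖ` -/
noncomputable def tameUnit (ϖ : Qb) (hϖ : ϖ ≠ 0)
    (σ : ↥(A.inertiaSubgroupIn ℚ)) : A.unitGroup :=
  ⟨Units.mk0 ((σ : GQ) ϖ / ϖ)
      (div_ne_zero ((map_ne_zero_iff (σ : GQ) (σ : GQ).injective).mpr hϖ) hϖ),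
    (A.mem_unitGroup_iff _).mpr (tame_unit_div A hq hA σ.2 hϖ)⟩

theorem tameUnit_coe (ϖ : Qb) (hϖ : ϖ ≠ 0) (σ : ↥(A.inertiaSubgroupIn ℚ)) :
    (((tameUnit A hq hA ϖ hϖ σ : A.unitGroup) : Qbˣ) : Qb) = (σ : GQ) ϖ / ϖ := rfl

/-- equality of residues of units from congruence -/
theorem tame_residueUnits_eq {u v : A.unitGroup}
    (h : A.valuation (((u : Qbˣ) : Qb) - ((v : Qbˣ) : Qb)) < 1) :
    A.unitGroupToResidueFieldUnits u = A.unitGroupToResidueFieldUnits v := by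
  apply Units.ext
  rw [coe_unitGroupToResidueFieldUnits_apply, coe_unitGroupToResidueFieldUnits_apply]
  refine (Ideal.Quotient.eq (I := IsLocalRing.maximalIdeal ↥A)).mpr ?_
  refine (A.valuation_lt_one_iff _).mpr ?_
  exact h

/-- **The tame character** `σ ↦ σ(ϖ)/ϖ mod 𝔪`. -/
noncomputable def tameChar (ϖ : Qb) (hϖ : ϖ ≠ 0) :
    ↥(A.inertiaSubgroupIn ℚ) →* (IsLocalRing.ResidueField A)ˣ where
  toFun σ := A.unitGroupToResidueFieldUnits (tameUnit A hq hA ϖ hϖ σ)
  map_one' := by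
    have : tameUnit A hq hA ϖ hϖ 1 = 1 := by
      apply Subtype.ext
      apply Units.ext
      rw [tameUnit_coe]
      simp [div_self hϖ]
    rw [this, map_one]
  map_mul' σ τ := by
    rw [← map_mul]
    apply tame_residueUnits_eq
    rw [Subgroup.coe_mul, Units.val_mul, tameUnit_coe, tameUnit_coe, tameUnit_coe,
      Subgroup.coe_mul, AlgEquiv.mul_apply]
    -- σ(τϖ)/ϖ - (σϖ/ϖ)(τϖ/ϖ) = (σϖ/ϖ) (σ(τϖ/ϖ) - τϖ/ϖ)
    have e : (σ : GQ) ((τ : GQ) ϖ) / ϖ - (σ : GQ) ϖ / ϖ * ((τ : GQ) ϖ / ϖ) =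
        (σ : GQ) ϖ / ϖ * ((σ : GQ) ((τ : GQ) ϖ / ϖ) - (τ : GQ) ϖ / ϖ) := by
      have hσϖ : (σ : GQ) ϖ ≠ 0 := (map_ne_zero_iff (σ : GQ) (σ : GQ).injective).mpr hϖ
      rw [map_div₀]
      field_simp
    rw [e, map_mul, tame_unit_div A hq hA σ.2 hϖ, one_mul]
    have hu := tame_unit_div A hq hA τ.2 hϖ
    have := tameWild_of_unit (A := A) σ.2 hu
    unfold TameWild at this
    rwa [hu] at this

theorem tameChar_eq_one_iff (ϖ : Qb) (hϖ : ϖ ≠ 0) (σ : ↥(A.inertiaSubgroupIn ℚ)) :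
    tameChar A hq hA ϖ hϖ σ = 1 ↔ TameWild A (σ : GQ) ϖ := by
  have h1 : tameChar A hq hA ϖ hϖ σ = 1 ↔
      tameUnit A hq hA ϖ hϖ σ ∈ A.unitGroupToResidueFieldUnits.ker := Iff.rfl
  rw [h1, ker_unitGroupToResidueFieldUnits, Subgroup.mem_comap, Subgroup.coe_subtype,
    mem_principalUnitGroup_iff, tameUnit_coe]
  unfold TameWild
  have hv : 0 < A.valuation ϖ := lt_of_le_of_ne zero_le ((Valuation.ne_zero_iff _).mpr hϖ).symm
  have e : (σ : GQ) ϖ / ϖ - 1 = ((σ : GQ) ϖ - ϖ) / ϖ := by field_simp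
  rw [e, map_div₀, div_lt_one₀ hv]

end Character

section Main

/-- **Tame inertia is cyclic (general form).**  Let `A` be a valuation subring of `ℚ̄` over the
prime `q` and `φ : G_ℚ → G` a homomorphism which is trivial on the fixing subgroup of a finite
extension `F₀` of `ℚ` and such that the image of every inertia element has order prime to `q`.
Then `φ` maps the inertia group of `A` onto a cyclic group: there is an inertia element `τ` such
that `φ σ ∈ ⟨φ τ⟩` for all inertia elements `σ`. -/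
theorem tame_inertia_image_cyclic' {q : ℕ} (hq : q.Prime) (A : ValuationSubring Qb)
    (hA : A.LiesOverPrime q) {G : Type*} [Group G] (φ : GQ →* G)
    (hG : ∀ σ ∈ A.inertiaSubgroupIn ℚ, (orderOf (φ σ)).Coprime q)
    (F₀ : IntermediateField ℚ Qb) [FiniteDimensional ℚ F₀]
    (hφ : F₀.fixingSubgroup ≤ φ.ker) :
    ∃ τ ∈ A.inertiaSubgroupIn ℚ, ∀ σ ∈ A.inertiaSubgroupIn ℚ, φ σ ∈ Subgroup.zpowers (φ τ) := by
  classical
  obtain ⟨B, hBpos, hB⟩ := tame_exists_pow_mem_fixingSubgroup F₀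
  haveI : NeZero ((B.factorial : ℕ) : ℚ) := ⟨by exact_mod_cast (Nat.factorial_pos B).ne'⟩
  obtain ⟨ζ, hζ⟩ := HasEnoughRootsOfUnity.exists_primitiveRoot Qb B.factorial
  -- the big level
  have hζint : IsIntegral ℚ ζ := (AlgebraicClosure.isAlgebraic ℚ).isIntegral.isIntegral ζ
  haveI : FiniteDimensional ℚ ↥(IntermediateField.adjoin ℚ {ζ}) :=
    IntermediateField.adjoin.finiteDimensional hζint
  haveI : FiniteDimensional ℚ ↥(F₀ ⊔ IntermediateField.adjoin ℚ {ζ}) :=
    IntermediateField.finiteDimensional_sup _ _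
  set F : IntermediateField ℚ Qb :=
    IntermediateField.normalClosure ℚ ↥(F₀ ⊔ IntermediateField.adjoin ℚ {ζ}) Qb with hF
  haveI : FiniteDimensional ℚ ↥F := normalClosure.is_finiteDimensional ℚ _ Qb
  haveI : Algebra.IsAlgebraic ℚ Qb := AlgebraicClosure.isAlgebraic ℚ
  haveI : IsAlgClosure ℚ Qb := ⟨inferInstance, inferInstance⟩
  haveI : Normal ℚ Qb := IsAlgClosure.normal ℚ Qb
  have hnorm : Normal ℚ ↥F := normalClosure.normal ℚ _ Qb
  have hle0 : F₀ ⊔ IntermediateField.adjoin ℚ {ζ} ≤ F := IntermediateField.le_normalClosure _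
  have hF₀F : F₀ ≤ F := le_sup_left.trans hle0
  have hζF : ζ ∈ F :=
    hle0 (le_sup_right (a := F₀) (IntermediateField.mem_adjoin_simple_self ℚ ζ))
  have hstab : ∀ (σ : GQ) (y : Qb), y ∈ F → σ y ∈ F := by
    intro σ y hy
    have h := (IntermediateField.normal_iff_forall_map_le' (K := F)).mp hnorm σ
    exact h ⟨y, hy, rfl⟩
  -- uniformiser and tame character
  obtain ⟨ϖ, hϖF, hϖ0, -, huni⟩ := tame_exists_uniformizer A hq hA F
  set ψ := tameChar A hq hA ϖ hϖ0 with hψ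
  obtain ⟨B', hB'pos, hB'⟩ := tame_exists_pow_mem_fixingSubgroup F
  set N := B'.factorial with hN
  haveI : NeZero N := ⟨(Nat.factorial_pos B').ne'⟩
  have hψN : ∀ σ, ψ σ ∈ rootsOfUnity N (IsLocalRing.ResidueField A) := by
    intro σ
    rw [mem_rootsOfUnity, ← map_pow, hψ, tameChar_eq_one_iff]
    obtain ⟨n, hn, hnB, hmem⟩ := hB' (σ : GQ)
    obtain ⟨c, hc⟩ := Nat.dvd_factorial hn hnB
    have hmem' : (σ : GQ) ^ N ∈ F.fixingSubgroup := by
      rw [hN, hc, pow_mul]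
      exact Subgroup.pow_mem _ hmem c
    have hfix : ((σ : GQ) ^ N) ϖ = ϖ :=
      (IntermediateField.mem_fixingSubgroup_iff _ _).mp hmem' ϖ hϖF
    unfold TameWild
    rw [Subgroup.coe_pow, hfix, sub_self, map_zero]
    exact lt_of_le_of_ne zero_le ((Valuation.ne_zero_iff _).mpr hϖ0).symm
  let ψ' : ↥(A.inertiaSubgroupIn ℚ) →* ↥(rootsOfUnity N (IsLocalRing.ResidueField A)) :=
    ψ.codRestrict _ hψN
  haveI : IsCyclic ↥(rootsOfUnity N (IsLocalRing.ResidueField A)) := rootsOfUnity.isCyclic _ N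
  haveI : IsCyclic ↥ψ'.range := Subgroup.isCyclic _
  obtain ⟨g, hg⟩ := IsCyclic.exists_generator (α := ↥ψ'.range)
  obtain ⟨τ, hτ⟩ := g.2
  refine ⟨(τ : GQ), τ.2, fun σ hσ => ?_⟩
  obtain ⟨k, hk⟩ := Subgroup.mem_zpowers_iff.mp (hg ⟨ψ' ⟨σ, hσ⟩, ⟨_, rfl⟩⟩)
  have hk' : ψ' τ ^ k = ψ' ⟨σ, hσ⟩ := by
    have := congrArg Subtype.val hk
    rw [Subgroup.coe_zpow, ← hτ] at this
    exact this
  -- σ' = σ τ^{-k} is wild at ϖ
  set σ' : ↥(A.inertiaSubgroupIn ℚ) := ⟨σ, hσ⟩ * τ ^ (-k) with hσ'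
  have hψσ' : ψ σ' = 1 := by
    have h1 : ψ' σ' = 1 := by
      rw [hσ', map_mul, map_zpow, zpow_neg, hk', mul_inv_cancel]
    have := congrArg Subtype.val h1
    exact this
  have hwϖ : TameWild A (σ' : GQ) ϖ := (tameChar_eq_one_iff A hq hA ϖ hϖ0 σ').mp hψσ'
  have hwild : ∀ y : Qb, y ∈ F → y ≠ 0 → TameWild A (σ' : GQ) y := fun y hy hy0 =>
    tameWild_of_uniformizer hq hA σ'.2 hwϖ hy0 (huni y hy hy0)
  obtain ⟨a, ha⟩ := tame_wild_pow_mem hq hA F₀ F hF₀F hstab hB hζF hζ σ'.2 hwild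
  have hφ1 : φ (σ' : GQ) ^ (q ^ a) = 1 := by
    rw [← map_pow]
    exact hφ ha
  have hord : orderOf (φ (σ' : GQ)) = 1 := by
    have h1 : orderOf (φ (σ' : GQ)) ∣ q ^ a := orderOf_dvd_of_pow_eq_one hφ1
    have h3 : (orderOf (φ (σ' : GQ))).Coprime (q ^ a) := (hG _ σ'.2).pow_right a
    exact Nat.Coprime.eq_one_of_dvd h3 h1
  have hφσ' : φ (σ' : GQ) = 1 := orderOf_eq_one_iff.mp hord
  have hσeq : σ = (σ' : GQ) * (τ : GQ) ^ k := by
    rw [hσ']
    simp [zpow_neg, mul_assoc]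
  rw [hσeq, map_mul, hφσ', one_mul, map_zpow]
  exact Subgroup.zpow_mem_zpowers _ k

/-- **Tame inertia is cyclic.**  Let `A` be a valuation subring of `ℚ̄` over the prime `q` and
`φ : G_ℚ → G` a homomorphism to a group of order prime to `q` which is trivial on the fixing
subgroup of a finite extension `F₀` of `ℚ`.  Then `φ` maps the inertia group of `A` onto a cyclic
group: there is an inertia element `τ` such that `φ σ ∈ ⟨φ τ⟩` for all inertia elements `σ`. -/
theorem tame_inertia_image_cyclic {q : ℕ} (hq : q.Prime) (A : ValuationSubring Qb)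
    (hA : A.LiesOverPrime q) {G : Type*} [Group G] (hG : (Nat.card G).Coprime q)
    (φ : GQ →* G) (F₀ : IntermediateField ℚ Qb) [FiniteDimensional ℚ F₀]
    (hφ : F₀.fixingSubgroup ≤ φ.ker) :
    ∃ τ ∈ A.inertiaSubgroupIn ℚ, ∀ σ ∈ A.inertiaSubgroupIn ℚ, φ σ ∈ Subgroup.zpowers (φ τ) :=
  tame_inertia_image_cyclic' hq A hA φ
    (fun _ _ => Nat.Coprime.coprime_dvd_left (orderOf_dvd_natCard _) hG) F₀ hφ

end Main

end Fermat.Agent.TW
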