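/-
P10 / G6 (helper8): linear algebra of `ad⁰` for a regular semisimple element.

For a 2-dimensional `k`-vector space `V` and `g ∈ End V` with characteristic polynomial
`(X - α)(X - β)`, `α ≠ β`: the trace-zero endomorphisms commuting with `g` form a line
(`tw_finrank_commSub`).
-/
import Mathlib

set_option autoImplicit false
set_option linter.style.haveILetI false
set_option linter.unusedSectionVars false

namespace Fermat.Agent.TW

open Module Polynomial

variable {k : Type*} [Field k] {V : Type*} [AddCommGroup V] [Module k V] [FiniteDimensional k V]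

/-- trace-zero endomorphisms commuting with `g` -/
def twCommSub (g : Module.End k V) : Submodule k (Module.End k V) where
  carrier := {f | LinearMap.trace k V f = 0 ∧ g * f = f * g}
  add_mem' := by
    rintro f f' ⟨h1, h2⟩ ⟨h1', h2'⟩
    exact ⟨by rw [map_add, h1, h1', add_zero], by rw [mul_add, add_mul, h2, h2']⟩
  zero_mem' := ⟨map_zero _, by rw [mul_zero, zero_mul]⟩
  smul_mem' := by
    rintro c f ⟨h1, h2⟩
    exact ⟨by rw [map_smul, h1, smul_zero], by rw [mul_smul_comm, smul_mul_assoc, h2]⟩

theorem mem_twCommSub {g f : Module.End k V} :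
    f ∈ twCommSub g ↔ LinearMap.trace k V f = 0 ∧ g * f = f * g := Iff.rfl

/-- an eigenbasis for an endomorphism of a plane with two distinct eigenvalues -/
theorem tw_exists_eigenbasis (hV : finrank k V = 2) (g : Module.End k V) {α β : k} (hαβ : α ≠ β)
    (hg : g.charpoly = (X - C α) * (X - C β)) :
    ∃ b : Basis (Fin 2) k V, g (b 0) = α • b 0 ∧ g (b 1) = β • b 1 := by
  have hα : g.HasEigenvalue α := by
    rw [Module.End.hasEigenvalue_iff_isRoot_charpoly, hg]
    simp
  have hβ : g.HasEigenvalue β := by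
    rw [Module.End.hasEigenvalue_iff_isRoot_charpoly, hg]
    simp
  obtain ⟨vα, hvα⟩ := hα.exists_hasEigenvector
  obtain ⟨vβ, hvβ⟩ := hβ.exists_hasEigenvector
  have hinj : Function.Injective ![α, β] := by
    intro i j hij
    fin_cases i <;> fin_cases j <;> simp_all
  have hli : LinearIndependent k ![vα, vβ] := by
    refine Module.End.eigenvectors_linearIndependent' g ![α, β] hinj ![vα, vβ] ?_
    intro i
    fin_cases i
    · exact hvα
    · exact hvβ
  let b : Basis (Fin 2) k V := basisOfLinearIndependentOfCardEqFinrank hli (by simp [hV])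
  refine ⟨b, ?_, ?_⟩
  · have : b 0 = vα := by simp [b]
    rw [this]
    exact hvα.apply_eq_smul
  · have : b 1 = vβ := by simp [b]
    rw [this]
    exact hvβ.apply_eq_smul

/-- **(I-d)** the commutant of a regular semisimple element in `sl(V)` is a line -/
theorem tw_finrank_commSub (hV : finrank k V = 2) (g : Module.End k V) {α β : k} (hαβ : α ≠ β)
    (hg : g.charpoly = (X - C α) * (X - C β)) : finrank k (twCommSub g) = 1 := by
  obtain ⟨b, hb0, hb1⟩ := tw_exists_eigenbasis hV g hαβ hg
  -- the generator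
  let f₀ : Module.End k V := b.constr k ![b 0, -b 1]
  have hf₀0 : f₀ (b 0) = b 0 := by simp [f₀]
  have hf₀1 : f₀ (b 1) = -b 1 := by simp [f₀]
  have hf₀ : f₀ ∈ twCommSub g := by
    constructor
    · rw [LinearMap.trace_eq_matrix_trace k b, Matrix.trace_fin_two]
      simp [LinearMap.toMatrix_apply, hf₀0, hf₀1]
    · apply b.ext
      intro i
      fin_cases i
      · simp only [Fin.zero_eta, Module.End.mul_apply, hf₀0, hb0, map_smul]
      · simp only [Fin.mk_one, Module.End.mul_apply, hf₀1, hb1, map_smul, map_neg, smul_neg]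
  have hf₀ne : (⟨f₀, hf₀⟩ : twCommSub g) ≠ 0 := by
    intro h
    have h1 : f₀ = 0 := congrArg Subtype.val h
    have h2 : f₀ (b 0) = 0 := by rw [h1]; rfl
    rw [hf₀0] at h2
    exact b.ne_zero 0 h2
  refine finrank_eq_one _ hf₀ne ?_
  rintro ⟨f, htr, hcomm⟩
  -- coordinates of `f`
  have hcomm' : ∀ v, g (f v) = f (g v) := fun v => by
    have := LinearMap.congr_fun hcomm v
    simpa [Module.End.mul_apply] using this
  have hβα : β - α ≠ 0 := sub_ne_zero.mpr (Ne.symm hαβ)
  have hαβ' : α - β ≠ 0 := sub_ne_zero.mpr hαβ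
  -- f (b 0) = a • b 0
  have key0 : b.repr (f (b 0)) 1 = 0 := by
    have h := hcomm' (b 0)
    rw [hb0, map_smul] at h
    have hrepr : f (b 0) = b.repr (f (b 0)) 0 • b 0 + b.repr (f (b 0)) 1 • b 1 := by
      conv_lhs => rw [← b.sum_repr (f (b 0)), Fin.sum_univ_two]
    set a := b.repr (f (b 0)) 0
    set c := b.repr (f (b 0)) 1
    rw [hrepr] at h
    have h2 := congrArg (fun v => b.repr v 1) h
    simp only [map_add, map_smul, hb0, hb1, Finsupp.coe_add, Finsupp.coe_smul, Pi.add_apply,
      Pi.smul_apply, Basis.repr_self, smul_eq_mul, Finsupp.single_apply] at h2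
    simp at h2
    have h3 : c * (β - α) = 0 := by linear_combination h2
    exact (mul_eq_zero.mp h3).resolve_right hβα
  have key1 : b.repr (f (b 1)) 0 = 0 := by
    have h := hcomm' (b 1)
    rw [hb1, map_smul] at h
    have hrepr : f (b 1) = b.repr (f (b 1)) 0 • b 0 + b.repr (f (b 1)) 1 • b 1 := by
      conv_lhs => rw [← b.sum_repr (f (b 1)), Fin.sum_univ_two]
    set a := b.repr (f (b 1)) 0
    set c := b.repr (f (b 1)) 1
    rw [hrepr] at h
    have h2 := congrArg (fun v => b.repr v 0) h
    simp only [map_add, map_smul, hb0, hb1, Finsupp.coe_add, Finsupp.coe_smul, Pi.add_apply,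
      Pi.smul_apply, Basis.repr_self, smul_eq_mul, Finsupp.single_apply] at h2
    simp at h2
    have h3 : a * (α - β) = 0 := by linear_combination h2
    exact (mul_eq_zero.mp h3).resolve_right hαβ'
  have htr' : b.repr (f (b 0)) 0 + b.repr (f (b 1)) 1 = 0 := by
    rw [LinearMap.trace_eq_matrix_trace k b, Matrix.trace_fin_two] at htr
    simpa [LinearMap.toMatrix_apply] using htr
  refine ⟨b.repr (f (b 0)) 0, ?_⟩
  apply Subtype.ext
  show b.repr (f (b 0)) 0 • f₀ = f
  apply b.ext
  intro i
  fin_cases i
  · simp only [Fin.zero_eta, LinearMap.smul_apply, hf₀0]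
    conv_rhs => rw [← b.sum_repr (f (b 0)), Fin.sum_univ_two, key0, zero_smul, add_zero]
  · simp only [Fin.mk_one, LinearMap.smul_apply, hf₀1]
    conv_rhs => rw [← b.sum_repr (f (b 1)), Fin.sum_univ_two, key1, zero_smul, zero_add]
    rw [smul_neg, ← neg_smul]
    congr 1
    linear_combination (-1 : k) * htr'

end Fermat.Agent.TW
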