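/-
P10 / G6d (helper8): the archimedean place.  `h⁰(G_ℝ, ad⁰ ρbar) = 1` for odd `ρbar` and
`H¹(G_ℝ, N) = 0` when `2` is invertible: `tw_contractArch : ContractArch ρbar`.
-/
import Fermat.Agent.Lib.TW.Interface
import Fermat.Agent.Lib.TW.Local.AdInvariants

set_option autoImplicit false

open Fermat.Agent.S53Lib groupCohomology ExtCitation Polynomial CategoryTheory

namespace Fermat.Agent.TW

noncomputable section

variable {k : Type} [Field k]

/-! ## `H¹` of the archimedean decomposition group -/

/-- every element of the archimedean decomposition group is `1` or the generator -/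
theorem tw_arch_cases (g : archimedeanDecomposition) : g = 1 ∨ g = archimedeanGen := by
  obtain ⟨g, hg⟩ := g
  obtain ⟨n, rfl⟩ := Subgroup.mem_zpowers_iff.mp hg
  rcases Int.even_or_odd n with ⟨m, hm⟩ | ⟨m, hm⟩
  · left
    apply Subtype.ext
    show complexConjugation ^ n = 1
    rw [hm, ← two_mul, zpow_mul, zpow_ofNat, complexConjugation_sq, one_zpow]
  · right
    apply Subtype.ext
    show complexConjugation ^ n = complexConjugation
    rw [hm, zpow_add, zpow_mul, zpow_ofNat, complexConjugation_sq, one_zpow, one_mul, zpow_one]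

theorem tw_archGen_mul_self : archimedeanGen * archimedeanGen = 1 :=
  Subtype.ext complexConjugation_mul_self

/-- `H¹(G_ℝ, N) = 0` if `2` is invertible -/
theorem tw_arch_H1_eq_zero (h2 : (2 : k) ≠ 0) (N : Rep k archimedeanDecomposition) (x : H1 N) :
    x = 0 := by
  induction x using H1_induction_on with
  | h f =>
    rw [H1π_eq_zero_iff]
    set γ := archimedeanGen
    have hco : ∀ g h : archimedeanDecomposition, f (g * h) = N.ρ g (f h) + f g :=
      (mem_cocycles₁_iff (f : archimedeanDecomposition → N)).mp f.2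
    have h1 : N.ρ γ (f γ) = -f γ := by
      have := hco γ γ
      rw [tw_archGen_mul_self, cocycles₁_map_one] at this
      exact (eq_neg_of_add_eq_zero_left this.symm)
    refine ⟨-((2 : k)⁻¹ • f γ), ?_⟩
    funext g
    rw [d₀₁_hom_apply]
    rcases tw_arch_cases g with rfl | rfl
    · simp
    · rw [map_neg, map_smul, h1, smul_neg, neg_neg, sub_neg_eq_add, ← add_smul]
      have : (2 : k)⁻¹ + (2 : k)⁻¹ = 1 := by field_simp; norm_num
      rw [this, one_smul]

/-! ## `h⁰` -/

variable (ρbar : ResidualGaloisRep k)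

/-- an involution of determinant `-1` of a plane has characteristic polynomial `(X - 1)(X + 1)` -/
theorem tw_charpoly_of_involution {V : Type*} [AddCommGroup V] [Module k V]
    [FiniteDimensional k V] (hV : Module.finrank k V = 2) (g : Module.End k V) (hg2 : g * g = 1)
    (hdet : LinearMap.det g = -1) : g.charpoly = (X - C 1) * (X - C (-1)) := by
  let b : Module.Basis (Fin 2) k V := Module.finBasisOfFinrankEq k V hV
  set M := LinearMap.toMatrix b b g with hM
  have hMM : M * M = 1 := by
    rw [hM, ← LinearMap.toMatrix_mul, hg2, LinearMap.toMatrix_one]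
  have hMdet : M.det = -1 := by rw [hM, LinearMap.det_toMatrix, hdet]
  have hCH := Matrix.aeval_self_charpoly M
  rw [Matrix.charpoly_fin_two, hMdet] at hCH
  simp only [map_add, map_sub, map_pow, aeval_X, map_mul, aeval_C, map_neg, map_one] at hCH
  rw [sq, hMM] at hCH
  have htM : (algebraMap k (Matrix (Fin 2) (Fin 2) k)) M.trace * M = 0 := by
    have : (1 : Matrix (Fin 2) (Fin 2) k) - (algebraMap k (Matrix (Fin 2) (Fin 2) k)) M.trace * M
        + -1 = 0 := hCH
    have h3 : (algebraMap k (Matrix (Fin 2) (Fin 2) k)) M.trace * M =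
        -((1 : Matrix (Fin 2) (Fin 2) k) - (algebraMap k (Matrix (Fin 2) (Fin 2) k)) M.trace * M
          + -1) := by abel
    rw [h3, this, neg_zero]
  have ht : M.trace = 0 := by
    have h4 := congrArg (fun N => N * M) htM
    simp only [zero_mul, mul_assoc, hMM, mul_one] at h4
    have h5 := congrFun (congrFun h4 0) 0
    simpa [Matrix.algebraMap_matrix_apply] using h5
  rw [← LinearMap.charpoly_toMatrix g b, ← hM, Matrix.charpoly_fin_two, ht, hMdet]
  simp
  ring

/-- `h⁰(G_ℝ, ad⁰ ρbar) = 1` for odd `ρbar` -/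
theorem tw_arch_finrank_invariants (h2 : (2 : k) ≠ 0)
    (hodd : LinearMap.det (ρbar.ρ complexConjugation) = -1) :
    Module.finrank k (Rep.res archimedeanLoc (ad0Rep ρbar)).ρ.invariants = 1 := by
  set g : Module.End k ρbar.V := ρbar.ρ complexConjugation with hg
  have hg2 : g * g = 1 := by
    rw [hg, ← map_mul, complexConjugation_mul_self, map_one]
  have hginv : ρbar.ρ complexConjugation⁻¹ = g := by rw [complexConjugation_inv]
  have hne : (1 : k) ≠ -1 := by
    intro h
    apply h2
    have : (2 : k) = 1 + 1 := by norm_num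
    rw [this]
    nth_rewrite 2 [h]
    ring
  have hchar := tw_charpoly_of_involution ρbar.finrank_eq g hg2 hodd
  rw [← tw_finrank_commSub ρbar.finrank_eq g hne hchar]
  -- the comparison map
  let N := Rep.res archimedeanLoc (ad0Rep ρbar)
  have hγ : ∀ x : (ad0Rep ρbar).V, N.ρ archimedeanGen x = (ad0Rep ρbar).ρ complexConjugation x :=
    fun x => rfl
  have hAd : ∀ f : Module.End k ρbar.V, adRepn ρbar complexConjugation f = g * f * g := by
    intro f
    rw [adRepn_apply, hginv]
    rfl
  let Φ : N.ρ.invariants →ₗ[k] twCommSub g :=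
    { toFun := fun x => ⟨ad0Val ρbar x.1, by
        refine ⟨trace_ad0Val ρbar x.1, ?_⟩
        have h1 := (Representation.mem_invariants _ _).mp x.2 archimedeanGen
        have h3 := congrArg (ad0Val ρbar) h1
        rw [hγ, ad0Val_ρ, hAd] at h3
        calc g * ad0Val ρbar x.1 = g * ad0Val ρbar x.1 * (g * g) := by rw [hg2, mul_one]
          _ = (g * ad0Val ρbar x.1 * g) * g := by simp only [mul_assoc]
          _ = ad0Val ρbar x.1 * g := by rw [h3]⟩
      map_add' := fun x y => rfl
      map_smul' := fun c x => rfl }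
  have hinj : Function.Injective Φ := by
    intro x y hxy
    apply Subtype.ext
    apply ad0Val_injective ρbar
    have := congrArg (fun z : twCommSub g => (z : Module.End k ρbar.V)) hxy
    exact this
  have hsurj : Function.Surjective Φ := by
    rintro ⟨f, htr, hcomm⟩
    refine ⟨⟨ad0Mk ρbar f htr, ?_⟩, rfl⟩
    rw [Representation.mem_invariants]
    intro γ'
    rcases tw_arch_cases γ' with rfl | rfl
    · simp
    · apply ad0Val_injective ρbar
      rw [hγ, ad0Val_ρ, hAd, ad0Val_ad0Mk, hcomm, mul_assoc, hg2, mul_one]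
  exact (LinearEquiv.ofBijective Φ ⟨hinj, hsurj⟩).finrank_eq

/-- complex conjugation inverts roots of unity -/
theorem tw_complexConjugation_rootOfUnity {μ : AlgebraicClosure ℚ} {n : ℕ} (hn : 0 < n)
    (hμ : μ ^ n = 1) : complexConjugation μ = μ⁻¹ := by
  apply complexEmbedding.toRingHom.injective
  show complexEmbedding (complexConjugation μ) = complexEmbedding μ⁻¹
  rw [complexEmbedding_complexConjugation, map_inv₀]
  set z := complexEmbedding μ with hz
  have hzn : z ^ n = 1 := by rw [hz, ← map_pow, hμ, map_one]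
  have hnorm : ‖z‖ = 1 := Complex.norm_eq_one_of_pow_eq_one hzn hn.ne'
  have hz0 : z ≠ 0 := by
    intro h0
    rw [h0, norm_zero] at hnorm
    exact zero_ne_one hnorm
  rw [Complex.inv_def, Complex.normSq_eq_norm_sq, hnorm]
  simp

/-- a residual representation with cyclotomic determinant is odd -/
theorem tw_det_complexConjugation (p : ℕ) [Fact p.Prime]
    (hdet : (GaloisRepAdic.ofResidualGaloisRep ρbar).DetIsCyclotomic p) :
    LinearMap.det (ρbar.ρ complexConjugation) = -1 := by
  obtain ⟨hpk, h⟩ := hdet
  have hpk0 : (p : k) = 0 := by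
    have hbot : IsLocalRing.maximalIdeal k = ⊥ :=
      (Ideal.eq_bot_or_top _).resolve_right (Ideal.IsMaximal.ne_top inferInstance)
    rw [hbot] at hpk
    exact hpk
  have hp : p.Prime := Fact.out
  have h1 := h 1 complexConjugation (p - 1) (by
    intro μ hμ
    rw [pow_one] at hμ
    rw [tw_complexConjugation_rootOfUnity hp.pos hμ]
    have hμ0 : μ ≠ 0 := by
      rintro rfl
      rw [zero_pow hp.pos.ne'] at hμ
      exact zero_ne_one hμ
    rw [inv_eq_iff_eq_inv, ← one_div, eq_div_iff (pow_ne_zero _ hμ0), ← pow_succ',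
      Nat.sub_add_cancel hp.one_le, hμ])
  have hspan : Ideal.span {((p ^ 1 : ℕ) : k)} = ⊥ := by
    rw [pow_one, hpk0]
    simp
  change LinearMap.det (ρbar.ρ complexConjugation) - ((p - 1 : ℕ) : k) ∈ _ at h1
  rw [hspan, Ideal.mem_bot, sub_eq_zero] at h1
  rw [h1, Nat.cast_sub hp.one_le, hpk0]
  simp

/-- **(C-ARCH)** -/
theorem tw_contractArch (h2 : (2 : k) ≠ 0)
    (hodd : LinearMap.det (ρbar.ρ complexConjugation) = -1) : ContractArch ρbar :=
  ⟨tw_arch_finrank_invariants ρbar h2 hodd, fun x => tw_arch_H1_eq_zero h2 _ x⟩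

end

end Fermat.Agent.TW
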