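import Fermat.Agent.Lib.TW.Local.Unramified
import Fermat.Agent.Lib.TW.Local.TameInertia
import Fermat.Agent.Lib.FrobDensity.Main

set_option autoImplicit false
set_option linter.style.haveILetI false

open ExtCitation Fermat.Agent.S05Lib NumberField
open Fermat.Agent.CFT Fermat.Agent.CFT.Bridge Fermat.Agent.CFT.Global Fermat.Agent.FrobDensity
open scoped Pointwise

namespace Fermat.Agent.TW

noncomputable section

section NormDecomp


local notation "Qb" => AlgebraicClosure ℚ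
local notation "GQ'" => (AlgebraicClosure ℚ ≃ₐ[ℚ] AlgebraicClosure ℚ)

variable (q : ℕ) [hq : Fact q.Prime]

/-- `A.valuation y = 1` in terms of the `q`-adic norm, for the distinguished place -/
theorem tw_valuation_padicPlace_eq_one_iff {y : Qb} (hy : y ≠ 0) :
    (padicPlace q).valuation y = 1 ↔ ‖padicEmbedding q y‖ = 1 := by
  have hey : padicEmbedding q y ≠ 0 := (map_ne_zero_iff _ (padicEmbedding q).injective).2 hy
  have hn0 : 0 < ‖padicEmbedding q y‖ := norm_pos_iff.2 hey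
  have h1 : (padicPlace q).valuation y ≤ 1 ↔ ‖padicEmbedding q y‖ ≤ 1 := by
    rw [ValuationSubring.valuation_le_one_iff, mem_padicPlace_iff, ← NNReal.coe_le_coe]
    rfl
  have h2 : (padicPlace q).valuation y⁻¹ ≤ 1 ↔ ‖padicEmbedding q y‖⁻¹ ≤ 1 := by
    rw [ValuationSubring.valuation_le_one_iff, mem_padicPlace_iff, ← NNReal.coe_le_coe, map_inv₀,
      nnnorm_inv]
    rfl
  have hv0 : (padicPlace q).valuation y ≠ 0 := (Valuation.ne_zero_iff _).2 hy
  constructor
  · intro h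
    have h3 : ‖padicEmbedding q y‖ ≤ 1 := h1.1 h.le
    have h4 : ‖padicEmbedding q y‖⁻¹ ≤ 1 := h2.1 (by rw [map_inv₀, h, inv_one])
    have h5 : 1 ≤ ‖padicEmbedding q y‖ := (inv_le_one₀ hn0).1 h4
    exact le_antisymm h3 h5
  · intro h
    have h3 : (padicPlace q).valuation y ≤ 1 := h1.2 h.le
    have h4 : (padicPlace q).valuation y⁻¹ ≤ 1 := h2.2 (by rw [h, inv_one])
    rw [map_inv₀] at h4
    have h5 : 1 ≤ (padicPlace q).valuation y :=
      (inv_le_one₀ (lt_of_le_of_ne zero_le hv0.symm)).1 h4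
    exact le_antisymm h3 h5

/-- **the decomposition group of the distinguished place preserves the `q`-adic norm** -/
theorem tw_norm_padicEmbedding_of_mem_decomp {σ : GQ'}
    (hσ : σ ∈ (padicPlace q).decompositionSubgroup ℚ) (x : Qb) :
    ‖padicEmbedding q (σ x)‖ = ‖padicEmbedding q x‖ := by
  by_cases hx : x = 0
  · subst hx; simp
  set A := padicPlace q with hAdef
  have hA : A.LiesOverPrime q := Fermat.Agent.CFT.S14.padicPlace_liesOverPrime q
  obtain ⟨hπ0, -⟩ := qv_pi_pos A hq.out hA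
  obtain ⟨m, hm, s, hs⟩ := qv_exists_pow_eq A hq.out hA (qv_isAlgebraic_int_qbar x) hx
  have hq0 : ((q : ℕ) : Qb) ≠ 0 := by exact_mod_cast hq.out.ne_zero
  set u : Qb := x ^ m / ((q : ℕ) : Qb) ^ s with hu
  have hu0 : u ≠ 0 := div_ne_zero (pow_ne_zero _ hx) (zpow_ne_zero _ hq0)
  have hwu : A.valuation u = 1 := by
    rw [hu, map_div₀, map_pow, map_zpow₀, hs]
    exact div_self (zpow_ne_zero _ hπ0.ne')
  have hσu := qv_decomp_valuation_eq_one A hσ hwu
  have hσu0 : σ u ≠ 0 := (map_ne_zero_iff σ σ.injective).2 hu0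
  rw [tw_valuation_padicPlace_eq_one_iff q hu0] at hwu
  rw [tw_valuation_padicPlace_eq_one_iff q hσu0] at hσu
  have hσu' : σ u = (σ x) ^ m / ((q : ℕ) : Qb) ^ s := by
    rw [hu, map_div₀, map_pow, map_zpow₀, map_natCast]
  rw [hσu', map_div₀, map_pow, map_zpow₀, norm_div, norm_pow, norm_zpow] at hσu
  rw [hu, map_div₀, map_pow, map_zpow₀, norm_div, norm_pow, norm_zpow] at hwu
  have hqn0 : ‖padicEmbedding q ((q : ℕ) : Qb)‖ ^ s ≠ 0 :=
    zpow_ne_zero _ (norm_ne_zero_iff.2 ((map_ne_zero_iff _ (padicEmbedding q).injective).2 hq0))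
  rw [div_eq_one_iff_eq hqn0] at hσu hwu
  have h6 : ‖padicEmbedding q (σ x)‖ ^ m = ‖padicEmbedding q x‖ ^ m := by rw [hσu, hwu]
  exact (pow_left_inj₀ (norm_nonneg _) (norm_nonneg _) hm.ne').1 h6


end NormDecomp

section FrobStructure


/-- every ring automorphism of a finite field of characteristic `q` is a power of the Frobenius -/
theorem tw_ringEquiv_eq_frob_pow {L : Type*} [Field L] [Finite L] {q : ℕ} [hq : Fact q.Prime]
    [CharP L q] (α : L ≃+* L) : ∃ n : ℕ, ∀ x : L, α x = x ^ (q ^ n) := by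
  letI := ZMod.algebra L q
  let αa : L ≃ₐ[ZMod q] L := AlgEquiv.ofRingEquiv (f := α) (fun r => by
    have : (α : L →+* L).comp (algebraMap (ZMod q) L) = algebraMap (ZMod q) L :=
      Subsingleton.elim _ _
    exact RingHom.congr_fun this r)
  obtain ⟨n, hn⟩ := (FiniteField.bijective_frobeniusAlgEquivOfAlgebraic_pow (ZMod q) L).2 αa
  refine ⟨n.1, fun x => ?_⟩
  have h1 : (FiniteField.frobeniusAlgEquivOfAlgebraic (ZMod q) L ^ n.1) x = αa x := by
    rw [← hn]
  have h2 : αa x = α x := rfl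
  rw [← h2, ← h1, AlgEquiv.coe_pow, FiniteField.coe_frobeniusAlgEquivOfAlgebraic_iterate,
    ZMod.card]

/-- elements of the decomposition group preserve `v < 1` -/
theorem tw_valuation_lt_one_of_mem_decomp {A : ValuationSubring Qbar} {σ : GQ}
    (hσ : σ ∈ A.decompositionSubgroup ℚ) (z : Qbar) :
    A.valuation (σ z) < 1 ↔ A.valuation z < 1 := by
  have h := valuation_smul_lt_one_iff (K := ℚ) A σ z
  have h1 : σ • A = A := hσ
  rw [h1] at h
  exact h

variable (F : IntermediateField ℚ Qbar)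

/-- the restriction of an element of the decomposition group stabilises the prime below -/
theorem tw_restrictRat_smul_primeUnder (h : @Normal ℚ ↥F _ _ F.algebra')
    {A : ValuationSubring Qbar} {σ : GQ} (hσ : σ ∈ A.decompositionSubgroup ℚ) :
    restrictRat F h σ • primeUnder F A = primeUnder F A := by
  ext x
  rw [Ideal.mem_pointwise_smul_iff_inv_smul_mem, mem_primeUnder_iff, mem_primeUnder_iff]
  have hσ' : σ⁻¹ ∈ A.decompositionSubgroup ℚ := inv_mem hσ
  have h1 : (((restrictRat F h σ)⁻¹ • x : 𝓞 ↥F) : ↥F) = (restrictRat F h σ)⁻¹ (x : ↥F) := rfl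
  have h2 : (restrictRat F h σ)⁻¹ = restrictRat F h σ⁻¹ := by
    rw [inv_eq_iff_mul_eq_one, ← restrictRat_mul, mul_inv_cancel, restrictRat_one]
  rw [h1, h2, restrictRat_coe]
  exact tw_valuation_lt_one_of_mem_decomp hσ' _

/-- **structure of the decomposition group modulo a finite level**: `D_A ⊆ φ^ℕ · I_A · Gal(ℚ̄/F)`
for a Frobenius element `φ` at `A` and a finite normal extension `F` of `ℚ`. -/
theorem tw_decomp_eq_frob_pow_mul_inertia (hfd : FiniteDimensional ℚ F)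
    (h : @Normal ℚ ↥F _ _ F.algebra') {A : ValuationSubring Qbar} {q : ℕ} (hq : q.Prime)
    (hA : A.LiesOverPrime q) {φ : GQ} (hφ : A.IsFrobeniusAt φ q) {σ : GQ}
    (hσ : σ ∈ A.decompositionSubgroup ℚ) :
    ∃ n : ℕ, ∃ ι ∈ A.inertiaSubgroupIn ℚ, ∀ x ∈ F, σ x = (φ ^ n) (ι x) := by
  haveI : Fact q.Prime := ⟨hq⟩
  haveI : NumberField ↥F := numberField_of_finiteDimensional F (by
    convert hfd using 1)
  set P := primeUnder F A with hPdef
  have hqP : ((q : ℕ) : 𝓞 ↥F) ∈ P := natCast_mem_primeUnder F hA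
  have hP0 : P ≠ ⊥ := by
    intro h0
    rw [h0, Ideal.mem_bot] at hqP
    exact hq.ne_zero (by exact_mod_cast hqP)
  haveI : Finite (𝓞 ↥F ⧸ P) := Ideal.finiteQuotientOfFreeOfNeBot P hP0
  haveI hPmax : P.IsMaximal := Ideal.IsPrime.isMaximal inferInstance hP0
  letI : Field (𝓞 ↥F ⧸ P) := Ideal.Quotient.field P
  haveI : CharP (𝓞 ↥F ⧸ P) q := by
    rw [CharP.charP_iff_prime_eq_zero hq]
    have : ((q : ℕ) : 𝓞 ↥F ⧸ P) = Ideal.Quotient.mk P ((q : ℕ) : 𝓞 ↥F) := by simp
    rw [this]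
    exact Ideal.Quotient.eq_zero_iff_mem.2 hqP
  -- the automorphism of the residue field induced by `σ`
  set σF := restrictRat F h σ with hσF
  have hstab : σF • P = P := tw_restrictRat_smul_primeUnder F h hσ
  let e : 𝓞 ↥F ≃+* 𝓞 ↥F := MulSemiringAction.toRingEquiv (↥F ≃ₐ[ℚ] ↥F) (𝓞 ↥F) σF
  have hmap : P = Ideal.map e P := hstab.symm
  let α : (𝓞 ↥F ⧸ P) ≃+* (𝓞 ↥F ⧸ P) := Ideal.quotientEquiv P P e hmap
  obtain ⟨n, hn⟩ := tw_ringEquiv_eq_frob_pow (q := q) α
  have hφF := isArithFrobAt_restrictRat F h hq hA hφ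
  have hcard : Nat.card (ℤ ⧸ P.under ℤ) = q := Frob.natCard_int_quotient_under q hqP
  -- `σ x ≡ φ^n x` on the integers of `F`
  have hcong : ∀ x : 𝓞 ↥F, A.valuation (σ ((x : ↥F) : Qbar) - (φ ^ n) ((x : ↥F) : Qbar)) < 1 := by
    intro x
    have h1 : Ideal.Quotient.mk P (σF • x) = (Ideal.Quotient.mk P x) ^ (q ^ n) := by
      have := hn (Ideal.Quotient.mk P x)
      rw [← this]
      rfl
    have h2 := Frob.mk_pow_smul hφF n x
    rw [hcard] at h2
    have h3 : σF • x - (restrictRat F h φ) ^ n • x ∈ P := by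
      rw [← Ideal.Quotient.eq, h1, h2]
    rw [mem_primeUnder_iff] at h3
    convert h3 using 2
    push_cast
    rw [← restrictRat_pow, ← restrictRat_coe F h σ, ← restrictRat_coe F h (φ ^ n)]
    rfl
  have hφn : (φ ^ n)⁻¹ ∈ A.decompositionSubgroup ℚ :=
    inv_mem (pow_mem hφ.mem_decompositionSubgroup n)
  have hF : ∀ (τ : GQ) (x : Qbar), x ∈ F → τ x ∈ F := by
    intro τ x hx
    have := restrictRat_coe F h τ ⟨x, hx⟩
    rw [← this]
    exact (restrictRat F h τ ⟨x, hx⟩).2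
  obtain ⟨ι, hι, hιF⟩ := exists_mem_inertiaSubgroupIn_eqOn F hF hq hA ((φ ^ n)⁻¹ * σ) (by
    intro y hyF hyint
    have hy' : IsIntegral ℤ (⟨y, hyF⟩ : ↥F) := by
      have : IsIntegral ℤ (algebraMap ↥F Qbar ⟨y, hyF⟩) := hyint
      exact (isIntegral_algHom_iff (IsScalarTower.toAlgHom ℤ ↥F Qbar)
        (algebraMap ↥F Qbar).injective).1 this
    have h1 := hcong ⟨⟨y, hyF⟩, hy'⟩
    have h2 : ((φ ^ n)⁻¹ * σ) y - y = (φ ^ n)⁻¹ (σ y - (φ ^ n) y) := by
      rw [map_sub, AlgEquiv.mul_apply]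
      congr 1
      exact ((φ ^ n).symm_apply_apply y).symm
    rw [h2, tw_valuation_lt_one_of_mem_decomp hφn]
    exact h1)
  refine ⟨n, ι, hι, fun x hx => ?_⟩
  rw [hιF x hx, AlgEquiv.mul_apply]
  exact ((φ ^ n).apply_symm_apply (σ x)).symm


end FrobStructure

end

end Fermat.Agent.TW
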