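/-
P10 / G6 (helper8): the structure of tame inertia at a finite level, with the action of Frobenius
(`tame_structure`): `I_A = ⟨t⟩ · (q-power order mod F₀)` and `φ t φ⁻¹ ≡ t ^ q`.
-/
import Fermat.Agent.Lib.TW.Local.DecompStructure

set_option autoImplicit false
set_option linter.style.haveILetI false

namespace Fermat.Agent.TW

open ValuationSubring Polynomial
open Fermat.Agent.S05Lib
open scoped Pointwise

local notation "Qb" => AlgebraicClosure ℚ
local notation "GQ" => (AlgebraicClosure ℚ ≃ₐ[ℚ] AlgebraicClosure ℚ)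

section TameStructure

variable (A : ValuationSubring Qb) {q : ℕ} (hq : q.Prime) (hA : A.LiesOverPrime q)

include hq hA in
/-- the decomposition group preserves the valuation -/
theorem tw_decomp_valuation_apply {σ : GQ} (hσ : σ ∈ A.decompositionSubgroup ℚ) (x : Qb) :
    A.valuation (σ x) = A.valuation x := by
  by_cases hx : x = 0
  · subst hx; simp
  obtain ⟨hπ0, -⟩ := qv_pi_pos A hq hA
  obtain ⟨m, hm, s, hs⟩ := qv_exists_pow_eq A hq hA (qv_isAlgebraic_int_qbar x) hx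
  have hq0 : (q : Qb) ≠ 0 := by exact_mod_cast hq.ne_zero
  set u : Qb := x ^ m / (q : Qb) ^ s with hu
  have hwu : A.valuation u = 1 := by
    rw [hu, map_div₀, map_pow, map_zpow₀, hs]
    exact div_self (zpow_ne_zero _ hπ0.ne')
  have hσu := qv_decomp_valuation_eq_one A hσ hwu
  have hσu' : σ u = (σ x) ^ m / (q : Qb) ^ s := by
    rw [hu, map_div₀, map_pow, map_zpow₀, map_natCast]
  rw [hσu', map_div₀, map_pow, map_zpow₀, div_eq_one_iff_eq (zpow_ne_zero _ hπ0.ne')] at hσu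
  have h6 : A.valuation (σ x) ^ m = A.valuation x ^ m := by rw [hσu, hs]
  exact (pow_left_inj₀ zero_le zero_le hm.ne').1 h6

/-- the inertia group is normalised by the decomposition group -/
theorem tw_conj_mem_inertia {φ t : GQ} (hφ : φ ∈ A.decompositionSubgroup ℚ)
    (ht : t ∈ A.inertiaSubgroupIn ℚ) : φ * t * φ⁻¹ ∈ A.inertiaSubgroupIn ℚ := by
  have hφ' : φ⁻¹ ∈ A.decompositionSubgroup ℚ := inv_mem hφ
  have h1 : φ⁻¹ • A = A := hφ'
  have h2 := Fermat.Agent.CFT.Bridge.mem_inertiaSubgroupIn_smul_iff (K := ℚ) A φ⁻¹ t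
  rw [h1, inv_inv] at h2
  exact h2.1 ht

include hq hA in
/-- Frobenius acts on the tame character by the `q`-th power -/
theorem tw_tameChar_conj {ϖ : Qb} (hϖ0 : ϖ ≠ 0)
    {φ : GQ} (hφ : A.IsFrobeniusAt φ q) (t : ↥(A.inertiaSubgroupIn ℚ)) :
    tameChar A hq hA ϖ hϖ0 ⟨φ * (t : GQ) * φ⁻¹,
        tw_conj_mem_inertia A hφ.mem_decompositionSubgroup t.2⟩ =
      tameChar A hq hA ϖ hϖ0 t ^ q := by
  have hφd := hφ.mem_decompositionSubgroup
  have hφd' : φ⁻¹ ∈ A.decompositionSubgroup ℚ := inv_mem hφd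
  obtain ⟨htd, htA⟩ := qv_mem_inertiaSubgroupIn A t.2
  have hpw : tameChar A hq hA ϖ hϖ0 t ^ q =
      A.unitGroupToResidueFieldUnits (tameUnit A hq hA ϖ hϖ0 t ^ q) := by
    rw [map_pow]; rfl
  rw [hpw]
  change A.unitGroupToResidueFieldUnits _ = A.unitGroupToResidueFieldUnits _
  apply tame_residueUnits_eq
  rw [tameUnit_coe]
  have hpow : (((tameUnit A hq hA ϖ hϖ0 t ^ q : A.unitGroup) : Qbˣ) : Qb) =
      ((t : GQ) ϖ / ϖ) ^ q := by
    rw [Subgroup.coe_pow, Units.val_pow_eq_pow_val, tameUnit_coe]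
  rw [hpow]
  -- notation
  set y : Qb := φ⁻¹ ϖ with hy
  have hy0 : y ≠ 0 := (map_ne_zero_iff _ (φ⁻¹ : GQ).injective).2 hϖ0
  have hvy : A.valuation y = A.valuation ϖ := tw_decomp_valuation_apply A hq hA hφd' ϖ
  set u : Qb := y / ϖ with hu
  have hu1 : A.valuation u = 1 := by
    rw [hu, map_div₀, hvy]
    exact div_self ((Valuation.ne_zero_iff _).2 hϖ0)
  have hu0 : u ≠ 0 := div_ne_zero hy0 hϖ0
  have huA : u ∈ A := (A.valuation_le_one_iff u).1 hu1.le
  set z : Qb := (t : GQ) y / y with hz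
  set w : Qb := (t : GQ) ϖ / ϖ with hw
  have hw1 : A.valuation w = 1 := tame_unit_div A hq hA t.2 hϖ0
  have hz1 : A.valuation z = 1 := tame_unit_div A hq hA t.2 hy0
  have hzA : z ∈ A := (A.valuation_le_one_iff z).1 hz1.le
  have hwA : w ∈ A := (A.valuation_le_one_iff w).1 hw1.le
  -- `φ z` is the conjugate unit
  have hφz : (φ * (t : GQ) * φ⁻¹) ϖ / ϖ = φ z := by
    rw [hz, map_div₀, hy]
    have h1 : φ ((φ⁻¹ : GQ) ϖ) = ϖ := by
      change φ (φ.symm ϖ) = ϖ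
      exact φ.apply_symm_apply ϖ
    rw [h1]
    rfl
  rw [hφz]
  -- `z ≡ w`
  have hzw : A.valuation (z - w) < 1 := by
    have hyu : y = u * ϖ := by rw [hu]; field_simp
    have htu0 : (t : GQ) u ≠ 0 := (map_ne_zero_iff _ (t : GQ).injective).2 hu0
    have e : z - w = ((t : GQ) u - u) * (u⁻¹ * w) := by
      rw [hz, hw, hyu, map_mul]
      field_simp
    rw [e, map_mul, map_mul, map_inv₀, hu1, hw1, inv_one, mul_one, mul_one]
    exact htA u huA
  have hzwq : A.valuation (z ^ q - w ^ q) < 1 := by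
    obtain ⟨c, hc⟩ := sub_dvd_pow_sub_pow (⟨z, hzA⟩ : A) ⟨w, hwA⟩ q
    have hc' : z ^ q - w ^ q = (z - w) * (c : Qb) := by
      have := congrArg (fun a : A => (a : Qb)) hc
      simpa using this
    rw [hc', map_mul]
    calc A.valuation (z - w) * A.valuation (c : Qb) ≤ A.valuation (z - w) * 1 :=
          mul_le_mul_right ((A.valuation_le_one_iff _).2 c.2) _
      _ < 1 := by rw [mul_one]; exact hzw
  have hfrob := Fermat.Agent.FrobDensity.valuation_frobenius_sub_pow_lt_one hφ hzA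
  have e2 : φ z - w ^ q = (φ z - z ^ q) + (z ^ q - w ^ q) := by ring
  rw [e2]
  exact lt_of_le_of_lt (Valuation.map_add _ _ _) (max_lt hfrob hzwq)

end TameStructure

/-- **Structure of tame inertia at a finite level.**  For a finite extension `F₀` of `ℚ` there is an
inertia element `t` such that (1) every inertia element is of the form `σ' * t ^ k` with `σ'` of
`q`-power order modulo `F₀`, and (2) every Frobenius element `φ` satisfies `φ t φ⁻¹ = w * t ^ q` with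
`w` of `q`-power order modulo `F₀`. -/
theorem tame_structure {q : ℕ} (hq : q.Prime) (A : ValuationSubring Qb)
    (hA : A.LiesOverPrime q) (F₀ : IntermediateField ℚ Qb) [FiniteDimensional ℚ F₀] :
    ∃ t ∈ A.inertiaSubgroupIn ℚ,
      (∀ σ ∈ A.inertiaSubgroupIn ℚ, ∃ k : ℤ, ∃ a : ℕ,
        (σ * t ^ (-k)) ^ (q ^ a) ∈ F₀.fixingSubgroup) ∧
      (∀ φ : GQ, A.IsFrobeniusAt φ q → ∃ a : ℕ,
        (φ * t * φ⁻¹ * t ^ (-(q : ℤ))) ^ (q ^ a) ∈ F₀.fixingSubgroup) := by
  classical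
  obtain ⟨B, hBpos, hB⟩ := tame_exists_pow_mem_fixingSubgroup F₀
  haveI : NeZero ((B.factorial : ℕ) : ℚ) := ⟨by exact_mod_cast (Nat.factorial_pos B).ne'⟩
  obtain ⟨ζ, hζ⟩ := HasEnoughRootsOfUnity.exists_primitiveRoot Qb B.factorial
  -- the big level
  have hζint : IsIntegral ℚ ζ := (AlgebraicClosure.isAlgebraic ℚ).isIntegral.isIntegral ζ
  haveI : FiniteDimensional ℚ ↥(IntermediateField.adjoin ℚ {ζ}) :=
    IntermediateField.adjoin.finiteDimensional hζint
  haveI : FiniteDimensional ℚ ↥(F₀ ⊔ IntermediateField.adjoin ℚ {ζ}) :=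
    IntermediateField.finiteDimensional_sup _ _
  set F : IntermediateField ℚ Qb :=
    IntermediateField.normalClosure ℚ ↥(F₀ ⊔ IntermediateField.adjoin ℚ {ζ}) Qb with hF
  haveI : FiniteDimensional ℚ ↥F := normalClosure.is_finiteDimensional ℚ _ Qb
  haveI : Algebra.IsAlgebraic ℚ Qb := AlgebraicClosure.isAlgebraic ℚ
  haveI : IsAlgClosure ℚ Qb := ⟨inferInstance, inferInstance⟩
  haveI : Normal ℚ Qb := IsAlgClosure.normal ℚ Qb
  have hnorm : Normal ℚ ↥F := normalClosure.normal ℚ _ Qb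
  have hle0 : F₀ ⊔ IntermediateField.adjoin ℚ {ζ} ≤ F := IntermediateField.le_normalClosure _
  have hF₀F : F₀ ≤ F := le_sup_left.trans hle0
  have hζF : ζ ∈ F :=
    hle0 (le_sup_right (a := F₀) (IntermediateField.mem_adjoin_simple_self ℚ ζ))
  have hstab : ∀ (σ : GQ) (y : Qb), y ∈ F → σ y ∈ F := by
    intro σ y hy
    have h := (IntermediateField.normal_iff_forall_map_le' (K := F)).mp hnorm σ
    exact h ⟨y, hy, rfl⟩
  -- uniformiser and tame character
  obtain ⟨ϖ, hϖF, hϖ0, -, huni⟩ := tame_exists_uniformizer A hq hA F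
  set ψ := tameChar A hq hA ϖ hϖ0 with hψ
  obtain ⟨B', hB'pos, hB'⟩ := tame_exists_pow_mem_fixingSubgroup F
  set N := B'.factorial with hN
  haveI : NeZero N := ⟨(Nat.factorial_pos B').ne'⟩
  have hψN : ∀ σ, ψ σ ∈ rootsOfUnity N (IsLocalRing.ResidueField A) := by
    intro σ
    rw [mem_rootsOfUnity, ← map_pow, hψ, tameChar_eq_one_iff]
    obtain ⟨n, hn, hnB, hmem⟩ := hB' (σ : GQ)
    obtain ⟨c, hc⟩ := Nat.dvd_factorial hn hnB
    have hmem' : (σ : GQ) ^ N ∈ F.fixingSubgroup := by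
      rw [hN, hc, pow_mul]
      exact Subgroup.pow_mem _ hmem c
    have hfix : ((σ : GQ) ^ N) ϖ = ϖ :=
      (IntermediateField.mem_fixingSubgroup_iff _ _).mp hmem' ϖ hϖF
    unfold TameWild
    rw [Subgroup.coe_pow, hfix, sub_self, map_zero]
    exact lt_of_le_of_ne zero_le ((Valuation.ne_zero_iff _).mpr hϖ0).symm
  let ψ' : ↥(A.inertiaSubgroupIn ℚ) →* ↥(rootsOfUnity N (IsLocalRing.ResidueField A)) :=
    ψ.codRestrict _ hψN
  haveI : IsCyclic ↥(rootsOfUnity N (IsLocalRing.ResidueField A)) := rootsOfUnity.isCyclic _ N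
  haveI : IsCyclic ↥ψ'.range := Subgroup.isCyclic _
  obtain ⟨g, hg⟩ := IsCyclic.exists_generator (α := ↥ψ'.range)
  obtain ⟨τ, hτ⟩ := g.2
  -- the key: trivial tame character implies `q`-power order modulo `F₀`
  have key : ∀ σ' : ↥(A.inertiaSubgroupIn ℚ), ψ σ' = 1 →
      ∃ a : ℕ, (σ' : GQ) ^ (q ^ a) ∈ F₀.fixingSubgroup := by
    intro σ' hψσ'
    have hwϖ : TameWild A (σ' : GQ) ϖ := (tameChar_eq_one_iff A hq hA ϖ hϖ0 σ').mp hψσ'
    have hwild : ∀ y : Qb, y ∈ F → y ≠ 0 → TameWild A (σ' : GQ) y := fun y hy hy0 =>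
      tameWild_of_uniformizer hq hA σ'.2 hwϖ hy0 (huni y hy hy0)
    exact tame_wild_pow_mem hq hA F₀ F hF₀F hstab hB hζF hζ σ'.2 hwild
  refine ⟨(τ : GQ), τ.2, fun σ hσ => ?_, fun φ hφ => ?_⟩
  · obtain ⟨k, hk⟩ := Subgroup.mem_zpowers_iff.mp (hg ⟨ψ' ⟨σ, hσ⟩, ⟨_, rfl⟩⟩)
    have hk' : ψ' τ ^ k = ψ' ⟨σ, hσ⟩ := by
      have := congrArg Subtype.val hk
      rw [Subgroup.coe_zpow, ← hτ] at this
      exact this
    set σ' : ↥(A.inertiaSubgroupIn ℚ) := ⟨σ, hσ⟩ * τ ^ (-k) with hσ'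
    have hψσ' : ψ σ' = 1 := by
      have h1 : ψ' σ' = 1 := by
        rw [hσ', map_mul, map_zpow, zpow_neg, hk', mul_inv_cancel]
      have := congrArg Subtype.val h1
      exact this
    obtain ⟨a, ha⟩ := key σ' hψσ'
    refine ⟨k, a, ?_⟩
    have : (σ' : GQ) = σ * (τ : GQ) ^ (-k) := by
      rw [hσ']
      simp
    rw [← this]
    exact ha
  · set σ' : ↥(A.inertiaSubgroupIn ℚ) :=
      ⟨φ * (τ : GQ) * φ⁻¹, tw_conj_mem_inertia A hφ.mem_decompositionSubgroup τ.2⟩ *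
        τ ^ (-(q : ℤ)) with hσ'
    have hψσ' : ψ σ' = 1 := by
      rw [hσ', map_mul, hψ, tw_tameChar_conj A hq hA hϖ0 hφ τ, map_zpow, zpow_neg, zpow_natCast,
        mul_inv_cancel]
    obtain ⟨a, ha⟩ := key σ' hψσ'
    refine ⟨a, ?_⟩
    have : (σ' : GQ) = φ * (τ : GQ) * φ⁻¹ * (τ : GQ) ^ (-(q : ℤ)) := by
      rw [hσ']
      simp
    rw [← this]
    exact ha

end Fermat.Agent.TW
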