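/-
P10 / G6b (helper8): the mod `p` cyclotomic character is ramified at `p` (`p ≥ 3`):
`tw_exists_inertia_cycloChar_ne_one`.  (All of `Gal(ℚ(ζ_p)/ℚ)` acts trivially on `ℤ[ζ_p]/(1 - ζ_p)`, and
inertia lifts from finite levels by `Bridge.exists_mem_inertiaSubgroupIn_eqOn`.)
-/
import Fermat.Agent.Lib.TW.Interface
import Fermat.Agent.Lib.CFT.S14.LevelOfKernel
import Fermat.Agent.Lib.CFT.Bridge.UnramifiedLevel

set_option autoImplicit false
set_option linter.style.haveILetI false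

open groupCohomology ExtCitation Polynomial CategoryTheory IsLocalRing
open Fermat.Agent.CFT Fermat.Agent.CFT.Bridge Fermat.Agent.CFT.S14

namespace Fermat.Agent.TW

noncomputable section

local notation "Qb" => AlgebraicClosure ℚ

/-- `p`-power roots of unity are `≡ 1` modulo a place over `p` -/
theorem tw_valuation_rootOfUnity_sub_one_lt {p : ℕ} (hp : p.Prime) (P : ValuationSubring Qb)
    (hP : P.LiesOverPrime p) {t : Qb} (ht : t ^ p = 1) : P.valuation (t - 1) < 1 := by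
  have htP : t ∈ P := mem_valuationSubring_of_pow_eq_one P hp.pos ht
  have hp0 : (p : ResidueField P) = 0 := by
    have h1 : ((p : ℕ) : Qb) ∈ P.nonunits := hP
    have h2 : P.valuation ((p : ℕ) : Qb) < 1 := (P.mem_nonunits_iff).1 h1
    have hpP : ((p : ℕ) : Qb) ∈ P := (P.valuation_le_one_iff _).1 h2.le
    have h3 : (⟨((p : ℕ) : Qb), hpP⟩ : P) ∈ maximalIdeal P := (P.valuation_lt_one_iff _).2 h2
    have h4 : residue P ⟨((p : ℕ) : Qb), hpP⟩ = 0 := (residue_eq_zero_iff _).2 h3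
    have h5 : (⟨((p : ℕ) : Qb), hpP⟩ : P) = ((p : ℕ) : P) := Subtype.ext (by simp)
    rw [h5, map_natCast] at h4
    exact h4
  haveI : CharP (ResidueField P) p := (CharP.charP_iff_prime_eq_zero hp).2 hp0
  haveI : Fact p.Prime := ⟨hp⟩
  have h6 : (residue P ⟨t, htP⟩ - 1) ^ p = 0 := by
    rw [sub_pow_char, one_pow, ← map_pow]
    have : (⟨t, htP⟩ : P) ^ p = 1 := Subtype.ext (by simpa using ht)
    rw [this, map_one, sub_self]
  have h7 : residue P ⟨t, htP⟩ - 1 = 0 := pow_eq_zero_iff (hp.ne_zero) |>.1 h6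
  have h8 : residue P (⟨t, htP⟩ - 1) = 0 := by rw [map_sub, map_one]; exact h7
  have h9 := (residue_eq_zero_iff _).1 h8
  exact (P.valuation_lt_one_iff _).1 h9

/-- the field `ℚ(ζ)` is stable under `G_ℚ` for a root of unity `ζ` -/
theorem tw_adjoin_rootOfUnity_stable {p : ℕ} (hp : 0 < p) {ζ : Qb} (hζ : ζ ^ p = 1) (hprim : IsPrimitiveRoot ζ p)
    (σ : GQ) (x : Qb) (hx : x ∈ IntermediateField.adjoin ℚ {ζ}) :
    σ x ∈ IntermediateField.adjoin ℚ {ζ} := by
  have h1 : σ x ∈ (IntermediateField.adjoin ℚ {ζ}).map (σ : Qb →ₐ[ℚ] Qb) := ⟨x, hx, rfl⟩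
  rw [IntermediateField.adjoin_map, Set.image_singleton] at h1
  refine IntermediateField.adjoin_le_iff.2 ?_ h1
  rintro y hy
  rw [Set.mem_singleton_iff] at hy
  subst hy
  have h2 : ((σ : Qb →ₐ[ℚ] Qb) ζ) ^ p = 1 := by rw [← map_pow, hζ, map_one]
  haveI : NeZero p := ⟨hp.ne'⟩
  obtain ⟨i, -, hi⟩ := hprim.eq_pow_of_pow_eq_one h2
  rw [← hi]
  exact pow_mem (IntermediateField.mem_adjoin_simple_self ℚ ζ) i

/-- **the mod `p` cyclotomic character is ramified at `p`** (`p ≥ 3`) -/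
theorem tw_exists_inertia_cycloChar_ne_one (p : ℕ) [hp : Fact p.Prime] (h3 : 3 ≤ p)
    (P : ValuationSubring Qb) (hP : P.LiesOverPrime p) :
    ∃ σ ∈ P.inertiaSubgroupIn ℚ, cycloChar p σ ≠ 1 := by
  haveI : NeZero p := ⟨hp.out.ne_zero⟩
  obtain ⟨ζ, hζ⟩ := HasEnoughRootsOfUnity.exists_primitiveRoot Qb p
  have hζp : ζ ^ p = 1 := hζ.pow_eq_one
  set F : IntermediateField ℚ Qb := IntermediateField.adjoin ℚ {ζ} with hF
  have hFst : ∀ (σ : GQ) (x : Qb), x ∈ F → σ x ∈ F :=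
    fun σ x hx => tw_adjoin_rootOfUnity_stable hp.out.pos hζp hζ σ x hx
  obtain ⟨σ0, hσ0⟩ := exists_cycloChar_ne_one p h3
  have h0 : ∀ y : Qb, y ∈ F → IsIntegral ℤ y → P.valuation (σ0 y - y) < 1 := by
    intro y hyF hyint
    have hζF : ζ ∈ F := IntermediateField.mem_adjoin_simple_self ℚ ζ
    have hcyc0 := hζ.intermediateField_adjoin_isCyclotomicExtension (K := ℚ)
    have hcyc : IsCyclotomicExtension {p} ℚ ↥F := by
      convert hcyc0 using 1
      · rfl
      · exact Subsingleton.elim _ _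
    set ζ' : ↥F := ⟨ζ, hζF⟩ with hζ'
    have hζ'prim : IsPrimitiveRoot ζ' p := by
      have : IsPrimitiveRoot (algebraMap ↥F Qb ζ') p := hζ
      exact this.of_map_of_injective (algebraMap ↥F Qb).injective
    have hic := IsCyclotomicExtension.Rat.isIntegralClosure_adjoin_singleton_of_prime hζ'prim
    have hy' : IsIntegral ℤ (⟨y, hyF⟩ : ↥F) := by
      have : IsIntegral ℤ (algebraMap ↥F Qb ⟨y, hyF⟩) := hyint
      exact (isIntegral_algHom_iff (IsScalarTower.toAlgHom ℤ ↥F Qb)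
        (algebraMap ↥F Qb).injective).1 this
    obtain ⟨a, ha⟩ := (hic.isIntegral_iff).1 hy'
    have ha2 : (a : ↥F) ∈ Algebra.adjoin ℤ {ζ'} := a.2
    rw [Algebra.adjoin_singleton_eq_range_aeval] at ha2
    obtain ⟨f, hf⟩ := ha2
    have hyf : y = eval₂ (Int.castRingHom Qb) ζ f := by
      have h1 : (⟨y, hyF⟩ : ↥F) = aeval ζ' f := by rw [← ha]; exact hf.symm
      have h2 := congrArg (algebraMap ↥F Qb) h1
      rw [aeval_def, hom_eval₂] at h2
      have h3 : (algebraMap ↥F Qb).comp (algebraMap ℤ ↥F) = Int.castRingHom Qb :=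
        Subsingleton.elim _ _
      rw [h3] at h2
      exact h2
    have hσy : σ0 y = eval₂ (Int.castRingHom Qb) (σ0 ζ) f := by
      rw [hyf]
      have := hom_eval₂ f (Int.castRingHom Qb) (σ0 : Qb ≃ₐ[ℚ] Qb).toAlgHom.toRingHom ζ
      have h3 : ((σ0 : Qb ≃ₐ[ℚ] Qb).toAlgHom.toRingHom).comp (Int.castRingHom Qb) =
        Int.castRingHom Qb := Subsingleton.elim _ _
      rw [h3] at this
      exact this
    have hζP : ζ ∈ P := mem_valuationSubring_of_pow_eq_one P hp.out.pos hζp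
    have hσζp : (σ0 ζ) ^ p = 1 := by rw [← map_pow, hζp, map_one]
    have hσζP : σ0 ζ ∈ P := mem_valuationSubring_of_pow_eq_one P hp.out.pos hσζp
    obtain ⟨w, hw⟩ := sub_dvd_eval_sub (⟨σ0 ζ, hσζP⟩ : P) ⟨ζ, hζP⟩ (f.map (Int.castRingHom P))
    have hw' : σ0 y - y = (σ0 ζ - ζ) * (w : Qb) := by
      have h1 := congrArg (P.subtype) hw
      rw [map_sub, map_mul, map_sub, ← eval₂_eq_eval_map, ← eval₂_eq_eval_map, hom_eval₂,
        hom_eval₂] at h1
      have h3 : (P.subtype).comp (Int.castRingHom P) = Int.castRingHom Qb :=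
        Subsingleton.elim _ _
      rw [h3] at h1
      rw [hσy, hyf]
      exact h1
    rw [hw', map_mul]
    have h1 : P.valuation (σ0 ζ - ζ) < 1 := by
      have e : σ0 ζ - ζ = (σ0 ζ - 1) - (ζ - 1) := by ring
      rw [e]
      exact Valuation.map_sub_lt _ (tw_valuation_rootOfUnity_sub_one_lt hp.out P hP hσζp)
        (tw_valuation_rootOfUnity_sub_one_lt hp.out P hP hζp)
    have h2 : P.valuation (w : Qb) ≤ 1 := (P.valuation_le_one_iff _).2 w.2
    calc P.valuation (σ0 ζ - ζ) * P.valuation (w : Qb) ≤ P.valuation (σ0 ζ - ζ) * 1 :=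
          mul_le_mul_right h2 _
      _ = P.valuation (σ0 ζ - ζ) := mul_one _
      _ < 1 := h1
  obtain ⟨σ, hσ, hσF⟩ := exists_mem_inertiaSubgroupIn_eqOn F hFst hp.out hP σ0 h0
  refine ⟨σ, hσ, fun h1 => hσ0 ?_⟩
  refine cycloChar_eq_one_of_fixes p σ0 (fun t ht => ?_)
  obtain ⟨i, -, rfl⟩ := hζ.eq_pow_of_pow_eq_one ht
  have hζF : ζ ∈ F := IntermediateField.mem_adjoin_simple_self ℚ ζ
  rw [map_pow, ← hσF ζ hζF, apply_eq_pow_cycloExp p σ hζp, cycloExp_eq_one_of_cycloChar p h1,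
    pow_one]

end

end Fermat.Agent.TW
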