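/-
P10 / G6b (helper8): classes of cocycles with values in a line `k e ⊂ M₀` on which `G_q` acts through
a character `χ`: `twCharRep χ`, `twLineClasses`, and the dimension count
`tw_finrank_lineClasses_le` (`≤ h⁰ + 1` if `dim H¹_cont(G_q, k(χ)) ≤ 2`).
-/
import Fermat.Agent.Lib.TW.Interface

set_option autoImplicit false
set_option linter.style.haveILetI false

open Fermat.Agent.S53Lib groupCohomology ExtCitation CategoryTheory

namespace Fermat.Agent.TW

noncomputable section

/-- **dimension of a quotient image**: if `ker g ≤ ker f` and `range g` is finite-dimensional then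
`range f` is finite-dimensional of dimension `≤ dim (range g)`, with strict inequality as soon as
some element of `ker f` is not in `ker g`. -/
theorem tw_finrank_range_le {k Z X Y : Type*} [Field k] [AddCommGroup Z] [Module k Z]
    [AddCommGroup X] [Module k X] [AddCommGroup Y] [Module k Y] (f : Z →ₗ[k] X) (g : Z →ₗ[k] Y)
    (hle : LinearMap.ker g ≤ LinearMap.ker f) [FiniteDimensional k (LinearMap.range g)] :
    FiniteDimensional k (LinearMap.range f) ∧
      Module.finrank k (LinearMap.range f) ≤ Module.finrank k (LinearMap.range g) ∧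
      ((∃ z, f z = 0 ∧ g z ≠ 0) →
        Module.finrank k (LinearMap.range f) + 1 ≤ Module.finrank k (LinearMap.range g)) := by
  -- the induced surjection `range g → range f`
  let h0 : (Z ⧸ LinearMap.ker g) →ₗ[k] LinearMap.range f :=
    (LinearMap.ker g).liftQ f.rangeRestrict (by
      intro z hz
      rw [LinearMap.mem_ker] at hz ⊢
      apply Subtype.ext
      exact LinearMap.mem_ker.1 (hle (LinearMap.mem_ker.2 hz)))
  let h : LinearMap.range g →ₗ[k] LinearMap.range f :=
    h0 ∘ₗ (g.quotKerEquivRange).symm.toLinearMap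
  have hh : ∀ z : Z, h ⟨g z, LinearMap.mem_range_self g z⟩ = ⟨f z, LinearMap.mem_range_self f z⟩ := by
    intro z
    have h1 : (g.quotKerEquivRange).symm ⟨g z, LinearMap.mem_range_self g z⟩ =
        Submodule.Quotient.mk z := by
      rw [LinearEquiv.symm_apply_eq]
      rfl
    show h0 ((g.quotKerEquivRange).symm ⟨g z, LinearMap.mem_range_self g z⟩) = _
    rw [h1]
    rfl
  have hsurj : Function.Surjective h := by
    rintro ⟨x, z, rfl⟩
    exact ⟨⟨g z, LinearMap.mem_range_self g z⟩, hh z⟩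
  have hfd : FiniteDimensional k (LinearMap.range f) := Module.Finite.of_surjective h hsurj
  have hrn := LinearMap.finrank_range_add_finrank_ker h
  rw [LinearMap.range_eq_top.2 hsurj, finrank_top] at hrn
  refine ⟨hfd, by omega, ?_⟩
  rintro ⟨z, hfz, hgz⟩
  have hker : (⟨g z, LinearMap.mem_range_self g z⟩ : LinearMap.range g) ∈ LinearMap.ker h := by
    rw [LinearMap.mem_ker, hh z]
    exact Subtype.ext hfz
  have hne : (⟨⟨g z, LinearMap.mem_range_self g z⟩, hker⟩ : LinearMap.ker h) ≠ 0 := by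
    intro h0'
    apply hgz
    have := congrArg (fun w : LinearMap.ker h => ((w : LinearMap.range g) : Y)) h0'
    exact this
  have hpos : 0 < Module.finrank k (LinearMap.ker h) :=
    Module.finrank_pos_iff_exists_ne_zero.2 ⟨_, hne⟩
  omega


variable {k : Type} [Field k]

/-- the action of `G_ℚ` on `k` through a character -/
def twCharRepn (χ : GQ →* kˣ) : Representation k GQ k where
  toFun g := ((χ g : kˣ) : k) • (LinearMap.id : k →ₗ[k] k)
  map_one' := by ext; simp
  map_mul' g h := by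
    ext
    simp [mul_comm]

/-- the one-dimensional representation `k(χ)` -/
def twCharRep (χ : GQ →* kˣ) : Rep k GQ := Rep.of (twCharRepn χ)

theorem twCharRep_ρ_apply (χ : GQ →* kˣ) (g : GQ) (a : k) :
    (twCharRep χ).ρ g a = ((χ g : kˣ) : k) * a := rfl

variable (q : Nat.Primes) (M₀ : Rep k GQ) (χ : GQ →* kˣ) (e : M₀.V)

/-- cocycles with values in the line `k e` which are constant modulo a finite level -/
def twLineCocycles : Submodule k (cocycles₁ (locAt q M₀)) where
  carrier := {c | IsLevelConstant₁ (primeLocalToGlobal q) c ∧ ∀ τ, ∃ γ : k, c τ = γ • e}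
  add_mem' := by
    rintro c c' ⟨h1, h2⟩ ⟨h1', h2'⟩
    refine ⟨h1.add h1', fun τ => ?_⟩
    obtain ⟨γ, hγ⟩ := h2 τ
    obtain ⟨γ', hγ'⟩ := h2' τ
    refine ⟨γ + γ', ?_⟩
    show c τ + c' τ = _
    rw [hγ, hγ', add_smul]
  zero_mem' := ⟨isLevelConstant₁_const _ 0, fun _ => ⟨0, by rw [zero_smul]; rfl⟩⟩
  smul_mem' := by
    rintro a c ⟨h1, h2⟩
    refine ⟨h1.comp (fun x => a • x), fun τ => ?_⟩
    obtain ⟨γ, hγ⟩ := h2 τ
    refine ⟨a * γ, ?_⟩
    show a • c τ = _
    rw [hγ, mul_smul]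

/-- the classes of the cocycles with values in the line `k e` -/
def twLineClasses : Submodule k (H1 (locAt q M₀)) :=
  (twLineCocycles q M₀ e).map (H1π (locAt q M₀)).hom

theorem mem_twLineClasses_iff (x : H1 (locAt q M₀)) :
    x ∈ twLineClasses q M₀ e ↔ ∃ c : cocycles₁ (locAt q M₀),
      IsLevelConstant₁ (primeLocalToGlobal q) c ∧ (∀ τ, ∃ γ : k, c τ = γ • e) ∧
        (H1π (locAt q M₀)).hom c = x := by
  unfold twLineClasses
  rw [Submodule.mem_map]
  constructor
  · rintro ⟨c, ⟨h1, h2⟩, h3⟩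
    exact ⟨c, h1, h2, h3⟩
  · rintro ⟨c, h1, h2, h3⟩
    exact ⟨c, ⟨h1, h2⟩, h3⟩

theorem twLineClasses_le_locCont : twLineClasses q M₀ e ≤ locCont q M₀ := by
  intro x hx
  obtain ⟨c, h1, -, h3⟩ := (mem_twLineClasses_iff q M₀ e x).1 hx
  exact (mem_continuousH1_iff _ _ _).2 ⟨c, h1, h3⟩

variable {q M₀ χ e}

/-- the value of a cocycle of `k(χ)` as an element of `k` -/
def twCoef (γ : cocycles₁ (locAt q (twCharRep χ))) (τ : primeLocalGaloisGroup q) : k := γ τ

theorem twCoef_mul (γ : cocycles₁ (locAt q (twCharRep χ))) (σ τ : primeLocalGaloisGroup q) :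
    twCoef γ (σ * τ) = ((χ (primeLocalToGlobal q σ) : kˣ) : k) * twCoef γ τ + twCoef γ σ :=
  (mem_cocycles₁_iff (A := locAt q (twCharRep χ)) γ).1 γ.2 σ τ

/-- the map `γ ↦ γ e` on cocycles -/
def twLineMap (hχ : ∀ τ : primeLocalGaloisGroup q,
    M₀.ρ (primeLocalToGlobal q τ) e = ((χ (primeLocalToGlobal q τ) : kˣ) : k) • e) :
    cocycles₁ (locAt q (twCharRep χ)) →ₗ[k] cocycles₁ (locAt q M₀) where
  toFun γ := ⟨fun τ => twCoef γ τ • e, by
    rw [mem_cocycles₁_iff]
    intro σ τ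
    show twCoef γ (σ * τ) • e = M₀.ρ (primeLocalToGlobal q σ) (twCoef γ τ • e) + twCoef γ σ • e
    rw [twCoef_mul, map_smul, hχ σ, add_smul, mul_smul, smul_comm]⟩
  map_add' γ γ' := by
    apply Subtype.ext
    funext τ
    exact add_smul _ _ _
  map_smul' a γ := by
    apply Subtype.ext
    funext τ
    exact mul_smul _ _ _

theorem twLineMap_apply (hχ : ∀ τ : primeLocalGaloisGroup q,
    M₀.ρ (primeLocalToGlobal q τ) e = ((χ (primeLocalToGlobal q τ) : kˣ) : k) • e)
    (γ : cocycles₁ (locAt q (twCharRep χ))) (τ : primeLocalGaloisGroup q) :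
    twLineMap hχ γ τ = twCoef γ τ • e := rfl

/-- **the dimension count**: if `G_q` acts on the line `k e ⊂ M₀` through `χ`, `E ∉ k e` is fixed
modulo `k e`, and `dim H¹_cont(G_q, k(χ)) ≤ 2`, then the classes of the cocycles with values in
`k e` form a space of dimension `≤ h⁰(G_q, M₀) + 1`. -/
theorem tw_finrank_lineClasses_le [Module.Finite k M₀.V]
    (hχ : ∀ τ : primeLocalGaloisGroup q,
      M₀.ρ (primeLocalToGlobal q τ) e = ((χ (primeLocalToGlobal q τ) : kˣ) : k) • e)
    (he0 : e ≠ 0) (E : M₀.V) (hE : ∀ a : k, E ≠ a • e)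
    (hEe : ∀ τ : primeLocalGaloisGroup q, ∃ κ : k, M₀.ρ (primeLocalToGlobal q τ) E - E = κ • e)
    (hsm : ∃ F : IntermediateField ℚ (AlgebraicClosure ℚ), FiniteDimensional ℚ F ∧
      ∀ s ∈ F.fixingSubgroup, M₀.ρ s = 1)
    (hfd : FiniteDimensional k (locCont q (twCharRep χ)))
    (hdim : Module.finrank k (locCont q (twCharRep χ)) ≤ 2) :
    Module.finrank k (twLineClasses q M₀ e) ≤
      Module.finrank k (locAt q M₀).ρ.invariants + 1 := by
  classical
  set N := locAt q (twCharRep χ) with hN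
  set Zc := levelCocycles₁ (primeLocalToGlobal q) N with hZc
  let f : Zc →ₗ[k] H1 (locAt q M₀) :=
    (H1π (locAt q M₀)).hom ∘ₗ twLineMap hχ ∘ₗ Zc.subtype
  let g : Zc →ₗ[k] H1 N := (H1π N).hom ∘ₗ Zc.subtype
  have hrange : LinearMap.range g = locCont q (twCharRep χ) := by
    show LinearMap.range ((H1π N).hom ∘ₗ Zc.subtype) = _
    rw [LinearMap.range_comp, Submodule.range_subtype]
    rfl
  haveI : FiniteDimensional k (LinearMap.range g) := by rw [hrange]; exact hfd
  have hsmul_inj : ∀ a a' : k, a • e = a' • e → a = a' := by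
    intro a a' h
    exact smul_left_injective k he0 h
  -- `ker g ≤ ker f`
  have hle : LinearMap.ker g ≤ LinearMap.ker f := by
    intro γ hγ
    rw [LinearMap.mem_ker] at hγ ⊢
    have h1 : (H1π N).hom (γ : cocycles₁ N) = 0 := hγ
    rw [H1π_eq_zero_iff] at h1
    obtain ⟨a, ha⟩ := h1
    let a' : k := a
    show (H1π (locAt q M₀)).hom (twLineMap hχ (γ : cocycles₁ N)) = 0
    rw [H1π_eq_zero_iff]
    refine ⟨a' • e, ?_⟩
    funext τ
    rw [d₀₁_hom_apply, twLineMap_apply]
    have h2 : twCoef (γ : cocycles₁ N) τ =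
        ((χ (primeLocalToGlobal q τ) : kˣ) : k) * a' - a' := by
      have := congrFun ha τ
      rw [d₀₁_hom_apply] at this
      exact this.symm
    rw [h2, sub_smul, mul_smul]
    show M₀.ρ (primeLocalToGlobal q τ) (a' • e) - a' • e = _
    rw [map_smul, hχ τ, smul_comm]
  have hL := tw_finrank_range_le (k := k) (Z := ↥Zc) (X := H1 (locAt q M₀)) (Y := H1 N) f g
  obtain ⟨hfdf, hle1, hstrict⟩ := hL hle
  -- the line classes are in the range of `f`
  have hsub : twLineClasses q M₀ e ≤ LinearMap.range f := by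
    intro x hx
    obtain ⟨c, hc1, hc2, rfl⟩ := (mem_twLineClasses_iff q M₀ e x).1 hx
    choose γ₀ hγ₀ using hc2
    let γ₁ : primeLocalGaloisGroup q → N.V := γ₀
    have hcoc : γ₁ ∈ cocycles₁ N := by
      rw [mem_cocycles₁_iff]
      intro σ τ
      show γ₀ (σ * τ) = ((χ (primeLocalToGlobal q σ) : kˣ) : k) * γ₀ τ + γ₀ σ
      apply hsmul_inj
      have h1 := (mem_cocycles₁_iff (A := locAt q M₀) c).1 c.2 σ τ
      rw [hγ₀, hγ₀, hγ₀] at h1
      rw [h1]
      show M₀.ρ (primeLocalToGlobal q σ) (γ₀ τ • e) + γ₀ σ • e =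
        (((χ (primeLocalToGlobal q σ) : kˣ) : k) * γ₀ τ + γ₀ σ) • e
      rw [map_smul, hχ σ, add_smul, mul_smul, smul_comm]
    have hlev : IsLevelConstant₁ (primeLocalToGlobal q) γ₁ := by
      obtain ⟨F, hF, hFc⟩ := hc1
      refine ⟨F, hF, fun g' s hs => ?_⟩
      show γ₀ (g' * s) = γ₀ g'
      apply hsmul_inj
      rw [← hγ₀, ← hγ₀]
      exact hFc g' s hs
    refine ⟨⟨⟨γ₁, hcoc⟩, hlev⟩, ?_⟩
    show (H1π (locAt q M₀)).hom (twLineMap hχ ⟨γ₁, hcoc⟩) = _
    congr 1
    apply Subtype.ext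
    funext τ
    exact (hγ₀ τ).symm
  have hmono : Module.finrank k (twLineClasses q M₀ e) ≤ Module.finrank k (LinearMap.range f) :=
    Submodule.finrank_mono hsub
  rw [hrange] at hle1 hstrict
  have hle2 : Module.finrank k (LinearMap.range f) ≤ 2 := le_trans hle1 hdim
  -- the cocycle `κ`
  choose κ₀ hκ₀ using hEe
  let κ₁ : primeLocalGaloisGroup q → N.V := κ₀
  have hκcoc : κ₁ ∈ cocycles₁ N := by
    rw [mem_cocycles₁_iff]
    intro σ τ
    show κ₀ (σ * τ) = ((χ (primeLocalToGlobal q σ) : kˣ) : k) * κ₀ τ + κ₀ σ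
    apply hsmul_inj
    rw [← hκ₀]
    show M₀.ρ (primeLocalToGlobal q (σ * τ)) E - E =
      (((χ (primeLocalToGlobal q σ) : kˣ) : k) * κ₀ τ + κ₀ σ) • e
    calc M₀.ρ (primeLocalToGlobal q (σ * τ)) E - E
        = M₀.ρ (primeLocalToGlobal q σ) (M₀.ρ (primeLocalToGlobal q τ) E - E) +
            (M₀.ρ (primeLocalToGlobal q σ) E - E) := by
          rw [map_mul, map_mul, map_sub, Module.End.mul_apply]
          abel
      _ = (((χ (primeLocalToGlobal q σ) : kˣ) : k) * κ₀ τ + κ₀ σ) • e := by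
          rw [hκ₀ τ, hκ₀ σ, map_smul, hχ σ, add_smul, mul_smul, smul_comm]
  have hκlev : IsLevelConstant₁ (primeLocalToGlobal q) κ₁ := by
    obtain ⟨F, hF, hFs⟩ := hsm
    refine ⟨F, hF, fun g' s hs => ?_⟩
    show κ₀ (g' * s) = κ₀ g'
    apply hsmul_inj
    rw [← hκ₀, ← hκ₀, map_mul, map_mul, hFs _ hs, mul_one]
  let κ : Zc := ⟨⟨κ₁, hκcoc⟩, hκlev⟩
  have hfκ : f κ = 0 := by
    show (H1π (locAt q M₀)).hom (twLineMap hχ ⟨κ₁, hκcoc⟩) = 0
    rw [H1π_eq_zero_iff]
    refine ⟨E, ?_⟩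
    funext τ
    rw [d₀₁_hom_apply]
    exact (hκ₀ τ)
  by_cases hgκ : g κ = 0
  · -- `E - a e` is invariant
    have h1 : (H1π N).hom (⟨κ₁, hκcoc⟩ : cocycles₁ N) = 0 := hgκ
    rw [H1π_eq_zero_iff] at h1
    obtain ⟨a, ha⟩ := h1
    let a' : k := a
    have h2 : ∀ τ, κ₀ τ =
        ((χ (primeLocalToGlobal q τ) : kˣ) : k) * a' - a' := by
      intro τ
      have := congrFun ha τ
      rw [d₀₁_hom_apply] at this
      exact this.symm
    have hinv : E - a' • e ∈ (locAt q M₀).ρ.invariants := by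
      rw [Representation.mem_invariants]
      intro τ
      show M₀.ρ (primeLocalToGlobal q τ) (E - a' • e) = _
      have h3 := hκ₀ τ
      rw [h2 τ, sub_smul, mul_smul] at h3
      rw [map_sub, map_smul, hχ τ, smul_comm]
      rw [sub_eq_iff_eq_add] at h3
      rw [h3]
      abel
    have hne : (⟨E - a' • e, hinv⟩ : (locAt q M₀).ρ.invariants) ≠ 0 := by
      intro h0
      have := congrArg Subtype.val h0
      exact hE _ (sub_eq_zero.1 this)
    haveI : Module.Finite k (locAt q M₀).V := ‹Module.Finite k M₀.V›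
    have hpos : 0 < Module.finrank k (locAt q M₀).ρ.invariants :=
      Module.finrank_pos_iff_exists_ne_zero.2 ⟨_, hne⟩
    omega
  · have h5 := hstrict ⟨κ, hfκ, hgκ⟩
    have h6 : Module.finrank k (LinearMap.range f) + 1 ≤ 2 := le_trans h5 hdim
    omega

end

end Fermat.Agent.TW
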