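/-
P10 / G6 (helper8): 2×2 matrices over the dual numbers `k[ε]`.

`twFst`, `twSnd` : the constant and the `ε`-part of a matrix over `DualNumber k`;
`twConst`, `twEps` : the embeddings `X ↦ X`, `X ↦ εX`;  product rules and extensionality.
-/
import Mathlib

set_option autoImplicit false
set_option linter.unusedSectionVars false

namespace Fermat.Agent.TW

open Matrix TrivSqZeroExt

variable {k : Type*} [CommRing k]

/-- constant part of a matrix over the dual numbers -/
def twFst (M : Matrix (Fin 2) (Fin 2) (DualNumber k)) : Matrix (Fin 2) (Fin 2) k :=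
  M.map TrivSqZeroExt.fst

/-- `ε`-part of a matrix over the dual numbers -/
def twSnd (M : Matrix (Fin 2) (Fin 2) (DualNumber k)) : Matrix (Fin 2) (Fin 2) k :=
  M.map TrivSqZeroExt.snd

/-- constant matrices -/
def twConst (X : Matrix (Fin 2) (Fin 2) k) : Matrix (Fin 2) (Fin 2) (DualNumber k) :=
  X.map (TrivSqZeroExt.inl : k → DualNumber k)

/-- `X ↦ εX` -/
def twEps (X : Matrix (Fin 2) (Fin 2) k) : Matrix (Fin 2) (Fin 2) (DualNumber k) :=
  X.map (TrivSqZeroExt.inr : k → DualNumber k)

@[simp] theorem twFst_apply (M : Matrix (Fin 2) (Fin 2) (DualNumber k)) (i j : Fin 2) :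
    twFst M i j = (M i j).fst := rfl
@[simp] theorem twSnd_apply (M : Matrix (Fin 2) (Fin 2) (DualNumber k)) (i j : Fin 2) :
    twSnd M i j = (M i j).snd := rfl
@[simp] theorem twConst_apply (X : Matrix (Fin 2) (Fin 2) k) (i j : Fin 2) :
    twConst X i j = TrivSqZeroExt.inl (X i j) := rfl
@[simp] theorem twEps_apply (X : Matrix (Fin 2) (Fin 2) k) (i j : Fin 2) :
    twEps X i j = TrivSqZeroExt.inr (X i j) := rfl

theorem tw_ext {M N : Matrix (Fin 2) (Fin 2) (DualNumber k)} (h1 : twFst M = twFst N)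
    (h2 : twSnd M = twSnd N) : M = N := by
  ext i j
  · exact congrFun (congrFun h1 i) j
  · exact congrFun (congrFun h2 i) j

theorem tw_decomp (M : Matrix (Fin 2) (Fin 2) (DualNumber k)) :
    M = twConst (twFst M) + twEps (twSnd M) := by
  apply tw_ext <;> ext i j <;> simp

@[simp] theorem twFst_one : twFst (1 : Matrix (Fin 2) (Fin 2) (DualNumber k)) = 1 := by
  ext i j
  by_cases h : i = j <;> simp [Matrix.one_apply, h]

@[simp] theorem twSnd_one : twSnd (1 : Matrix (Fin 2) (Fin 2) (DualNumber k)) = 0 := by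
  ext i j
  by_cases h : i = j <;> simp [h]

@[simp] theorem twFst_zero : twFst (0 : Matrix (Fin 2) (Fin 2) (DualNumber k)) = 0 := by
  ext i j; simp
@[simp] theorem twSnd_zero : twSnd (0 : Matrix (Fin 2) (Fin 2) (DualNumber k)) = 0 := by
  ext i j; simp

@[simp] theorem twFst_add (M N : Matrix (Fin 2) (Fin 2) (DualNumber k)) :
    twFst (M + N) = twFst M + twFst N := by ext i j; simp
@[simp] theorem twSnd_add (M N : Matrix (Fin 2) (Fin 2) (DualNumber k)) :
    twSnd (M + N) = twSnd M + twSnd N := by ext i j; simp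
@[simp] theorem twFst_sub (M N : Matrix (Fin 2) (Fin 2) (DualNumber k)) :
    twFst (M - N) = twFst M - twFst N := by ext i j; simp
@[simp] theorem twSnd_sub (M N : Matrix (Fin 2) (Fin 2) (DualNumber k)) :
    twSnd (M - N) = twSnd M - twSnd N := by ext i j; simp
@[simp] theorem twFst_neg (M : Matrix (Fin 2) (Fin 2) (DualNumber k)) :
    twFst (-M) = -twFst M := by ext i j; simp
@[simp] theorem twSnd_neg (M : Matrix (Fin 2) (Fin 2) (DualNumber k)) :
    twSnd (-M) = -twSnd M := by ext i j; simp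

@[simp] theorem twFst_mul (M N : Matrix (Fin 2) (Fin 2) (DualNumber k)) :
    twFst (M * N) = twFst M * twFst N := by
  ext i j
  simp [Matrix.mul_apply, Fin.sum_univ_two]

@[simp] theorem twSnd_mul (M N : Matrix (Fin 2) (Fin 2) (DualNumber k)) :
    twSnd (M * N) = twFst M * twSnd N + twSnd M * twFst N := by
  ext i j
  simp [Matrix.mul_apply, Fin.sum_univ_two]
  ring

@[simp] theorem twFst_const (X : Matrix (Fin 2) (Fin 2) k) : twFst (twConst X) = X := by
  ext i j; simp
@[simp] theorem twSnd_const (X : Matrix (Fin 2) (Fin 2) k) : twSnd (twConst X) = 0 := by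
  ext i j; simp
@[simp] theorem twFst_eps (X : Matrix (Fin 2) (Fin 2) k) : twFst (twEps X) = 0 := by
  ext i j; simp
@[simp] theorem twSnd_eps (X : Matrix (Fin 2) (Fin 2) k) : twSnd (twEps X) = X := by
  ext i j; simp

theorem twFst_trace (M : Matrix (Fin 2) (Fin 2) (DualNumber k)) :
    (twFst M).trace = M.trace.fst := by
  simp [Matrix.trace, Fin.sum_univ_two]

theorem twConst_mul (X Y : Matrix (Fin 2) (Fin 2) k) :
    twConst (X * Y) = twConst X * twConst Y := by
  apply tw_ext <;> simp

theorem twConst_one : twConst (1 : Matrix (Fin 2) (Fin 2) k) = 1 := by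
  apply tw_ext <;> simp

/-- `(1 + εX)(1 - εX) = 1` -/
theorem tw_one_add_eps_mul (X : Matrix (Fin 2) (Fin 2) k) :
    (1 + twEps X) * (1 - twEps X) = 1 := by
  apply tw_ext <;> simp

theorem tw_one_sub_eps_mul (X : Matrix (Fin 2) (Fin 2) k) :
    (1 - twEps X) * (1 + twEps X) = 1 := by
  apply tw_ext <;> simp

/-- the unit `1 + εX` -/
def twUnit (X : Matrix (Fin 2) (Fin 2) k) : (Matrix (Fin 2) (Fin 2) (DualNumber k))ˣ :=
  ⟨1 + twEps X, 1 - twEps X, tw_one_add_eps_mul X, tw_one_sub_eps_mul X⟩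

@[simp] theorem twUnit_val (X : Matrix (Fin 2) (Fin 2) k) :
    ((twUnit X : (Matrix (Fin 2) (Fin 2) (DualNumber k))ˣ) : Matrix (Fin 2) (Fin 2) (DualNumber k))
      = 1 + twEps X := rfl

@[simp] theorem twUnit_inv_val (X : Matrix (Fin 2) (Fin 2) k) :
    (((twUnit X)⁻¹ : (Matrix (Fin 2) (Fin 2) (DualNumber k))ˣ) :
      Matrix (Fin 2) (Fin 2) (DualNumber k)) = 1 - twEps X := rfl

/-- conjugation of a matrix by `1 + εX`, computed -/
theorem tw_conj_eq (X : Matrix (Fin 2) (Fin 2) k) (M : Matrix (Fin 2) (Fin 2) (DualNumber k)) :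
    (1 + twEps X) * M * (1 - twEps X) =
      M + twEps (X * twFst M - twFst M * X) := by
  apply tw_ext
  · simp
  · simp
    abel

/-- the reduction-and-constant-lift ring endomorphism of `M₂(k[ε])` -/
def twRed : Matrix (Fin 2) (Fin 2) (DualNumber k) →+* Matrix (Fin 2) (Fin 2) (DualNumber k) :=
  ((TrivSqZeroExt.inlHom k k).mapMatrix).comp
    ((TrivSqZeroExt.fstHom k k k : DualNumber k →+* k).mapMatrix)

theorem twRed_apply (M : Matrix (Fin 2) (Fin 2) (DualNumber k)) :
    twRed M = twConst (twFst M) := by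
  ext i j <;> simp [twRed]

end Fermat.Agent.TW
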