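/-
P10 / G6a (helper8): the local condition at the minimally ramified primes `q ≠ p`.

A lift to `k[ε]` of a non-trivial unipotent inertia representation at `q`, all of whose inertia
elements have characteristic polynomial `(X - 1)²`, is conjugate on inertia (by an element
`1 + εX`) to the constant lift: `twMin_exists_conj`.  Hence the tangent cocycle restricted to
inertia is the coboundary of `X`.
-/
import Mathlib
import Fermat.Prelude.Def_GaloisRep_Residual
import Fermat.Agent.Lib.TW.Local.TameInertia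
import Fermat.Agent.Lib.TW.Local.DualMat

set_option autoImplicit false

namespace Fermat.Agent.TW

open Matrix Polynomial

local notation "Qb" => AlgebraicClosure ℚ
local notation "GQ" => (AlgebraicClosure ℚ ≃ₐ[ℚ] AlgebraicClosure ℚ)
local notation "M₂" => Matrix (Fin 2) (Fin 2)

section LinAlg

variable {k : Type*} [Field k]

/-- a nonzero trace-zero `2 × 2` matrix of square zero has a "polarisation" `Y` -/
theorem tw_exists_polarisation {N : M₂ k} (hN0 : N ≠ 0) (hN2 : N * N = 0) (htr : N.trace = 0) :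
    ∃ Y : M₂ k, Y * N + N * Y = 1 := by
  have htr' : N 0 0 + N 1 1 = 0 := by
    simpa [Matrix.trace, Fin.sum_univ_two] using htr
  obtain ⟨a, b, c, d, rfl⟩ : ∃ a b c d : k, N = !![a, b; c, d] :=
    ⟨N 0 0, N 0 1, N 1 0, N 1 1, Matrix.eta_fin_two N⟩
  have h : a + d = 0 := by simpa using htr'
  by_cases hb : b = 0
  · by_cases hc : c = 0
    · exfalso
      apply hN0
      rw [Matrix.mul_fin_two] at hN2
      have h00 := congrFun (congrFun hN2 0) 0
      simp [hb, hc] at h00
      have hd : d = 0 := by rw [h00] at h; simpa using h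
      rw [h00, hb, hc, hd]
      ext i j
      fin_cases i <;> fin_cases j <;> simp
    · refine ⟨!![0, c⁻¹; 0, 0], ?_⟩
      rw [Matrix.mul_fin_two, Matrix.mul_fin_two, Matrix.one_fin_two]
      ext i j
      fin_cases i <;> fin_cases j <;> simp [hc, hb]
      · linear_combination c⁻¹ * h
  · refine ⟨!![0, 0; b⁻¹, 0], ?_⟩
    rw [Matrix.mul_fin_two, Matrix.mul_fin_two, Matrix.one_fin_two]
    ext i j
    fin_cases i <;> fin_cases j <;> simp [hb]
    · linear_combination b⁻¹ * h

/-- **Unipotent lifts are constant up to conjugation.**  A matrix `u ∈ M₂(k[ε])` with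
`(u - 1)² = 0`, trace `2` and non-trivial reduction is conjugate by some `1 + εX` to the
constant lift of its reduction. -/
theorem tw_unipotent_conj {u : M₂ (DualNumber k)} (h2 : (u - 1) * (u - 1) = 0)
    (htr : u.trace = 2) (hne : twFst u ≠ 1) :
    ∃ X : M₂ k, u = (1 + twEps X) * twConst (twFst u) * (1 - twEps X) := by
  set N : M₂ k := twFst u - 1 with hN
  set C : M₂ k := twSnd u with hC
  have hN0 : N ≠ 0 := fun h => hne (sub_eq_zero.mp h)
  have hf := congrArg twFst h2
  have hs := congrArg twSnd h2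
  simp only [twFst_mul, twFst_sub, twFst_one, twFst_zero, twSnd_mul, twSnd_sub, twSnd_one,
    sub_zero, twSnd_zero] at hf hs
  have hN2 : N * N = 0 := hf
  have hNC : N * C + C * N = 0 := hs
  have htrN : N.trace = 0 := by
    rw [hN, Matrix.trace_sub, twFst_trace, htr, Matrix.trace_one]
    have : (TrivSqZeroExt.fst (2 : DualNumber k) : k) = 2 := by
      have : (2 : DualNumber k) = TrivSqZeroExt.inl (2 : k) := by
        rw [show (2 : k) = 1 + 1 by norm_num, TrivSqZeroExt.inl_add, TrivSqZeroExt.inl_one]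
        norm_num
      rw [this, TrivSqZeroExt.fst_inl]
    rw [this]
    simp
  obtain ⟨Y, hY⟩ := tw_exists_polarisation hN0 hN2 htrN
  refine ⟨C * Y, ?_⟩
  rw [tw_conj_eq]
  apply tw_ext
  · simp
  · simp only [twSnd_add, twSnd_const, twSnd_eps, zero_add, twFst_const]
    -- C = C Y ū - ū C Y
    have hū : twFst u = N + 1 := by rw [hN]; abel
    rw [hū]
    have h1 : C * Y * (N + 1) - (N + 1) * (C * Y) = C * Y * N - N * C * Y := by
      rw [mul_add, add_mul, mul_one, one_mul, Matrix.mul_assoc N C Y]; abel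
    have h2' : N * C = -(C * N) := eq_neg_of_add_eq_zero_left hNC
    rw [h1, h2', neg_mul, sub_neg_eq_add, Matrix.mul_assoc C Y N, Matrix.mul_assoc C N Y,
      ← mul_add, hY, mul_one]

/-- powers of a unipotent of square zero -/
theorem tw_one_add_pow {R : Type*} [Ring R] {N : R} (hN : N * N = 0) (n : ℕ) :
    (1 + N) ^ n = 1 + n • N := by
  induction n with
  | zero => simp
  | succ n ih =>
    rw [pow_succ, ih, mul_add, mul_one, add_mul, one_mul, smul_mul_assoc, hN, smul_zero, add_zero,
      succ_nsmul]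
    abel

/-- from the characteristic polynomial `(X - 1)²`: `(u - 1)² = 0` and `tr u = 2` -/
theorem tw_of_charpoly {R : Type*} [CommRing R] [Nontrivial R] {u : M₂ R}
    (h : u.charpoly = (X - 1) ^ 2) : (u - 1) * (u - 1) = 0 ∧ u.trace = 2 := by
  constructor
  · have h1 := Matrix.aeval_self_charpoly u
    rw [h] at h1
    simpa [sq] using h1
  · have h2 := Matrix.charpoly_fin_two u
    rw [h] at h2
    have h3 := congrArg (fun f => Polynomial.coeff f 1) h2
    simp only [sub_sq, one_pow, mul_one] at h3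
    simp [Polynomial.coeff_X_pow, Polynomial.coeff_one, Polynomial.coeff_X] at h3
    exact h3.symm

end LinAlg

section Main

variable {k : Type} [Field k]

/-- **G6a, core.**  Let `r : G_ℚ → GL₂(k[ε])` factor through a finite level, `p = 0` in `k`,
`q ≠ p` a prime and `A` a valuation subring of `ℚ̄` over `q`.  If every inertia element of `A` has
characteristic polynomial `(X - 1)²` and the reduction of `r` is ramified at `A`, then on the
inertia group `r` is conjugate, by an element `1 + εX`, to the constant lift of its reduction. -/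
theorem twMin_exists_conj {p q : ℕ} (hp : p.Prime) (hq : q.Prime) (hpq : p ≠ q)
    (hpk : (p : k) = 0) (A : ValuationSubring Qb) (hA : A.LiesOverPrime q)
    (r : GQ →* M₂ (DualNumber k)) (hlev : GaloisFactorsThroughFiniteLevel r)
    (huni : ∀ σ ∈ A.inertiaSubgroupIn ℚ, (r σ).charpoly = (X - 1) ^ 2)
    (hram : ∃ σ ∈ A.inertiaSubgroupIn ℚ, twFst (r σ) ≠ 1) :
    ∃ Y : M₂ k, ∀ σ ∈ A.inertiaSubgroupIn ℚ,
      r σ = (1 + twEps Y) * twConst (twFst (r σ)) * (1 - twEps Y) := by
  classical
  set φ : GQ →* (M₂ (DualNumber k))ˣ := r.toHomUnits with hφdef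
  have hφval : ∀ σ, ((φ σ : (M₂ (DualNumber k))ˣ) : M₂ (DualNumber k)) = r σ := fun σ => rfl
  have hpA : (p : DualNumber k) = 0 := by
    have : (p : DualNumber k) = TrivSqZeroExt.inl (p : k) := by
      rw [← map_natCast (TrivSqZeroExt.inlHom k k)]; rfl
    rw [this, hpk, TrivSqZeroExt.inl_zero]
  -- orders prime to q
  have hord : ∀ σ ∈ A.inertiaSubgroupIn ℚ, (orderOf (φ σ)).Coprime q := by
    intro σ hσ
    obtain ⟨h2, -⟩ := tw_of_charpoly (huni σ hσ)
    have hpow : (r σ) ^ p = 1 := by
      have h3 := tw_one_add_pow h2 p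
      rw [add_sub_cancel] at h3
      rw [h3, ← Nat.cast_smul_eq_nsmul (DualNumber k), hpA, zero_smul, add_zero]
    have hφpow : (φ σ) ^ p = 1 := by
      apply Units.ext
      rw [Units.val_pow_eq_pow_val, hφval, hpow, Units.val_one]
    have hdvd : orderOf (φ σ) ∣ p := orderOf_dvd_of_pow_eq_one hφpow
    exact Nat.Coprime.coprime_dvd_left hdvd ((Nat.coprime_primes hp hq).mpr hpq)
  -- level
  obtain ⟨F₀, hF₀, hF₀r⟩ := hlev
  have hker : F₀.fixingSubgroup ≤ φ.ker := by
    intro σ hσ
    rw [MonoidHom.mem_ker]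
    apply Units.ext
    rw [hφval, Units.val_one]
    exact hF₀r σ (fun x hx => (IntermediateField.mem_fixingSubgroup_iff _ _).mp hσ x hx)
  obtain ⟨τ, hτI, hτ⟩ := tame_inertia_image_cyclic' hq A hA φ hord F₀ hker
  -- the reduction hom on units
  let redU : (M₂ (DualNumber k))ˣ →* (M₂ (DualNumber k))ˣ := Units.map (twRed (k := k)).toMonoidHom
  have hredU_val : ∀ g : (M₂ (DualNumber k))ˣ,
      ((redU g : (M₂ (DualNumber k))ˣ) : M₂ (DualNumber k)) =
        twConst (twFst (g : M₂ (DualNumber k))) := by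
    intro g
    show twRed (g : M₂ (DualNumber k)) = _
    exact twRed_apply _
  -- u = r τ has nontrivial reduction
  have hneτ : twFst (r τ) ≠ 1 := by
    intro h1
    obtain ⟨σ, hσI, hσne⟩ := hram
    apply hσne
    obtain ⟨n, hn⟩ := Subgroup.mem_zpowers_iff.mp (hτ σ hσI)
    have h2 : redU (φ σ) = 1 := by
      rw [← hn, map_zpow]
      have : redU (φ τ) = 1 := by
        apply Units.ext
        rw [hredU_val, hφval, h1, twConst_one, Units.val_one]
      rw [this, _root_.one_zpow]
    have h3 := congrArg (fun g : (M₂ (DualNumber k))ˣ => twFst (g : M₂ (DualNumber k))) h2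
    simp only [hredU_val, hφval, twFst_const, Units.val_one, twFst_one] at h3
    exact h3
  obtain ⟨h2τ, htrτ⟩ := tw_of_charpoly (huni τ hτI)
  obtain ⟨Y, hY⟩ := tw_unipotent_conj h2τ htrτ hneτ
  refine ⟨Y, fun σ hσI => ?_⟩
  have hconjτ : φ τ = twUnit Y * redU (φ τ) * (twUnit Y)⁻¹ := by
    apply Units.ext
    rw [Units.val_mul, Units.val_mul, twUnit_val, twUnit_inv_val, hredU_val, hφval]
    exact hY
  obtain ⟨n, hn⟩ := Subgroup.mem_zpowers_iff.mp (hτ σ hσI)
  have hconjσ : φ σ = twUnit Y * redU (φ σ) * (twUnit Y)⁻¹ := by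
    rw [← hn, map_zpow, ← conj_zpow, ← hconjτ]
  have := congrArg (fun g : (M₂ (DualNumber k))ˣ => (g : M₂ (DualNumber k))) hconjσ
  simp only [Units.val_mul, twUnit_val, twUnit_inv_val, hredU_val, hφval] at this
  exact this

/-- the tangent cocycle form of `twMin_exists_conj`: writing `r σ = (1 + ε c(σ)) r̄(σ)`,
`c(σ) = Y - r̄(σ) Y r̄(σ)⁻¹` on inertia, i.e. `c(σ) r̄(σ) = Y r̄(σ) - r̄(σ) Y`. -/
theorem twMin_snd_eq {p q : ℕ} (hp : p.Prime) (hq : q.Prime) (hpq : p ≠ q)
    (hpk : (p : k) = 0) (A : ValuationSubring Qb) (hA : A.LiesOverPrime q)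
    (r : GQ →* M₂ (DualNumber k)) (hlev : GaloisFactorsThroughFiniteLevel r)
    (huni : ∀ σ ∈ A.inertiaSubgroupIn ℚ, (r σ).charpoly = (X - 1) ^ 2)
    (hram : ∃ σ ∈ A.inertiaSubgroupIn ℚ, twFst (r σ) ≠ 1) :
    ∃ Y : M₂ k, ∀ σ ∈ A.inertiaSubgroupIn ℚ,
      twSnd (r σ) = Y * twFst (r σ) - twFst (r σ) * Y := by
  obtain ⟨Y, hY⟩ := twMin_exists_conj hp hq hpq hpk A hA r hlev huni hram
  refine ⟨Y, fun σ hσ => ?_⟩
  have h := congrArg twSnd (hY σ hσ)
  rw [tw_conj_eq] at h
  simpa using h

end Main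

end Fermat.Agent.TW
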