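/-
P10 / G6 (helper8): the valuation subrings of `ℚ̄` over a prime `q` are conjugate under `G_ℚ`;
consequently "ramified at `q`" can be tested at any single place over `q`.
-/
import Mathlib
import Fermat.Agent.Lib.Helper6.FrobeniusExists
import Fermat.Agent.Lib.CFT.Bridge.Inertia

set_option autoImplicit false
set_option linter.style.haveILetI false

namespace Fermat.Agent.TW

open scoped Pointwise
open Fermat.Agent.Lib.Helper6

attribute [local instance] galActionIntegers

section Generic

variable (L : Type*) [Field L] [Algebra ℚ L]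

/-- **Conjugacy of places.**  Two valuation subrings of an algebraically closed Galois extension
`L/ℚ` over the same prime `q` are conjugate under `Gal(L/ℚ)`. -/
theorem tw_exists_smul_eq_of_liesOverPrime' [IsGalois ℚ L]
    (A A' : ValuationSubring L) {q : ℕ} (hq : q.Prime) (hA : A.LiesOverPrime q)
    (hA' : A'.LiesOverPrime q) : ∃ g : L ≃ₐ[ℚ] L, g • A = A' := by
  classical
  haveI : CharZero L := algebraRat.charZero L
  haveI := galActionIntegers_smulCommClass L
  haveI := galActionIntegers_isInvariant L
  letI : TopologicalSpace (integralClosure ℤ L) := ⊥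
  haveI : DiscreteTopology (integralClosure ℤ L) := ⟨rfl⟩
  haveI := galActionIntegers_continuousSMul L
  set P := primeOfValuationSubring L A with hP
  set P' := primeOfValuationSubring L A' with hP'
  haveI : P.IsPrime := primeOfValuationSubring_isPrime L A
  haveI : P'.IsPrime := primeOfValuationSubring_isPrime L A'
  -- both primes lie over `q`
  have hunder : ∀ (B : ValuationSubring L), B.LiesOverPrime q → ∀ n : ℤ,
      algebraMap ℤ (integralClosure ℤ L) n ∈ primeOfValuationSubring L B ↔ (q : ℤ) ∣ n := by
    intro B hB n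
    rw [mem_primeOfValuationSubring]
    constructor
    · intro h
      by_contra hnd
      exact intCast_not_mem_nonunits B hq hB hnd (by simpa using h)
    · rintro ⟨m, rfl⟩
      rw [B.mem_nonunits_iff]
      have hB' : B.valuation (q : L) < 1 := B.mem_nonunits_iff.mp hB
      have hm : B.valuation ((m : ℤ) : L) ≤ 1 := (B.valuation_le_one_iff _).mpr (intCast_mem B m)
      have : ((algebraMap ℤ (integralClosure ℤ L) ((q : ℤ) * m) : integralClosure ℤ L) : L) =
          (q : L) * ((m : ℤ) : L) := by simp
      rw [this, map_mul]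
      calc B.valuation (q : L) * B.valuation ((m : ℤ) : L) ≤ B.valuation (q : L) * 1 := by gcongr
        _ < 1 := by rwa [mul_one]
  have hPQ : P.under ℤ = P'.under ℤ := by
    ext n
    rw [Ideal.under_def, Ideal.mem_comap, Ideal.mem_comap, hP, hP', hunder A hA, hunder A' hA']
  obtain ⟨g, hg⟩ := Algebra.IsInvariant.exists_smul_of_under_eq_of_profinite
    (A := ℤ) (B := integralClosure ℤ L) (G := L ≃ₐ[ℚ] L) P P' hPQ
  refine ⟨g, ?_⟩
  -- `g` maps `A` into `A'`, and `g⁻¹` maps `A'` into `A`
  have key : ∀ (B B' : ValuationSubring L) (τ : L ≃ₐ[ℚ] L), B.LiesOverPrime q →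
      primeOfValuationSubring L B' = τ • primeOfValuationSubring L B →
      ∀ x ∈ B, τ x ∈ B' := by
    intro B B' τ hB hτ x hx
    have hxalg : IsAlgebraic ℤ x :=
      (IsFractionRing.isAlgebraic_iff ℤ ℚ L).mpr (Algebra.IsAlgebraic.isAlgebraic x)
    obtain ⟨s, hs, hsx, hsB, hsnon⟩ := exists_integral_denominator B hq hB hx hxalg
    -- `τ s` is a unit of `B'`
    have h1 : B'.valuation (τ s) = 1 := by
      have hle : B'.valuation (τ s) ≤ 1 := (B'.valuation_le_one_iff _).mpr
        (integralClosure_le_valuationSubring L B' (map_isIntegral_int τ hs))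
      refine le_antisymm hle (not_lt.mp fun hlt => hsnon ?_)
      have hmem : (τ • (⟨s, hs⟩ : integralClosure ℤ L)) ∈ τ • primeOfValuationSubring L B := by
        rw [← hτ, mem_primeOfValuationSubring, B'.mem_nonunits_iff]
        exact hlt
      rw [Ideal.smul_mem_pointwise_smul_iff] at hmem
      exact hmem
    have h2 : B'.valuation (τ (s * x)) ≤ 1 := (B'.valuation_le_one_iff _).mpr
      (integralClosure_le_valuationSubring L B' (map_isIntegral_int τ hsx))
    rw [map_mul, map_mul, h1, one_mul] at h2
    exact (B'.valuation_le_one_iff _).mp h2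
  have hg' : P = g⁻¹ • P' := by rw [hg, inv_smul_smul]
  ext x
  rw [ValuationSubring.mem_pointwise_smul_iff_inv_smul_mem]
  constructor
  · intro hx
    have := key A A' g hA hg _ hx
    simpa using this
  · intro hx
    exact key A' A g⁻¹ hA' hg' x hx

end Generic

local notation "Qb" => AlgebraicClosure ℚ
local notation "GQ" => (AlgebraicClosure ℚ ≃ₐ[ℚ] AlgebraicClosure ℚ)

/-- **Conjugacy of places of `ℚ̄`.** -/
theorem tw_exists_smul_eq_of_liesOverPrime (A A' : ValuationSubring Qb) {q : ℕ} (hq : q.Prime)
    (hA : A.LiesOverPrime q) (hA' : A'.LiesOverPrime q) : ∃ g : GQ, g • A = A' := by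
  haveI := isGalois_rat_algebraicClosure
  exact tw_exists_smul_eq_of_liesOverPrime' Qb A A' hq hA hA'

/-- If a homomorphism from `G_ℚ` is non-trivial on the inertia group of some place over `q`, it is
non-trivial on the inertia group of every place over `q`. -/
theorem tw_ramified_at_place {M : Type*} [Monoid M] (φ : GQ →* M) {q : ℕ} (hq : q.Prime)
    (A A' : ValuationSubring Qb) (hA : A.LiesOverPrime q) (hA' : A'.LiesOverPrime q)
    (h : ∃ σ ∈ A'.inertiaSubgroupIn ℚ, φ σ ≠ 1) : ∃ σ ∈ A.inertiaSubgroupIn ℚ, φ σ ≠ 1 := by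
  obtain ⟨g, hg⟩ := tw_exists_smul_eq_of_liesOverPrime A A' hq hA hA'
  obtain ⟨σ, hσ, hσne⟩ := h
  rw [← hg, Fermat.Agent.CFT.Bridge.mem_inertiaSubgroupIn_smul_iff] at hσ
  refine ⟨_, hσ, fun h1 => hσne ?_⟩
  have : φ σ = φ g * φ (g⁻¹ * σ * g) * φ g⁻¹ := by
    rw [← map_mul, ← map_mul]; congr 1; group
  rw [this, h1, mul_one, ← map_mul, mul_inv_cancel, map_one]

end Fermat.Agent.TW
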