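/-
P10 / G6a (helper8): the unramified classes `H¹_ur(G_q, M)` and the minimal condition at the primes
`q ≠ p` where `ρbar` is ramified: the tangent class of every lift with unipotent inertia at `q` is
unramified (`tw_tangentClassesIn_ur`), hence `tw_contractLocMin` (given the bound
`dim H¹_ur ≤ h⁰` of G2).
-/
import Fermat.Agent.Lib.TW.Interface
import Fermat.Agent.Lib.TW.Local.MinimalUnipotent
import Fermat.Agent.Lib.TW.Local.PlaceConj
import Fermat.Agent.Lib.CFT.S14.LevelOfKernel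

set_option autoImplicit false

open Fermat.Agent.S53Lib groupCohomology ExtCitation Polynomial CategoryTheory IsLocalRing

namespace Fermat.Agent.TW

noncomputable section

section general


variable {A : Type} [CommRing A] [IsLocalRing A]

/-- the characteristic polynomial of `ofMat r h` is that of the matrix -/
theorem tw_charpoly_ofMat (r : GQ →* Matrix (Fin 2) (Fin 2) A) (h : MatCts A r) (σ : GQ) :
    LinearMap.charpoly ((ofMat r h).ρ σ) = (r σ).charpoly := by
  have h1 : (ofMat r h).ρ σ = Matrix.toLin' (r σ) := by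
    ext v : 1
    rw [ofMat_ρ_apply]
    rfl
  rw [h1]
  exact (Matrix.charpoly_toLin' (r σ))

/-- equivalent representations have the same characteristic polynomials -/
theorem tw_charpoly_eq_of_isEquiv {ρ₁ ρ₂ : GaloisRepAdic A} (h : ρ₁.IsEquiv ρ₂) (σ : GQ) :
    LinearMap.charpoly (ρ₁.ρ σ) = LinearMap.charpoly (ρ₂.ρ σ) := by
  obtain ⟨e⟩ := h
  have h2 : ρ₂.ρ σ = e.toLinearEquiv.conj (ρ₁.ρ σ) := by
    ext y
    rw [LinearEquiv.conj_apply_apply, e.map_apply, LinearEquiv.apply_symm_apply]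
  rw [h2, LinearEquiv.charpoly_conj]


end general


variable {k : Type} [Field k]

/-- elements of the maximal ideal of the dual numbers have constant part zero -/
theorem tw_fst_eq_zero_of_mem_maximalIdeal {x : DualNumber k} (hx : x ∈ maximalIdeal (DualNumber k)) :
    x.fst = 0 := by
  by_contra h
  have : IsUnit x := (TrivSqZeroExt.isUnit_iff_isUnit_fst).2 (isUnit_iff_ne_zero.2 h)
  exact (mem_maximalIdeal x).1 hx this

theorem tw_maximalIdeal_sq_dualNumber : maximalIdeal (DualNumber k) ^ 2 = ⊥ := by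
  rw [eq_bot_iff, sq, Ideal.mul_le]
  intro a ha b hb
  rw [Ideal.mem_bot]
  have h1 := tw_fst_eq_zero_of_mem_maximalIdeal ha
  have h2 := tw_fst_eq_zero_of_mem_maximalIdeal hb
  ext
  · simp [h1]
  · simp [h1, h2]

/-- a continuous matrix representation over the dual numbers factors through a finite level -/
theorem tw_factors_of_matCts (r : GQ →* Matrix (Fin 2) (Fin 2) (DualNumber k))
    (h : MatCts (DualNumber k) r) : GaloisFactorsThroughFiniteLevel r := by
  obtain ⟨L, hL, hLr⟩ := h 2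
  refine ⟨L, hL, fun σ hσ => ?_⟩
  ext i j : 1
  have := hLr σ hσ i j
  rw [tw_maximalIdeal_sq_dualNumber, Ideal.mem_bot, Matrix.sub_apply, sub_eq_zero] at this
  exact this




/-- the inertia subgroup of the local Galois group at `q` -/
def twLocInertia (q : Nat.Primes) : Subgroup (primeLocalGaloisGroup q) :=
  ((primeLocalPlace q).inertiaSubgroupIn ℚ).comap (primeLocalToGlobal q)

theorem tw_primeLocalPlace_liesOver (q : Nat.Primes) : (primeLocalPlace q).LiesOverPrime (q : ℕ) :=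
  @Fermat.Agent.CFT.S14.padicPlace_liesOverPrime (q : ℕ) ⟨q.2⟩

/-- cocycles which are constant modulo a finite level and vanish on inertia -/
def twUrCocycles (q : Nat.Primes) (M : Rep k GQ) : Submodule k (cocycles₁ (locAt q M)) where
  carrier := {c | IsLevelConstant₁ (primeLocalToGlobal q) c ∧ ∀ τ ∈ twLocInertia q, c τ = 0}
  add_mem' := by
    rintro c c' ⟨h1, h2⟩ ⟨h1', h2'⟩
    refine ⟨h1.add h1', fun τ hτ => ?_⟩
    show c τ + c' τ = 0
    rw [h2 τ hτ, h2' τ hτ, add_zero]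
  zero_mem' := ⟨isLevelConstant₁_const _ 0, fun _ _ => rfl⟩
  smul_mem' := by
    rintro a c ⟨h1, h2⟩
    refine ⟨h1.comp (fun x => a • x), fun τ hτ => ?_⟩
    show a • c τ = 0
    rw [h2 τ hτ, smul_zero]

/-- the unramified classes `H¹_ur(G_q, M)` -/
def twUr (q : Nat.Primes) (M : Rep k GQ) : Submodule k (H1 (locAt q M)) :=
  (twUrCocycles q M).map (H1π (locAt q M)).hom

theorem mem_twUr_iff (q : Nat.Primes) (M : Rep k GQ) (x : H1 (locAt q M)) :
    x ∈ twUr q M ↔ ∃ c : cocycles₁ (locAt q M), IsLevelConstant₁ (primeLocalToGlobal q) c ∧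
      (∀ τ ∈ twLocInertia q, c τ = 0) ∧ (H1π (locAt q M)).hom c = x := by
  unfold twUr
  rw [Submodule.mem_map]
  constructor
  · rintro ⟨c, ⟨h1, h2⟩, h3⟩
    exact ⟨c, h1, h2, h3⟩
  · rintro ⟨c, h1, h2, h3⟩
    exact ⟨c, ⟨h1, h2⟩, h3⟩

theorem twUr_le_locCont (q : Nat.Primes) (M : Rep k GQ) : twUr q M ≤ locCont q M := by
  intro x hx
  obtain ⟨c, h1, -, h3⟩ := (mem_twUr_iff q M x).1 hx
  exact (mem_continuousH1_iff _ _ _).2 ⟨c, h1, h3⟩




variable (ρbar : ResidualGaloisRep k) (b : Module.Basis (Fin 2) k ρbar.V)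

/-- the trace-zero part `Y - (tr Y / 2)` -/
def twTraceless (Y : Matrix (Fin 2) (Fin 2) k) : Matrix (Fin 2) (Fin 2) k :=
  Y - ((2 : k)⁻¹ * Y.trace) • (1 : Matrix (Fin 2) (Fin 2) k)

theorem tw_trace_traceless (h2 : (2 : k) ≠ 0) (Y : Matrix (Fin 2) (Fin 2) k) :
    (twTraceless Y).trace = 0 := by
  unfold twTraceless
  rw [Matrix.trace_sub, Matrix.trace_smul, Matrix.trace_one, Fintype.card_fin, smul_eq_mul]
  push_cast
  field_simp
  ring

theorem tw_traceless_conj (Y a a' : Matrix (Fin 2) (Fin 2) k) (h : a * a' = 1) :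
    twTraceless Y - a * twTraceless Y * a' = Y - a * Y * a' := by
  unfold twTraceless
  rw [mul_sub, sub_mul, Matrix.mul_smul, Matrix.smul_mul, mul_one, h]
  abel

/-- the element of `ad⁰ ρbar` attached to a matrix -/
def twAdOfMat (h2 : (2 : k) ≠ 0) (Y : Matrix (Fin 2) (Fin 2) k) : (ad0Rep ρbar).V :=
  ad0Mk ρbar (Matrix.toLin b b (twTraceless Y)) (by
    rw [LinearMap.trace_eq_matrix_trace k b, LinearMap.toMatrix_toLin, tw_trace_traceless h2])

/-- if `mSnd (r σ) = Y r̄(σ) - r̄(σ) Y` then the tangent cocycle at `σ` is `y - σ y` -/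
theorem tw_tangentCocycle_eq (h2 : (2 : k) ≠ 0) (r : GQ →* Matrix (Fin 2) (Fin 2) (DualNumber k))
    (hr : IsDualLift ρbar b r) (hdet : HasResidualDet r) (Y : Matrix (Fin 2) (Fin 2) k) (σ : GQ)
    (hσ : mSnd (r σ) = Y * mFst (r σ) - mFst (r σ) * Y) :
    tangentCocycle r hr hdet σ + ((ad0Rep ρbar).ρ σ (twAdOfMat ρbar b h2 Y) - twAdOfMat ρbar b h2 Y)
      = 0 := by
  apply ad0Val_injective ρbar
  rw [ad0Val_add, ad0Val_sub, ad0Val_ρ, ad0Val_tangentCocycle]
  unfold twAdOfMat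
  rw [ad0Val_ad0Mk, adRepn_apply]
  unfold tangentEnd tangentMat
  rw [hσ, hr σ, ← toLin_rbarMat ρbar b σ, ← toLin_rbarMat ρbar b σ⁻¹]
  have e1 : (Matrix.toLin b b) (rbarMat ρbar b σ) ∘ₗ (Matrix.toLin b b) (twTraceless Y) ∘ₗ
      (Matrix.toLin b b) (rbarMat ρbar b σ⁻¹) =
      Matrix.toLin b b (rbarMat ρbar b σ * twTraceless Y * rbarMat ρbar b σ⁻¹) := by
    rw [Matrix.toLin_mul b b b, Matrix.toLin_mul b b b, LinearMap.comp_assoc]
  rw [e1, ← map_sub, ← map_add]
  have e2 : (Y * rbarMat ρbar b σ - rbarMat ρbar b σ * Y) * rbarMat ρbar b σ⁻¹ =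
      Y - rbarMat ρbar b σ * Y * rbarMat ρbar b σ⁻¹ := by
    rw [sub_mul, mul_assoc, rbarMat_mul_inv, mul_one]
  rw [e2, ← tw_traceless_conj Y _ _ (rbarMat_mul_inv ρbar b σ)]
  simp only [sub_add_sub_cancel, sub_self, map_zero]
  rfl


/-- the tangent class of a lift with unipotent inertia at a ramified prime `q ≠ p` is unramified -/
theorem tw_tangentClassesIn_ur (p : ℕ) [Fact p.Prime] (hpk : (p : k) = 0) (h2 : (2 : k) ≠ 0)
    (q : Nat.Primes) (hqp : (q : ℕ) ≠ p) (hram : ¬ ρbar.IsUnramifiedAt q) :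
    TangentClassesIn ρbar b (fun ρ' => ρ'.IsUnipotentOnInertiaAt q) q (twUr q (ad0Rep ρbar)) := by
  intro ρ' r h hr hdet hequiv hcond
  set A := primeLocalPlace q with hA
  have hAq : A.LiesOverPrime (q : ℕ) := tw_primeLocalPlace_liesOver q
  -- unipotent inertia for `r`
  have huni : ∀ σ ∈ A.inertiaSubgroupIn ℚ, (r σ).charpoly = (X - 1) ^ 2 := by
    intro σ hσ
    rw [← tw_charpoly_ofMat r h σ, ← tw_charpoly_eq_of_isEquiv hequiv σ]
    exact hcond A hAq σ hσ
  -- ramification at `A`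
  have hram' : ∃ σ ∈ A.inertiaSubgroupIn ℚ, twFst (r σ) ≠ 1 := by
    unfold ResidualGaloisRep.IsUnramifiedAt at hram
    push Not at hram
    obtain ⟨A', hA', σ, hσ, hne⟩ := hram
    obtain ⟨σ', hσ', hne'⟩ := tw_ramified_at_place ρbar.ρ q.2 A A' hAq hA' ⟨σ, hσ, hne⟩
    refine ⟨σ', hσ', fun h1 => hne' ?_⟩
    have h3 : rbarMat ρbar b σ' = 1 := (hr σ').symm.trans h1
    rw [← toLin_rbarMat ρbar b σ', h3, Matrix.toLin_one]
    rfl
  obtain ⟨Y, hY⟩ := twMin_snd_eq (Fact.out : p.Prime) q.2 (Ne.symm hqp) hpk A hAq r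
    (tw_factors_of_matCts r h) huni hram'
  -- the modified cocycle
  set M := ad0Rep ρbar with hM
  set y := twAdOfMat ρbar b h2 Y with hy
  set tc := tangentCocycle r hr hdet with htc
  let cloc : cocycles₁ (locAt q M) := (mapCocycles₁ (primeLocalToGlobal q) (𝟙 (locAt q M))).hom tc
  let yl : (locAt q M).V := y
  let cob : cocycles₁ (locAt q M) := ⟨(d₀₁ (locAt q M)).hom yl, d₀₁_apply_mem_cocycles₁ yl⟩
  rw [mem_twUr_iff]
  have hval : ∀ τ : primeLocalGaloisGroup q, (cloc + cob) τ =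
      tc (primeLocalToGlobal q τ) + (M.ρ (primeLocalToGlobal q τ) y - y) := fun τ => rfl
  have hvan : ∀ τ ∈ twLocInertia q, (cloc + cob) τ = 0 := by
    intro τ hτ
    rw [hval]
    exact tw_tangentCocycle_eq ρbar b h2 r hr hdet Y _ (hY _ hτ)
  refine ⟨cloc + cob, ?_, hvan, ?_⟩
  · obtain ⟨L, hL, hLr⟩ := tw_factors_of_matCts r h
    refine ⟨L, hL, fun g s hs => ?_⟩
    have hco : (cloc + cob) (g * s) = (locAt q M).ρ g ((cloc + cob) s) + (cloc + cob) g :=
      (mem_cocycles₁_iff (A := locAt q M) (cloc + cob)).mp (cloc + cob).2 g s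
    have hrs : r (primeLocalToGlobal q s) = 1 :=
      hLr _ ((IntermediateField.mem_fixingSubgroup_iff _ _).1 hs)
    have hs0 : (cloc + cob) s = 0 := by
      rw [hval]
      have hbar : ρbar.ρ (primeLocalToGlobal q s) = 1 := by
        have h3 : rbarMat ρbar b (primeLocalToGlobal q s) = 1 := by
          rw [← hr, hrs, mFst_one]
        rw [← toLin_rbarMat ρbar b, h3, Matrix.toLin_one]
        rfl
      have hbar' : ρbar.ρ (primeLocalToGlobal q s)⁻¹ = 1 := by
        have := rho_inv_mul_rho ρbar (primeLocalToGlobal q s)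
        rwa [hbar, mul_one] at this
      have e1 : tc (primeLocalToGlobal q s) = 0 := by
        apply ad0Val_injective ρbar
        rw [htc, ad0Val_tangentCocycle]
        unfold tangentEnd tangentMat
        rw [hrs, mSnd_one, zero_mul, map_zero]
        rfl
      have e2 : M.ρ (primeLocalToGlobal q s) y = y := by
        apply ad0Val_injective ρbar
        show ad0Val ρbar ((ad0Rep ρbar).ρ (primeLocalToGlobal q s) y) = ad0Val ρbar y
        rw [ad0Val_ρ, adRepn_apply, hbar, hbar']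
        rfl
      rw [e1, e2, sub_self, add_zero]
    rw [hco, hs0, map_zero, zero_add]
  · rw [map_add]
    have e1 : (H1π (locAt q M)).hom cob = 0 := by
      rw [H1π_eq_zero_iff]
      exact ⟨yl, rfl⟩
    rw [e1, add_zero]
    unfold resAt tangentClass
    exact (H1π_comp_map_apply (primeLocalToGlobal q) (𝟙 (locAt q M)) tc).symm

/-- **(C-LOC-min)**, given the bound `dim H¹_ur(G_q, ad⁰) ≤ h⁰(G_q, ad⁰)` -/
theorem tw_contractLocMin (p : ℕ) [Fact p.Prime] (hpk : (p : k) = 0) (h2 : (2 : k) ≠ 0)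
    (hdim : ∀ q : Nat.Primes, (q : ℕ) ≠ p →
      Module.finrank k (twUr q (ad0Rep ρbar)) ≤ h0At ρbar q) :
    ContractLocMin p ρbar b :=
  fun q hqp hram => ⟨twUr q _, twUr_le_locCont q _, hdim q hqp,
    tw_tangentClassesIn_ur ρbar b p hpk h2 q hqp hram⟩

end

end Fermat.Agent.TW
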