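/-
P10 / G6b (helper8): matrix form of the strict ordinary condition for a lift to the dual numbers:
`tw_ord_matrix_data`, `IsOrdLine`, `tw_ordLine_of_lift`.
-/
import Fermat.Agent.Lib.TW.Interface
import Fermat.Agent.Lib.TW.Local.Unramified

set_option autoImplicit false
set_option linter.style.haveILetI false

open Fermat.Agent.S53Lib groupCohomology ExtCitation Polynomial CategoryTheory IsLocalRing Matrix

namespace Fermat.Agent.TW

noncomputable section

local notation "Qb" => AlgebraicClosure ℚ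

section general

variable {A : Type} [CommRing A]

/-- determinant of an endomorphism which is triangular with respect to the line spanned by the
first vector of a basis -/
theorem tw_det_of_triangular {V : Type} [AddCommGroup V] [Module A V]
    (b' : Module.Basis (Fin 2) A V) (T : Module.End A V) (x z c : A)
    (hx : T (b' 0) = x • b' 0) (hz : T (b' 1) - z • b' 1 = c • b' 0) :
    LinearMap.det T = x * z := by
  rw [← LinearMap.det_toMatrix b', Matrix.det_fin_two]
  have h1 : T (b' 1) = c • b' 0 + z • b' 1 := by rw [← hz]; abel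
  simp only [LinearMap.toMatrix_apply, hx, h1, map_add, map_smul, Module.Basis.repr_self,
    Finsupp.smul_apply, Finsupp.add_apply, Finsupp.single_apply]
  simp


variable [IsLocalRing A]

/-- matrix form of the strict ordinary condition at a place `P` over `p` -/
theorem tw_ord_matrix_data {p : ℕ} (r : GQ →* Matrix (Fin 2) (Fin 2) A) (h : MatCts A r)
    (ρ' : GaloisRepAdic A) (hequiv : ρ'.IsEquiv (ofMat r h)) (hso : ρ'.IsStrictOrdinaryAt p)
    (P : ValuationSubring Qb) (hP : P.LiesOverPrime p) :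
    ∃ v : Fin 2 → A, (∀ a : A, a • v = 0 → a = 0) ∧
      (∀ σ ∈ P.inertiaSubgroupIn ℚ, ∀ u : Fin 2 → A, ∃ c : A, (r σ) *ᵥ u - u = c • v) ∧
      ∀ σ ∈ P.decompositionSubgroup ℚ, ∃ x z : A, (r σ) *ᵥ v = x • v ∧
        (∀ u : Fin 2 → A, ∃ c : A, (r σ) *ᵥ u - z • u = c • v) ∧
        LinearMap.det (ρ'.ρ σ) = x * z ∧
        ∀ (n a : ℕ), (∀ μ : Qb, μ ^ p ^ n = 1 → σ μ = μ ^ a) →
          x - (a : A) * z ∈ Ideal.span {((p ^ n : ℕ) : A)} := by
  obtain ⟨e⟩ := hequiv
  obtain ⟨L, ⟨b', hL⟩, -, hI, hD⟩ := hso.2 P hP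
  let E : ρ'.V ≃ₗ[A] (Fin 2 → A) := e.toLinearEquiv
  have he : ∀ (σ : GQ) (w : ρ'.V), E (ρ'.ρ σ w) = (r σ) *ᵥ (E w) :=
    fun σ w => e.map_apply σ w
  have hb0 : b' 0 ∈ L := by rw [hL]; exact Submodule.mem_span_singleton_self _
  refine ⟨E (b' 0), ?_, ?_, ?_⟩
  · intro a ha
    rw [← map_smul, LinearEquiv.map_eq_zero_iff] at ha
    have h1 := congrArg (fun w => b'.repr w 0) ha
    simpa using h1
  · intro σ hσ u
    have h1 := hI σ hσ (E.symm u)
    rw [hL, Submodule.mem_span_singleton] at h1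
    obtain ⟨c, hc⟩ := h1
    refine ⟨c, ?_⟩
    have h2 := congrArg E hc
    rw [map_smul, map_sub, he, LinearEquiv.apply_symm_apply] at h2
    exact h2.symm
  · intro σ hσ
    obtain ⟨x, z, hx, hz, hcyc⟩ := hD σ hσ
    refine ⟨x, z, ?_, ?_, ?_, hcyc⟩
    · rw [← he, hx _ hb0, map_smul]
    · intro u
      have h1 := hz (E.symm u)
      rw [hL, Submodule.mem_span_singleton] at h1
      obtain ⟨c, hc⟩ := h1
      refine ⟨c, ?_⟩
      have h2 := congrArg E hc
      rw [map_smul, map_sub, he, map_smul, LinearEquiv.apply_symm_apply] at h2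
      exact h2.symm
    · have h1 := hz (b' 1)
      rw [hL, Submodule.mem_span_singleton] at h1
      obtain ⟨c, hc⟩ := h1
      have h2 := tw_det_of_triangular b' (ρ'.ρ σ) x z c (hx _ hb0) hc.symm
      exact h2

end general

/-! ## Vectors over the dual numbers -/

variable {k : Type} [Field k]

/-- constant part of a vector over `k[ε]` -/
def twVFst (v : Fin 2 → DualNumber k) : Fin 2 → k := fun i => (v i).fst

/-- `ε`-part of a vector over `k[ε]` -/
def twVSnd (v : Fin 2 → DualNumber k) : Fin 2 → k := fun i => (v i).snd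

theorem twVFst_mulVec (M : Matrix (Fin 2) (Fin 2) (DualNumber k)) (v : Fin 2 → DualNumber k) :
    twVFst (M *ᵥ v) = mFst M *ᵥ twVFst v := by
  ext i
  simp [twVFst, mFst, Matrix.mulVec, dotProduct, Fin.sum_univ_two]

theorem twVSnd_mulVec (M : Matrix (Fin 2) (Fin 2) (DualNumber k)) (v : Fin 2 → DualNumber k) :
    twVSnd (M *ᵥ v) = mFst M *ᵥ twVSnd v + mSnd M *ᵥ twVFst v := by
  ext i
  fin_cases i <;>
  · simp [twVFst, twVSnd, mFst, mSnd, Matrix.mulVec, dotProduct, Fin.sum_univ_two]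
    ring

theorem twVFst_smul (x : DualNumber k) (v : Fin 2 → DualNumber k) :
    twVFst (x • v) = x.fst • twVFst v := by
  ext i
  simp [twVFst]

theorem twVSnd_smul (x : DualNumber k) (v : Fin 2 → DualNumber k) :
    twVSnd (x • v) = x.fst • twVSnd v + x.snd • twVFst v := by
  ext i
  simp [twVFst, twVSnd]

theorem twVFst_sub (u v : Fin 2 → DualNumber k) : twVFst (u - v) = twVFst u - twVFst v := by
  ext i; simp [twVFst]

/-- the constant vector -/
def twVConst (u : Fin 2 → k) : Fin 2 → DualNumber k := fun i => TrivSqZeroExt.inl (u i)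

@[simp] theorem twVFst_const (u : Fin 2 → k) : twVFst (twVConst u) = u := by
  ext i; simp [twVFst, twVConst]

/-- the linear form `u ↦ det [v | u]` -/
def twPerp (v : Fin 2 → k) : Fin 2 → k := ![-v 1, v 0]

theorem twPerp_dot_self (v : Fin 2 → k) : twPerp v ⬝ᵥ v = 0 := by
  simp [twPerp, dotProduct, Fin.sum_univ_two]
  ring

theorem twPerp_ne_zero {v : Fin 2 → k} (hv : v ≠ 0) : twPerp v ≠ 0 := by
  intro h
  apply hv
  ext i
  have h0 := congrFun h 0
  have h1 := congrFun h 1
  simp [twPerp] at h0 h1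
  fin_cases i
  · exact h1
  · exact h0

/-- a vector killed by `twPerp v` is a multiple of `v` -/
theorem tw_eq_smul_of_perp {v u : Fin 2 → k} (hv : v ≠ 0) (h : twPerp v ⬝ᵥ u = 0) :
    ∃ c : k, u = c • v := by
  simp [twPerp, dotProduct, Fin.sum_univ_two] at h
  by_cases h0 : v 0 = 0
  · have h1 : v 1 ≠ 0 := by
      intro h1
      apply hv
      ext i
      fin_cases i
      · exact h0
      · exact h1
    refine ⟨u 1 / v 1, ?_⟩
    ext i
    fin_cases i
    · simp [h0] at h ⊢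
      rcases h with h | h
      · exact absurd h h1
      · exact h
    · simp
      field_simp
  · refine ⟨u 0 / v 0, ?_⟩
    ext i
    fin_cases i
    · simp
      field_simp
    · simp
      field_simp
      linear_combination h

/-- two row vectors with the same pairing against all column vectors are equal -/
theorem tw_vec_ext_of_dot {a c : Fin 2 → k} (h : ∀ u : Fin 2 → k, a ⬝ᵥ u = c ⬝ᵥ u) : a = c := by
  ext i
  have := h (Pi.single i 1)
  simpa using this

theorem tw_perp_of_sub_eq_smul {v₀ u : Fin 2 → k} {M : Matrix (Fin 2) (Fin 2) k} {z c : k}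
    (h : M *ᵥ u - z • u = c • v₀) : (twPerp v₀ ᵥ* M) ⬝ᵥ u = (z • twPerp v₀) ⬝ᵥ u := by
  have h1 := congrArg (fun y => twPerp v₀ ⬝ᵥ y) h
  simp only [dotProduct_sub, dotProduct_smul, twPerp_dot_self, smul_zero] at h1
  rw [← Matrix.dotProduct_mulVec, smul_dotProduct]
  exact sub_eq_zero.1 h1

variable (p : ℕ) [Fact p.Prime] [Algebra (ZMod p) k] (ρbar : ResidualGaloisRep k)
  (b : Module.Basis (Fin 2) k ρbar.V)

/-- `v₀` spans an "ordinary line" of `ρbar` at the distinguished place over `p` -/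
structure IsOrdLine (v₀ : Fin 2 → k) : Prop where
  ne_zero : v₀ ≠ 0
  inertia : ∀ σ ∈ (primeLocalPlace (pPrime p)).inertiaSubgroupIn ℚ,
    twPerp v₀ ᵥ* rbarMat ρbar b σ = twPerp v₀
  decomp : ∀ σ ∈ (primeLocalPlace (pPrime p)).decompositionSubgroup ℚ, ∃ x₀ z₀ : k, z₀ ≠ 0 ∧
    rbarMat ρbar b σ *ᵥ v₀ = x₀ • v₀ ∧ twPerp v₀ ᵥ* rbarMat ρbar b σ = z₀ • twPerp v₀ ∧
      x₀ = ((cycloK p k σ : kˣ) : k) * z₀

theorem tw_natCast_dualNumber_eq_zero : ((p : ℕ) : DualNumber k) = 0 := by
  have h1 : ((p : ℕ) : k) = 0 := by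
    have : ((p : ℕ) : k) = algebraMap (ZMod p) k ((p : ℕ) : ZMod p) := by rw [map_natCast]
    rw [this, ZMod.natCast_self, map_zero]
  have h2 : ((p : ℕ) : DualNumber k) = TrivSqZeroExt.inl ((p : ℕ) : k) := by
    rw [TrivSqZeroExt.inl_natCast]
  rw [h2, h1, TrivSqZeroExt.inl_zero]

theorem tw_cycloExp_cast (σ : GQ) : ((cycloExp p σ : ℕ) : k) = ((cycloK p k σ : kˣ) : k) := by
  have h1 : ((cycloExp p σ : ℕ) : k) = algebraMap (ZMod p) k ((cycloExp p σ : ℕ) : ZMod p) := by
    rw [map_natCast]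
  rw [h1, ← coe_cycloChar]
  rfl

variable {p ρbar b}

/-- **matrix form of a strict ordinary lift to the dual numbers**: an ordinary line `k v₀` of
`ρbar` and a vector `v₁` with `r(σ)(v₀ + ε v₁) = x₀(σ) (v₀ + ε v₁)`, `x₀(σ) ∈ k`, on the
decomposition group. -/
theorem tw_ordLine_of_lift (h2 : (2 : k) ≠ 0) (r : GQ →* Matrix (Fin 2) (Fin 2) (DualNumber k))
    (h : MatCts (DualNumber k) r) (hr : IsDualLift ρbar b r) (ρ' : GaloisRepAdic (DualNumber k))
    (hequiv : ρ'.IsEquiv (ofMat r h)) (hcond : condStrictOrd p ρ') :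
    ∃ v₀ v₁ : Fin 2 → k, IsOrdLine p ρbar b v₀ ∧
      ∀ σ ∈ (primeLocalPlace (pPrime p)).decompositionSubgroup ℚ, ∃ x₀ : k,
        rbarMat ρbar b σ *ᵥ v₀ = x₀ • v₀ ∧
        mSnd (r σ) *ᵥ v₀ + rbarMat ρbar b σ *ᵥ v₁ = x₀ • v₁ := by
  set P := primeLocalPlace (pPrime p) with hPdef
  have hP : P.LiesOverPrime p := tw_primeLocalPlace_liesOver (pPrime p)
  obtain ⟨v, hvfree, hI, hD⟩ := tw_ord_matrix_data r h ρ' hequiv hcond.2 P hP
  have hp0 : ((p ^ 1 : ℕ) : DualNumber k) = 0 := by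
    rw [pow_one]; exact tw_natCast_dualNumber_eq_zero p
  have hspan : Ideal.span {((p ^ 1 : ℕ) : DualNumber k)} = ⊥ := by
    rw [hp0]; simp
  have hv0 : twVFst v ≠ 0 := by
    intro h0
    have h1 : (TrivSqZeroExt.inr 1 : DualNumber k) • v = 0 := by
      ext i
      · simp
      · have := congrFun h0 i
        simp only [twVFst, Pi.zero_apply] at this
        simp [this]
    have h3 := hvfree _ h1
    have h4 := congrArg TrivSqZeroExt.snd h3
    simp at h4
  -- analysis on the decomposition group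
  have hDk : ∀ σ ∈ P.decompositionSubgroup ℚ, ∃ x z : DualNumber k, z.fst ≠ 0 ∧ x.snd = 0 ∧
      x.fst = ((cycloK p k σ : kˣ) : k) * z.fst ∧ (r σ) *ᵥ v = x • v ∧
      (∀ u : Fin 2 → DualNumber k, ∃ c : DualNumber k, (r σ) *ᵥ u - z • u = c • v) := by
    intro σ hσ
    obtain ⟨x, z, hx, hz, hdet, hcyc⟩ := hD σ hσ
    set a := cycloExp p σ with ha
    have hroot : ∀ μ : Qb, μ ^ p ^ 1 = 1 → σ μ = μ ^ a := by
      intro μ hμ
      rw [pow_one] at hμ
      exact Fermat.Agent.CFT.S14.apply_eq_pow_cycloExp p σ hμ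
    have hxa := hcyc 1 a hroot
    rw [hspan, Ideal.mem_bot, sub_eq_zero] at hxa
    have hdeta := hcond.1.2 1 σ a hroot
    rw [hspan, Ideal.mem_bot, sub_eq_zero, hdet] at hdeta
    -- `a z z = a`
    have hak : ((a : ℕ) : DualNumber k) = TrivSqZeroExt.inl ((a : ℕ) : k) := by
      rw [TrivSqZeroExt.inl_natCast]
    have hak0 : ((a : ℕ) : k) ≠ 0 := by
      rw [tw_cycloExp_cast]
      exact Units.ne_zero _
    rw [hxa, hak] at hdeta
    have hf := congrArg TrivSqZeroExt.fst hdeta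
    have hs := congrArg TrivSqZeroExt.snd hdeta
    simp only [TrivSqZeroExt.fst_mul, TrivSqZeroExt.fst_inl, TrivSqZeroExt.snd_mul,
      TrivSqZeroExt.snd_inl, smul_eq_mul, MulOpposite.smul_eq_mul_unop, MulOpposite.unop_op,
      add_zero, smul_zero] at hf hs
    have hz0 : z.fst ≠ 0 := by
      intro hz0
      rw [hz0] at hf
      simp at hf
      exact hak0 hf.symm
    have hz1 : z.snd = 0 := by
      have h5 : (a : k) * z.fst * z.snd * 2 = 0 := by linear_combination hs
      have h6 : (a : k) * z.fst ≠ 0 := mul_ne_zero hak0 hz0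
      rcases mul_eq_zero.1 h5 with h7 | h7
      · rcases mul_eq_zero.1 h7 with h8 | h8
        · exact absurd h8 h6
        · exact h8
      · exact absurd h7 h2
    refine ⟨x, z, hz0, ?_, ?_, hx, hz⟩
    · rw [hxa, hak]
      simp [hz1]
    · rw [hxa, hak, ← tw_cycloExp_cast]
      simp [ha]
  refine ⟨twVFst v, twVSnd v, ⟨hv0, ?_, ?_⟩, ?_⟩
  · intro σ hσ
    apply tw_vec_ext_of_dot
    intro u
    obtain ⟨c, hc⟩ := hI σ hσ (twVConst u)
    have h1 := congrArg twVFst hc
    rw [twVFst_sub, twVFst_mulVec, twVFst_smul, twVFst_const, hr σ] at h1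
    have h3 : rbarMat ρbar b σ *ᵥ u - (1 : k) • u = c.fst • twVFst v := by rw [one_smul]; exact h1
    have h4 := tw_perp_of_sub_eq_smul h3
    rw [one_smul] at h4
    exact h4
  · intro σ hσ
    obtain ⟨x, z, hz0, hx1, hxz, hx, hz⟩ := hDk σ hσ
    refine ⟨x.fst, z.fst, hz0, ?_, ?_, hxz⟩
    · have h1 := congrArg twVFst hx
      rw [twVFst_mulVec, twVFst_smul, hr σ] at h1
      exact h1
    · apply tw_vec_ext_of_dot
      intro u
      obtain ⟨c, hc⟩ := hz (twVConst u)
      have h1 := congrArg twVFst hc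
      rw [twVFst_sub, twVFst_mulVec, twVFst_smul, twVFst_smul, twVFst_const, hr σ] at h1
      exact tw_perp_of_sub_eq_smul h1
  · intro σ hσ
    obtain ⟨x, z, hz0, hx1, hxz, hx, hz⟩ := hDk σ hσ
    refine ⟨x.fst, ?_, ?_⟩
    · have h1 := congrArg twVFst hx
      rw [twVFst_mulVec, twVFst_smul, hr σ] at h1
      exact h1
    · have h1 := congrArg twVSnd hx
      rw [twVSnd_mulVec, twVSnd_smul, hr σ, hx1, zero_smul, add_zero] at h1
      rw [add_comm]
      exact h1

end

end Fermat.Agent.TW
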