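/-
P10 / G6b (helper8): the strict ordinary local condition at `p`.

* `twNilMat v₀`, `twNilEl ρbar b v₀` : the nilpotent line `Hom(V/L, L) ⊂ ad⁰ ρbar` of a line `L = k v₀`;
* `twOrdCondition p ρbar b` : classes of level-constant cocycles of `G_p` with values in the nilpotent
  line of an ordinary line of `ρbar` (`IsOrdLine`, unique by `tw_ordLine_unique`);
* `tw_tangentClassesIn_ord` : tangent classes of strict ordinary lifts (with cyclotomic determinant)
  restrict into `twOrdCondition`;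
* `tw_contractLocP_ord'` : `ContractLocP p ρbar b (condStrictOrd p)`, given
  `dim_k H¹_cont(G_p, k(ω)) ≤ 2` (G2).
-/
import Fermat.Agent.Lib.TW.Local.OrdLine
import Fermat.Agent.Lib.TW.Local.LineClasses
import Fermat.Agent.Lib.TW.Local.CycloRamified

set_option autoImplicit false
set_option linter.style.haveILetI false

open Fermat.Agent.S53Lib groupCohomology ExtCitation Polynomial CategoryTheory IsLocalRing Matrix

namespace Fermat.Agent.TW

noncomputable section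

local notation "Qb" => AlgebraicClosure ℚ

variable {k : Type} [Field k]

/-- the nilpotent matrix `v₀ ⊗ det[v₀ | ·]` attached to a vector -/
def twNilMat (v₀ : Fin 2 → k) : Matrix (Fin 2) (Fin 2) k := vecMulVec v₀ (twPerp v₀)

theorem twNilMat_trace (v₀ : Fin 2 → k) : (twNilMat v₀).trace = 0 := by
  unfold twNilMat
  rw [trace_vecMulVec, dotProduct_comm, twPerp_dot_self]

theorem twNilMat_mulVec_self (v₀ : Fin 2 → k) : twNilMat v₀ *ᵥ v₀ = 0 := by
  unfold twNilMat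
  rw [vecMulVec_mulVec, twPerp_dot_self]
  simp

theorem twNilMat_ne_zero {v₀ : Fin 2 → k} (hv : v₀ ≠ 0) : twNilMat v₀ ≠ 0 := by
  intro h
  apply hv
  have h00 := congrFun (congrFun h 0) 1
  have h11 := congrFun (congrFun h 1) 0
  simp [twNilMat, vecMulVec_apply, twPerp] at h00 h11
  ext i
  fin_cases i
  · exact h00
  · exact h11

theorem twNilMat_smul (c : k) (v₀ : Fin 2 → k) : twNilMat (c • v₀) = (c * c) • twNilMat v₀ := by
  ext i j
  fin_cases i <;> fin_cases j <;> simp [twNilMat, vecMulVec_apply, twPerp] <;> ring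

/-- a trace-zero matrix killing `v₀ ≠ 0` is a multiple of `twNilMat v₀` -/
theorem tw_eq_smul_nilMat {v₀ : Fin 2 → k} (hv : v₀ ≠ 0) (C : Matrix (Fin 2) (Fin 2) k)
    (htr : C.trace = 0) (hC : C *ᵥ v₀ = 0) : ∃ γ : k, C = γ • twNilMat v₀ := by
  have h0 := congrFun hC 0
  have h1 := congrFun hC 1
  simp [Matrix.mulVec, dotProduct, Fin.sum_univ_two] at h0 h1
  rw [Matrix.trace_fin_two] at htr
  by_cases hs : v₀ 0 = 0
  · have ht : v₀ 1 ≠ 0 := by
      intro ht
      apply hv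
      ext i
      fin_cases i
      · exact hs
      · exact ht
    rw [hs] at h0 h1
    simp [ht] at h0 h1
    refine ⟨-(C 1 0) / (v₀ 1 * v₀ 1), ?_⟩
    have hC00 : C 0 0 = 0 := by rw [h1] at htr; simpa using htr
    ext i j
    fin_cases i <;> fin_cases j <;> simp [twNilMat, twPerp, hs, h0, h1, hC00]
    field_simp
  · refine ⟨C 0 1 / (v₀ 0 * v₀ 0), ?_⟩
    have e00 : C 0 0 = -(C 0 1 * v₀ 1) / v₀ 0 := by
      field_simp
      linear_combination h0
    have e11 : C 1 1 = C 0 1 * v₀ 1 / v₀ 0 := by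
      rw [eq_div_iff hs]
      have : C 1 1 = -C 0 0 := by linear_combination htr
      rw [this, e00]
      field_simp
    have e10 : C 1 0 = -(C 0 1 * v₀ 1 * v₀ 1) / (v₀ 0 * v₀ 0) := by
      rw [e11] at h1
      field_simp
      field_simp at h1
      linear_combination h1
    ext i j
    fin_cases i <;> fin_cases j <;> simp [twNilMat, twPerp]
    · rw [e00]; field_simp
    · field_simp
    · rw [e10]; field_simp
    · rw [e11]; field_simp

variable (p : ℕ) [Fact p.Prime] [Algebra (ZMod p) k] (ρbar : ResidualGaloisRep k)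
  (b : Module.Basis (Fin 2) k ρbar.V)

variable {p ρbar b}

/-- the decomposition group acts on `twNilMat v₀` through the cyclotomic character -/
theorem tw_conj_nilMat {v₀ : Fin 2 → k} (hv : IsOrdLine p ρbar b v₀) {σ : GQ}
    (hσ : σ ∈ (primeLocalPlace (pPrime p)).decompositionSubgroup ℚ) :
    rbarMat ρbar b σ * twNilMat v₀ * rbarMat ρbar b σ⁻¹ =
      ((cycloK p k σ : kˣ) : k) • twNilMat v₀ := by
  obtain ⟨x₀, z₀, hz0, hx, hz, hxz⟩ := hv.decomp σ hσ
  have h1 : rbarMat ρbar b σ * twNilMat v₀ = x₀ • twNilMat v₀ := by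
    unfold twNilMat
    rw [mul_vecMulVec, hx, smul_vecMulVec]
  have h2 : twNilMat v₀ * rbarMat ρbar b σ = z₀ • twNilMat v₀ := by
    unfold twNilMat
    rw [vecMulVec_mul, hz, vecMulVec_smul]
  have h3 : twNilMat v₀ * rbarMat ρbar b σ⁻¹ = z₀⁻¹ • twNilMat v₀ := by
    have h4 : twNilMat v₀ = z₀⁻¹ • (twNilMat v₀ * rbarMat ρbar b σ) := by
      rw [h2, smul_smul, inv_mul_cancel₀ hz0, one_smul]
    calc twNilMat v₀ * rbarMat ρbar b σ⁻¹
        = (z₀⁻¹ • (twNilMat v₀ * rbarMat ρbar b σ)) * rbarMat ρbar b σ⁻¹ := by rw [← h4]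
      _ = z₀⁻¹ • twNilMat v₀ := by
        rw [Matrix.smul_mul, mul_assoc, rbarMat_mul_inv, mul_one]
  rw [mul_assoc, h3, Matrix.mul_smul, h1, smul_smul, hxz]
  congr 1
  field_simp

/-- the element of `ad⁰ ρbar` attached to `twNilMat v₀` -/
def twNilEl (ρbar : ResidualGaloisRep k) (b : Module.Basis (Fin 2) k ρbar.V) (v₀ : Fin 2 → k) :
    (ad0Rep ρbar).V :=
  ad0Mk ρbar (Matrix.toLin b b (twNilMat v₀)) (by
    rw [LinearMap.trace_eq_matrix_trace k b, LinearMap.toMatrix_toLin, twNilMat_trace])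

theorem twNilEl_ne_zero {v₀ : Fin 2 → k} (hv : v₀ ≠ 0) : twNilEl ρbar b v₀ ≠ 0 := by
  intro h
  have h1 := congrArg (ad0Val ρbar) h
  unfold twNilEl at h1
  rw [ad0Val_ad0Mk] at h1
  have h2 : Matrix.toLin b b (twNilMat v₀) = 0 := h1
  rw [LinearEquiv.map_eq_zero_iff] at h2
  exact twNilMat_ne_zero hv h2

/-- elements of `ad⁰ ρbar` from trace-zero matrices -/
def twAdMk (ρbar : ResidualGaloisRep k) (b : Module.Basis (Fin 2) k ρbar.V)
    (X : Matrix (Fin 2) (Fin 2) k) (hX : X.trace = 0) : (ad0Rep ρbar).V :=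
  ad0Mk ρbar (Matrix.toLin b b X) (by
    rw [LinearMap.trace_eq_matrix_trace k b, LinearMap.toMatrix_toLin, hX])

theorem ad0Val_twAdMk (X : Matrix (Fin 2) (Fin 2) k) (hX : X.trace = 0) :
    ad0Val ρbar (twAdMk ρbar b X hX) = Matrix.toLin b b X := rfl

/-- the matrix of an element of `ad⁰ ρbar` -/
def twAdMat (b : Module.Basis (Fin 2) k ρbar.V) (x : (ad0Rep ρbar).V) : Matrix (Fin 2) (Fin 2) k :=
  LinearMap.toMatrix b b (ad0Val ρbar x)

theorem twAdMat_injective : Function.Injective (twAdMat (ρbar := ρbar) b) := by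
  intro x y h
  apply ad0Val_injective ρbar
  exact (LinearMap.toMatrix b b).injective h

theorem twAdMat_twAdMk (X : Matrix (Fin 2) (Fin 2) k) (hX : X.trace = 0) :
    twAdMat b (twAdMk ρbar b X hX) = X := by
  unfold twAdMat
  rw [ad0Val_twAdMk, LinearMap.toMatrix_toLin]

theorem twAdMat_ρ (σ : GQ) (x : (ad0Rep ρbar).V) :
    twAdMat b ((ad0Rep ρbar).ρ σ x) = rbarMat ρbar b σ * twAdMat b x * rbarMat ρbar b σ⁻¹ := by
  unfold twAdMat rbarMat
  rw [ad0Val_ρ, adRepn_apply, LinearMap.toMatrix_comp b b b, LinearMap.toMatrix_comp b b b,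
    mul_assoc]

theorem twAdMat_smul (a : k) (x : (ad0Rep ρbar).V) : twAdMat b (a • x) = a • twAdMat b x := by
  unfold twAdMat
  rw [ad0Val_smul, map_smul]

theorem twAdMat_add (x y : (ad0Rep ρbar).V) : twAdMat b (x + y) = twAdMat b x + twAdMat b y := by
  unfold twAdMat
  rw [ad0Val_add, map_add]

theorem twAdMat_sub (x y : (ad0Rep ρbar).V) : twAdMat b (x - y) = twAdMat b x - twAdMat b y := by
  unfold twAdMat
  rw [ad0Val_sub, map_sub]

theorem twAdMat_trace (x : (ad0Rep ρbar).V) : (twAdMat b x).trace = 0 := by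
  unfold twAdMat
  rw [← LinearMap.trace_eq_matrix_trace k b, trace_ad0Val]

theorem twAdMat_nilEl (v₀ : Fin 2 → k) : twAdMat b (twNilEl ρbar b v₀) = twNilMat v₀ := by
  unfold twAdMat twNilEl
  rw [ad0Val_ad0Mk, LinearMap.toMatrix_toLin]

theorem twAdMat_tangentCocycle (r : GQ →* Matrix (Fin 2) (Fin 2) (DualNumber k))
    (hr : IsDualLift ρbar b r) (hdet : HasResidualDet r) (σ : GQ) :
    twAdMat b (tangentCocycle r hr hdet σ) = tangentMat (ρbar := ρbar) (b := b) r σ := by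
  unfold twAdMat
  rw [ad0Val_tangentCocycle]
  unfold tangentEnd
  rw [LinearMap.toMatrix_toLin]

/-- the restriction of a tangent class, modified by a coboundary -/
theorem tw_resAt_tangentClass_eq (q : Nat.Primes)
    (r : GQ →* Matrix (Fin 2) (Fin 2) (DualNumber k)) (h : MatCts (DualNumber k) r)
    (hr : IsDualLift ρbar b r) (hdet : HasResidualDet r) (y : (ad0Rep ρbar).V) :
    ∃ c' : cocycles₁ (locAt q (ad0Rep ρbar)), IsLevelConstant₁ (primeLocalToGlobal q) c' ∧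
      (∀ τ, c' τ = tangentCocycle r hr hdet (primeLocalToGlobal q τ) +
        ((ad0Rep ρbar).ρ (primeLocalToGlobal q τ) y - y)) ∧
      (H1π (locAt q (ad0Rep ρbar))).hom c' = resAt q (ad0Rep ρbar) (tangentClass r hr hdet) := by
  set tc := tangentCocycle r hr hdet with htc
  let cloc : cocycles₁ (locAt q (ad0Rep ρbar)) := (mapCocycles₁ (primeLocalToGlobal q) (𝟙 (locAt q (ad0Rep ρbar)))).hom tc
  let yl : (locAt q (ad0Rep ρbar)).V := y
  let cob : cocycles₁ (locAt q (ad0Rep ρbar)) := ⟨(d₀₁ (locAt q (ad0Rep ρbar))).hom yl, d₀₁_apply_mem_cocycles₁ yl⟩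
  have hval : ∀ τ : primeLocalGaloisGroup q, (cloc + cob) τ =
      tc (primeLocalToGlobal q τ) + ((ad0Rep ρbar).ρ (primeLocalToGlobal q τ) y - y) := fun τ => rfl
  refine ⟨cloc + cob, ?_, hval, ?_⟩
  · obtain ⟨L, hL, hLr⟩ := tw_factors_of_matCts r h
    refine ⟨L, hL, fun g s hs => ?_⟩
    have hco : (cloc + cob) (g * s) = (locAt q (ad0Rep ρbar)).ρ g ((cloc + cob) s) + (cloc + cob) g :=
      (mem_cocycles₁_iff (A := locAt q (ad0Rep ρbar)) (cloc + cob)).mp (cloc + cob).2 g s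
    have hrs : r (primeLocalToGlobal q s) = 1 :=
      hLr _ ((IntermediateField.mem_fixingSubgroup_iff _ _).1 hs)
    have hs0 : (cloc + cob) s = 0 := by
      rw [hval]
      have hbar : ρbar.ρ (primeLocalToGlobal q s) = 1 := by
        have h3 : rbarMat ρbar b (primeLocalToGlobal q s) = 1 := by
          rw [← hr, hrs, mFst_one]
        rw [← toLin_rbarMat ρbar b, h3, Matrix.toLin_one]
        rfl
      have hbar' : ρbar.ρ (primeLocalToGlobal q s)⁻¹ = 1 := by
        have := rho_inv_mul_rho ρbar (primeLocalToGlobal q s)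
        rwa [hbar, mul_one] at this
      have e1 : tc (primeLocalToGlobal q s) = 0 := by
        apply ad0Val_injective ρbar
        rw [htc, ad0Val_tangentCocycle]
        unfold tangentEnd tangentMat
        rw [hrs, mSnd_one, zero_mul, map_zero]
        rfl
      have e2 : (ad0Rep ρbar).ρ (primeLocalToGlobal q s) y = y := by
        apply ad0Val_injective ρbar
        show ad0Val ρbar ((ad0Rep ρbar).ρ (primeLocalToGlobal q s) y) = ad0Val ρbar y
        rw [ad0Val_ρ, adRepn_apply, hbar, hbar']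
        rfl
      rw [e1, e2, sub_self, add_zero]
    rw [hco, hs0, map_zero, zero_add]
  · rw [map_add]
    have e1 : (H1π (locAt q (ad0Rep ρbar))).hom cob = 0 := by
      rw [H1π_eq_zero_iff]
      exact ⟨yl, rfl⟩
    rw [e1, add_zero]
    unfold resAt tangentClass
    exact (H1π_comp_map_apply (primeLocalToGlobal q) (𝟙 (locAt q (ad0Rep ρbar))) tc).symm

/-- a trace-zero matrix with prescribed value on a nonzero vector -/
theorem tw_exists_traceless_mulVec {v₀ : Fin 2 → k} (hv : v₀ ≠ 0) (v₁ : Fin 2 → k) :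
    ∃ X : Matrix (Fin 2) (Fin 2) k, X.trace = 0 ∧ X *ᵥ v₀ = v₁ := by
  by_cases hs : v₀ 0 = 0
  · have ht : v₀ 1 ≠ 0 := by
      intro ht
      apply hv
      ext i
      fin_cases i
      · exact hs
      · exact ht
    refine ⟨!![-(v₁ 1 / v₀ 1), v₁ 0 / v₀ 1; 0, v₁ 1 / v₀ 1], ?_, ?_⟩
    · rw [Matrix.trace_fin_two]; simp
    · ext i
      fin_cases i <;> simp [Matrix.mulVec, dotProduct, Fin.sum_univ_two, hs] <;> field_simp
  · refine ⟨!![v₁ 0 / v₀ 0, 0; (v₁ 1 + v₁ 0 * v₀ 1 / v₀ 0) / v₀ 0, -(v₁ 0 / v₀ 0)], ?_, ?_⟩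
    · rw [Matrix.trace_fin_two]; simp
    · ext i
      fin_cases i <;> simp [Matrix.mulVec, dotProduct, Fin.sum_univ_two] <;> field_simp
      ring

/-- local elements lie in the decomposition group of the distinguished place -/
theorem tw_primeLocalToGlobal_mem_decomp (q : Nat.Primes) (τ : primeLocalGaloisGroup q) :
    primeLocalToGlobal q τ ∈ (primeLocalPlace q).decompositionSubgroup ℚ :=
  @localGaloisToGlobal_mem_decompositionSubgroup (q : ℕ) ⟨q.2⟩ τ

variable (p ρbar b) in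
/-- **the strict ordinary local condition at `p`**: classes of cocycles with values in the
nilpotent line `Hom(V/L, L)` of an ordinary line `L` -/
def twOrdCondition : Submodule k (H1 (locAt (pPrime p) (ad0Rep ρbar))) :=
  ⨆ (v₀ : Fin 2 → k) (_ : IsOrdLine p ρbar b v₀),
    twLineClasses (pPrime p) (ad0Rep ρbar) (twNilEl ρbar b v₀)

theorem twOrdCondition_le_locCont :
    twOrdCondition p ρbar b ≤ locCont (pPrime p) (ad0Rep ρbar) :=
  iSup₂_le fun _ _ => twLineClasses_le_locCont _ _ _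

/-- the tangent classes of strict ordinary lifts lie in the strict ordinary condition -/
theorem tw_tangentClassesIn_ord (h2 : (2 : k) ≠ 0) :
    TangentClassesIn ρbar b (condStrictOrd p) (pPrime p) (twOrdCondition p ρbar b) := by
  intro ρ' r h hr hdet hequiv hcond
  obtain ⟨v₀, v₁, hline, hlift⟩ := tw_ordLine_of_lift h2 r h hr ρ' hequiv hcond
  obtain ⟨X, hXtr, hXv⟩ := tw_exists_traceless_mulVec hline.ne_zero v₁
  obtain ⟨c', hlev, hval, hcls⟩ :=
    tw_resAt_tangentClass_eq (pPrime p) r h hr hdet (twAdMk ρbar b X hXtr)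
  refine Submodule.mem_iSup_of_mem v₀ (Submodule.mem_iSup_of_mem hline ?_)
  refine (mem_twLineClasses_iff _ _ _ _).2 ⟨c', hlev, fun τ => ?_, hcls⟩
  set σ := primeLocalToGlobal (pPrime p) τ with hσdef
  have hσ : σ ∈ (primeLocalPlace (pPrime p)).decompositionSubgroup ℚ :=
    tw_primeLocalToGlobal_mem_decomp (pPrime p) τ
  obtain ⟨x₀, hx, hε⟩ := hlift σ hσ
  have hx0 : x₀ ≠ 0 := by
    intro hx0
    apply hline.ne_zero
    have h1 : rbarMat ρbar b σ⁻¹ *ᵥ (rbarMat ρbar b σ *ᵥ v₀) = v₀ := by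
      rw [Matrix.mulVec_mulVec, rbarMat_inv_mul, Matrix.one_mulVec]
    rw [hx, hx0, zero_smul, Matrix.mulVec_zero] at h1
    exact h1.symm
  have hinv : rbarMat ρbar b σ⁻¹ *ᵥ v₀ = x₀⁻¹ • v₀ := by
    have h1 : rbarMat ρbar b σ⁻¹ *ᵥ (rbarMat ρbar b σ *ᵥ v₀) = v₀ := by
      rw [Matrix.mulVec_mulVec, rbarMat_inv_mul, Matrix.one_mulVec]
    rw [hx, Matrix.mulVec_smul] at h1
    calc rbarMat ρbar b σ⁻¹ *ᵥ v₀ = x₀⁻¹ • (x₀ • rbarMat ρbar b σ⁻¹ *ᵥ v₀) := by
          rw [smul_smul, inv_mul_cancel₀ hx0, one_smul]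
      _ = x₀⁻¹ • v₀ := by rw [h1]
  have hC : twAdMat b (c' τ) = tangentMat (ρbar := ρbar) (b := b) r σ +
      (rbarMat ρbar b σ * X * rbarMat ρbar b σ⁻¹ - X) := by
    rw [hval τ, twAdMat_add, twAdMat_sub, twAdMat_ρ, twAdMat_tangentCocycle, twAdMat_twAdMk]
  have hCv : twAdMat b (c' τ) *ᵥ v₀ = 0 := by
    rw [hC, Matrix.add_mulVec, Matrix.sub_mulVec]
    unfold tangentMat
    rw [← Matrix.mulVec_mulVec, ← Matrix.mulVec_mulVec, ← Matrix.mulVec_mulVec, hinv,
      Matrix.mulVec_smul, Matrix.mulVec_smul, hXv, Matrix.mulVec_smul]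
    have h3 : mSnd (r σ) *ᵥ v₀ = x₀ • v₁ - rbarMat ρbar b σ *ᵥ v₁ := by
      rw [← hε]; abel
    rw [h3, smul_sub, smul_smul, inv_mul_cancel₀ hx0, one_smul]
    abel
  obtain ⟨γ, hγ⟩ := tw_eq_smul_nilMat hline.ne_zero (twAdMat b (c' τ)) (twAdMat_trace _) hCv
  refine ⟨γ, twAdMat_injective (b := b) ?_⟩
  rw [hγ, twAdMat_smul, twAdMat_nilEl]

/-! ## Uniqueness of the ordinary line -/

/-- a matrix fixing two independent row vectors is the identity -/
theorem tw_eq_one_of_vecMul_eq {lam lam' : Fin 2 → k} {M : Matrix (Fin 2) (Fin 2) k}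
    (hdet : lam 0 * lam' 1 - lam 1 * lam' 0 ≠ 0) (h : lam ᵥ* M = lam) (h' : lam' ᵥ* M = lam') :
    M = 1 := by
  set Λ : Matrix (Fin 2) (Fin 2) k := Matrix.of ![lam, lam'] with hΛ
  have hΛM : Λ * M = Λ := by
    ext i j
    fin_cases i
    · have := congrFun h j
      simpa [hΛ, Matrix.mul_apply, Matrix.vecMul, dotProduct, Fin.sum_univ_two] using this
    · have := congrFun h' j
      simpa [hΛ, Matrix.mul_apply, Matrix.vecMul, dotProduct, Fin.sum_univ_two] using this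
  have hΛdet : Λ.det ≠ 0 := by
    rw [Matrix.det_fin_two]
    simpa [hΛ] using hdet
  have hunit : IsUnit Λ := (Matrix.isUnit_iff_isUnit_det Λ).2 (isUnit_iff_ne_zero.2 hΛdet)
  have h1 : Λ * M = Λ * 1 := by rw [hΛM, mul_one]
  exact hunit.mul_left_cancel h1

theorem tw_ordLine_unique (hω : ∃ σ ∈ (primeLocalPlace (pPrime p)).inertiaSubgroupIn ℚ,
      (rbarMat ρbar b σ).det ≠ 1) {v₀ v₀' : Fin 2 → k} (hv : IsOrdLine p ρbar b v₀)
    (hv' : IsOrdLine p ρbar b v₀') : ∃ c : k, c ≠ 0 ∧ v₀' = c • v₀ := by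
  obtain ⟨σ, hσ, hdet⟩ := hω
  have hperp : twPerp v₀ ⬝ᵥ v₀' = 0 := by
    by_contra hne
    apply hdet
    have h1 : rbarMat ρbar b σ = 1 := by
      refine tw_eq_one_of_vecMul_eq (lam := twPerp v₀) (lam' := twPerp v₀') ?_
        (hv.inertia σ hσ) (hv'.inertia σ hσ)
      intro h0
      apply hne
      simp [twPerp, dotProduct, Fin.sum_univ_two] at h0 ⊢
      linear_combination h0
    rw [h1, Matrix.det_one]
  obtain ⟨c, hc⟩ := tw_eq_smul_of_perp hv.ne_zero hperp
  refine ⟨c, ?_, hc⟩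
  rintro rfl
  rw [zero_smul] at hc
  exact hv'.ne_zero hc

theorem twLineClasses_smul (q : Nat.Primes) (M₀ : Rep k GQ) (e : M₀.V) {a : k} (ha : a ≠ 0) :
    twLineClasses q M₀ (a • e) = twLineClasses q M₀ e := by
  ext x
  rw [mem_twLineClasses_iff, mem_twLineClasses_iff]
  constructor
  · rintro ⟨c, h1, h2, h3⟩
    refine ⟨c, h1, fun τ => ?_, h3⟩
    obtain ⟨γ, hγ⟩ := h2 τ
    exact ⟨γ * a, by rw [hγ, smul_smul]⟩
  · rintro ⟨c, h1, h2, h3⟩
    refine ⟨c, h1, fun τ => ?_, h3⟩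
    obtain ⟨γ, hγ⟩ := h2 τ
    exact ⟨γ * a⁻¹, by rw [hγ, smul_smul, mul_assoc, inv_mul_cancel₀ ha, mul_one]⟩

theorem twNilEl_smul (c : k) (v₀ : Fin 2 → k) :
    twNilEl ρbar b (c • v₀) = (c * c) • twNilEl ρbar b v₀ := by
  apply twAdMat_injective (b := b)
  rw [twAdMat_smul, twAdMat_nilEl, twAdMat_nilEl, twNilMat_smul]

theorem twOrdCondition_eq (hω : ∃ σ ∈ (primeLocalPlace (pPrime p)).inertiaSubgroupIn ℚ,
      (rbarMat ρbar b σ).det ≠ 1) {v₀ : Fin 2 → k} (hv : IsOrdLine p ρbar b v₀) :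
    twOrdCondition p ρbar b = twLineClasses (pPrime p) (ad0Rep ρbar) (twNilEl ρbar b v₀) := by
  apply le_antisymm
  · refine iSup₂_le fun v₀' hv' => ?_
    obtain ⟨c, hc0, rfl⟩ := tw_ordLine_unique hω hv hv'
    rw [twNilEl_smul, twLineClasses_smul _ _ _ (mul_ne_zero hc0 hc0)]
  · exact le_iSup₂_of_le v₀ hv le_rfl

/-! ## The dimension of the strict ordinary condition -/

instance tw_ad0Rep_finite : Module.Finite k (ad0Rep ρbar).V :=
  inferInstanceAs (Module.Finite k (ad0Sub ρbar))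

theorem tw_ad0Rep_smooth : ∃ F : IntermediateField ℚ Qb, FiniteDimensional ℚ F ∧
    ∀ s ∈ F.fixingSubgroup, (ad0Rep ρbar).ρ s = 1 := by
  obtain ⟨L, hL, hLρ⟩ := ρbar.factorsThroughFiniteLevel
  refine ⟨L, hL, fun s hs => ?_⟩
  have h1 : ρbar.ρ s = 1 := hLρ s ((IntermediateField.mem_fixingSubgroup_iff _ _).1 hs)
  have h2 : ρbar.ρ s⁻¹ = 1 := by
    have := rho_inv_mul_rho ρbar s
    rwa [h1, mul_one] at this
  apply LinearMap.ext
  intro x
  apply ad0Val_injective ρbar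
  rw [ad0Val_ρ, adRepn_apply, h1, h2]
  rfl

/-- the dimension of the classes attached to an ordinary line -/
theorem tw_finrank_ordLine_le (h2 : (2 : k) ≠ 0) {v₀ : Fin 2 → k} (hv : IsOrdLine p ρbar b v₀)
    (hfd : FiniteDimensional k (locCont (pPrime p) (twCharRep (cycloK p k))))
    (hdim : Module.finrank k (locCont (pPrime p) (twCharRep (cycloK p k))) ≤ 2) :
    Module.finrank k (twLineClasses (pPrime p) (ad0Rep ρbar) (twNilEl ρbar b v₀)) ≤
      h0At ρbar (pPrime p) + 1 := by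
  obtain ⟨Em, hEtr, hEv⟩ := tw_exists_traceless_mulVec hv.ne_zero ((2 : k)⁻¹ • v₀)
  have hχ : ∀ τ : primeLocalGaloisGroup (pPrime p),
      (ad0Rep ρbar).ρ (primeLocalToGlobal (pPrime p) τ) (twNilEl ρbar b v₀) =
        ((cycloK p k (primeLocalToGlobal (pPrime p) τ) : kˣ) : k) • twNilEl ρbar b v₀ := by
    intro τ
    apply twAdMat_injective (b := b)
    rw [twAdMat_ρ, twAdMat_smul, twAdMat_nilEl]
    exact tw_conj_nilMat hv (tw_primeLocalToGlobal_mem_decomp (pPrime p) τ)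
  have hhalf : (2 : k)⁻¹ • v₀ ≠ 0 := by
    intro h0
    rcases smul_eq_zero.1 h0 with h1 | h1
    · exact (inv_ne_zero h2) h1
    · exact hv.ne_zero h1
  have hE : ∀ a : k, twAdMk ρbar b Em hEtr ≠ a • twNilEl ρbar b v₀ := by
    intro a h0
    have h1 := congrArg (twAdMat b) h0
    rw [twAdMat_twAdMk, twAdMat_smul, twAdMat_nilEl] at h1
    have h3 := congrArg (fun C => C *ᵥ v₀) h1
    simp only [hEv, Matrix.smul_mulVec, twNilMat_mulVec_self, smul_zero] at h3
    exact hhalf h3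
  have hEe : ∀ τ : primeLocalGaloisGroup (pPrime p), ∃ κ : k,
      (ad0Rep ρbar).ρ (primeLocalToGlobal (pPrime p) τ) (twAdMk ρbar b Em hEtr) -
        twAdMk ρbar b Em hEtr = κ • twNilEl ρbar b v₀ := by
    intro τ
    set σ := primeLocalToGlobal (pPrime p) τ with hσdef
    have hσ := tw_primeLocalToGlobal_mem_decomp (pPrime p) τ
    obtain ⟨x₀, z₀, hz0, hx, hz, hxz⟩ := hv.decomp σ hσ
    have hx0 : x₀ ≠ 0 := by
      rw [hxz]
      exact mul_ne_zero (Units.ne_zero _) hz0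
    have hinv : rbarMat ρbar b σ⁻¹ *ᵥ v₀ = x₀⁻¹ • v₀ := by
      have h1 : rbarMat ρbar b σ⁻¹ *ᵥ (rbarMat ρbar b σ *ᵥ v₀) = v₀ := by
        rw [Matrix.mulVec_mulVec, rbarMat_inv_mul, Matrix.one_mulVec]
      rw [hx, Matrix.mulVec_smul] at h1
      calc rbarMat ρbar b σ⁻¹ *ᵥ v₀ = x₀⁻¹ • (x₀ • rbarMat ρbar b σ⁻¹ *ᵥ v₀) := by
            rw [smul_smul, inv_mul_cancel₀ hx0, one_smul]
        _ = x₀⁻¹ • v₀ := by rw [h1]
    have hCv : twAdMat b ((ad0Rep ρbar).ρ σ (twAdMk ρbar b Em hEtr) - twAdMk ρbar b Em hEtr) *ᵥ v₀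
        = 0 := by
      rw [twAdMat_sub, twAdMat_ρ, twAdMat_twAdMk, Matrix.sub_mulVec, ← Matrix.mulVec_mulVec,
        ← Matrix.mulVec_mulVec, hinv, Matrix.mulVec_smul, hEv, Matrix.mulVec_smul,
        Matrix.mulVec_smul, hx, smul_smul, smul_smul]
      have : x₀⁻¹ * (2 : k)⁻¹ * x₀ = (2 : k)⁻¹ := by field_simp
      rw [this, sub_self]
    obtain ⟨γ, hγ⟩ := tw_eq_smul_nilMat hv.ne_zero _ (twAdMat_trace _) hCv
    refine ⟨γ, twAdMat_injective (b := b) ?_⟩
    rw [hγ, twAdMat_smul, twAdMat_nilEl]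
  exact tw_finrank_lineClasses_le (q := pPrime p) (M₀ := ad0Rep ρbar) (χ := cycloK p k) hχ
    (twNilEl_ne_zero hv.ne_zero) (twAdMk ρbar b Em hEtr) hE hEe tw_ad0Rep_smooth hfd hdim

/-- **(C-LOC-p) for the strict ordinary condition**, given
`dim H¹_cont(G_p, k(ω)) ≤ 2` and the ramification of `det ρbar` at `p` -/
theorem tw_contractLocP_ord (h2 : (2 : k) ≠ 0)
    (hω : ∃ σ ∈ (primeLocalPlace (pPrime p)).inertiaSubgroupIn ℚ, (rbarMat ρbar b σ).det ≠ 1)
    (hfd : FiniteDimensional k (locCont (pPrime p) (twCharRep (cycloK p k))))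
    (hdim : Module.finrank k (locCont (pPrime p) (twCharRep (cycloK p k))) ≤ 2) :
    ContractLocP p ρbar b (condStrictOrd p) := by
  refine ⟨twOrdCondition p ρbar b, twOrdCondition_le_locCont, ?_, tw_tangentClassesIn_ord h2⟩
  by_cases hex : ∃ v₀, IsOrdLine p ρbar b v₀
  · obtain ⟨v₀, hv⟩ := hex
    rw [twOrdCondition_eq hω hv]
    exact tw_finrank_ordLine_le h2 hv hfd hdim
  · have hbot : twOrdCondition p ρbar b = ⊥ := by
      rw [eq_bot_iff]
      refine iSup₂_le fun v₀ hv => ?_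
      exact absurd ⟨v₀, hv⟩ hex
    rw [hbot, finrank_bot]
    exact Nat.zero_le _

/-- the determinant of `ρbar` is the cyclotomic character -/
theorem tw_det_rbarMat_eq
    (hdetbar : (GaloisRepAdic.ofResidualGaloisRep ρbar).DetIsCyclotomic p) (σ : GQ) :
    (rbarMat ρbar b σ).det = ((cycloK p k σ : kˣ) : k) := by
  have h1 := hdetbar.2 1 σ (cycloExp p σ) (by
    intro μ hμ
    rw [pow_one] at hμ
    exact Fermat.Agent.CFT.S14.apply_eq_pow_cycloExp p σ hμ)
  have hp0 : ((p ^ 1 : ℕ) : k) = 0 := by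
    rw [pow_one]
    have : ((p : ℕ) : k) = algebraMap (ZMod p) k ((p : ℕ) : ZMod p) := by rw [map_natCast]
    rw [this, ZMod.natCast_self, map_zero]
  have hspan : Ideal.span {((p ^ 1 : ℕ) : k)} = ⊥ := by rw [hp0]; simp
  change LinearMap.det (ρbar.ρ σ) - ((cycloExp p σ : ℕ) : k) ∈ _ at h1
  rw [hspan, Ideal.mem_bot, sub_eq_zero] at h1
  unfold rbarMat
  rw [LinearMap.det_toMatrix, h1, tw_cycloExp_cast]

/-- **(C-LOC-p) for the strict ordinary condition** (`p ≥ 3`, `det ρbar` cyclotomic), given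
`dim H¹_cont(G_p, k(ω)) ≤ 2` -/
theorem tw_contractLocP_ord' (h3 : 3 ≤ p) (h2 : (2 : k) ≠ 0)
    (hdetbar : (GaloisRepAdic.ofResidualGaloisRep ρbar).DetIsCyclotomic p)
    (hfd : FiniteDimensional k (locCont (pPrime p) (twCharRep (cycloK p k))))
    (hdim : Module.finrank k (locCont (pPrime p) (twCharRep (cycloK p k))) ≤ 2) :
    ContractLocP p ρbar b (condStrictOrd p) := by
  refine tw_contractLocP_ord h2 ?_ hfd hdim
  obtain ⟨σ, hσ, hne⟩ := tw_exists_inertia_cycloChar_ne_one p h3 (primeLocalPlace (pPrime p))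
    (tw_primeLocalPlace_liesOver (pPrime p))
  refine ⟨σ, hσ, ?_⟩
  rw [tw_det_rbarMat_eq hdetbar]
  intro h1
  apply hne
  have h4 : cycloK p k σ = 1 := Units.ext h1
  unfold cycloK at h4
  have hinj : Function.Injective (Units.map (algebraMap (ZMod p) k).toMonoidHom) :=
    Units.map_injective (algebraMap (ZMod p) k).injective
  apply hinj
  rw [map_one]
  exact h4

end

end Fermat.Agent.TW
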