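/-
R4 (Level side): an element of the Galois group of a level which preserves the `q`-adic norm
(through the distinguished embedding `ℚ̄ → ℚ̄_q`) stabilises the distinguished place of that level.

* `tl_mem_decompGroup_of_norm_eq`, `tl_mem_decomp_of_norm_eq`.
-/
import Fermat.Agent.Lib.CFT.Bridge.LocalPlace

set_option autoImplicit false
set_option linter.style.haveILetI false
set_option linter.unusedSectionVars false

open scoped TensorProduct

namespace Fermat.Agent.TW

noncomputable section

open Fermat.Agent.CFT Fermat.Agent.CFT.Global Fermat.Agent.CFT.Bridge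

variable (q : ℕ) [Fact q.Prime]

/-- Approximation: every element of `ℚ_q ⊗ L` is, through `toPadic`, simultaneously approximated
(together with its translate by `g`) by elements of `L`. -/
lemma tl_toPadic_approx (L : Level) (g : L.G) (x : SL q L.field) :
    ∀ ε : ℝ, 0 < ε → ∃ y : L.field,
      ‖L.toPadic q x - padicEmbedding q (y : Qbar)‖ ≤ ε ∧
      ‖L.toPadic q (g • x) - padicEmbedding q ((g • y : L.field) : Qbar)‖ ≤ ε := by
  induction x using TensorProduct.induction_on with
  | zero =>
    intro ε hε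
    refine ⟨0, ?_, ?_⟩
    · simp [hε.le]
    · simp [hε.le]
  | tmul a b =>
    intro ε hε
    set C : ℝ := max ‖padicEmbedding q (b : Qbar)‖ ‖padicEmbedding q ((g • b : L.field) : Qbar)‖ + 1
      with hC
    have hCpos : 0 < C := by positivity
    have hδ : 0 < ε / C := div_pos hε hCpos
    obtain ⟨δ, hδ0, hδ1⟩ := exists_rat_btwn hδ
    have hδ0' : (0 : ℚ) < δ := by exact_mod_cast hδ0
    obtain ⟨r, hr⟩ := Padic.rat_dense' a hδ0'
    have hr' : ‖a - (r : ℚ_[q])‖ ≤ ε / C := by
      have h1 : ‖a - (r : ℚ_[q])‖ = ((padicNormE (a - (r : ℚ_[q])) : ℚ) : ℝ) := rfl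
      rw [h1]
      have h2 : ((padicNormE (a - (r : ℚ_[q])) : ℚ) : ℝ) < (δ : ℝ) := by exact_mod_cast hr
      exact (h2.trans hδ1).le
    have key : ∀ z : PadicAlgCl q, ‖z‖ ≤ C →
        ‖algebraMap ℚ_[q] (PadicAlgCl q) a * z - algebraMap ℚ_[q] (PadicAlgCl q) (r : ℚ_[q]) * z‖
          ≤ ε := by
      intro z hz
      rw [← sub_mul, ← map_sub, norm_mul]
      have h3 : ‖algebraMap ℚ_[q] (PadicAlgCl q) (a - (r : ℚ_[q]))‖ = ‖a - (r : ℚ_[q])‖ :=
        PadicAlgCl.norm_extends q _
      rw [h3]
      calc ‖a - (r : ℚ_[q])‖ * ‖z‖ ≤ (ε / C) * C :=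
            mul_le_mul hr' hz (norm_nonneg _) hδ.le
        _ = ε := by field_simp
    have hrb : ∀ c : L.field, padicEmbedding q (((r • c : L.field)) : Qbar) =
        algebraMap ℚ_[q] (PadicAlgCl q) (r : ℚ_[q]) * padicEmbedding q (c : Qbar) := by
      intro c
      have h4 : ((r • c : L.field) : Qbar) = r • (c : Qbar) := rfl
      rw [h4, Algebra.smul_def, map_mul, AlgHom.commutes, eq_ratCast, map_ratCast]
    refine ⟨r • b, ?_, ?_⟩
    · rw [Level.toPadic_tmul, hrb]
      apply key
      rw [hC]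
      exact (le_max_left _ _).trans (le_add_of_nonneg_right zero_le_one)
    · rw [SL.smul_tmul, Level.toPadic_tmul, smul_comm, hrb]
      apply key
      rw [hC]
      exact (le_max_right _ _).trans (le_add_of_nonneg_right zero_le_one)
  | add x₁ x₂ h₁ h₂ =>
    intro ε hε
    obtain ⟨y₁, h11, h12⟩ := h₁ (ε / 2) (half_pos hε)
    obtain ⟨y₂, h21, h22⟩ := h₂ (ε / 2) (half_pos hε)
    refine ⟨y₁ + y₂, ?_, ?_⟩
    · have : L.toPadic q (x₁ + x₂) - padicEmbedding q ((y₁ + y₂ : L.field) : Qbar) =
          (L.toPadic q x₁ - padicEmbedding q (y₁ : Qbar)) +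
          (L.toPadic q x₂ - padicEmbedding q (y₂ : Qbar)) := by
        have h5 : ((y₁ + y₂ : L.field) : Qbar) = (y₁ : Qbar) + (y₂ : Qbar) := rfl
        rw [h5, map_add, map_add]; ring
      rw [this]
      calc _ ≤ ‖L.toPadic q x₁ - padicEmbedding q (y₁ : Qbar)‖ +
            ‖L.toPadic q x₂ - padicEmbedding q (y₂ : Qbar)‖ := norm_add_le _ _
        _ ≤ ε / 2 + ε / 2 := add_le_add h11 h21
        _ = ε := add_halves ε
    · have : L.toPadic q (g • (x₁ + x₂)) -
            padicEmbedding q ((g • (y₁ + y₂) : L.field) : Qbar) =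
          (L.toPadic q (g • x₁) - padicEmbedding q ((g • y₁ : L.field) : Qbar)) +
          (L.toPadic q (g • x₂) - padicEmbedding q ((g • y₂ : L.field) : Qbar)) := by
        have h5 : ((g • (y₁ + y₂) : L.field) : Qbar) =
            ((g • y₁ : L.field) : Qbar) + ((g • y₂ : L.field) : Qbar) := by
          rw [smul_add]; rfl
        rw [h5, smul_add, map_add, map_add]; ring
      rw [this]
      calc _ ≤ ‖L.toPadic q (g • x₁) - padicEmbedding q ((g • y₁ : L.field) : Qbar)‖ +
            ‖L.toPadic q (g • x₂) - padicEmbedding q ((g • y₂ : L.field) : Qbar)‖ :=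
              norm_add_le _ _
        _ ≤ ε / 2 + ε / 2 := add_le_add h12 h22
        _ = ε := add_halves ε

/-- A norm-preserving element maps the kernel of `toPadic` into itself. -/
lemma tl_toPadic_smul_eq_zero (L : Level) (g : L.G)
    (hg : ∀ y : L.field, ‖padicEmbedding q ((g • y : L.field) : Qbar)‖ =
      ‖padicEmbedding q (y : Qbar)‖)
    (x : SL q L.field) (hx : L.toPadic q x = 0) : L.toPadic q (g • x) = 0 := by
  rw [← norm_le_zero_iff]
  apply le_of_forall_pos_le_add
  intro ε hε
  obtain ⟨y, h1, h2⟩ := tl_toPadic_approx q L g x (ε / 2) (half_pos hε)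
  rw [hx, zero_sub, norm_neg] at h1
  have h3 : ‖padicEmbedding q ((g • y : L.field) : Qbar)‖ ≤ ε / 2 := (hg y).le.trans h1
  have h4 : L.toPadic q (g • x) =
      (L.toPadic q (g • x) - padicEmbedding q ((g • y : L.field) : Qbar)) +
        padicEmbedding q ((g • y : L.field) : Qbar) := by ring
  rw [h4, zero_add]
  calc _ ≤ ‖L.toPadic q (g • x) - padicEmbedding q ((g • y : L.field) : Qbar)‖ +
        ‖padicEmbedding q ((g • y : L.field) : Qbar)‖ := norm_add_le _ _
    _ ≤ ε / 2 + ε / 2 := add_le_add h2 h3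
    _ = ε := add_halves ε

/-- **R4, Level side.** An element of `Gal(L/ℚ)` preserving the `q`-adic norm stabilises the
distinguished place of `L` above `q`. -/
theorem tl_mem_decompGroup_of_norm_eq (L : Level) (g : L.G)
    (hg : ∀ y : L.field, ‖padicEmbedding q ((g • y : L.field) : Qbar)‖ =
      ‖padicEmbedding q (y : Qbar)‖) :
    g ∈ decompGroup L.G (L.place q) := by
  rw [mem_decompGroup_iff]
  have hle : (L.place q).asIdeal ≤ (g⁻¹ • L.place q).asIdeal := by
    intro x hx
    rw [Place.mem_smul_iff, inv_inv, Level.mem_place_iff]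
    exact tl_toPadic_smul_eq_zero q L g hg x ((Level.mem_place_iff q L x).1 hx)
  have heq : (L.place q).asIdeal = (g⁻¹ • L.place q).asIdeal :=
    (L.place q).isMaximal.eq_of_le (g⁻¹ • L.place q).isMaximal.ne_top hle
  have h1 : g⁻¹ • L.place q = L.place q := (MaximalSpectrum.ext heq).symm
  calc g • L.place q = g • (g⁻¹ • L.place q) := by rw [h1]
    _ = L.place q := smul_inv_smul g _

/-- The same, phrased with the Prelude-side decomposition group `decomp q L`
(image of `G_q` in `Gal(L/ℚ)`). -/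
theorem tl_mem_decomp_of_norm_eq (q : Nat.Primes) (L : Level) (g : L.G)
    (hg : ∀ y : L.field, ‖padicEmbedding (q : ℕ) ((g • y : L.field) : Qbar)‖ =
      ‖padicEmbedding (q : ℕ) (y : Qbar)‖) :
    g ∈ decomp q L := by
  rw [decomp_eq_decompGroup]
  exact tl_mem_decompGroup_of_norm_eq (q : ℕ) L g hg

end

end Fermat.Agent.TW
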