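/-
P10 / G6 (helper8): exact surjectivity of the local Galois group `G_q = Gal(ℚ̄_q/ℚ_q)` onto the
decomposition group of the distinguished place, from surjectivity at every finite level, by
compactness of `G_q` (`tw_exists_local_lift_of_levels`); the structure of `G_q` modulo a finite level
(`tw_local_decomp`).
-/
import Fermat.Agent.Lib.TW.Local.DecompStructure

set_option autoImplicit false
set_option linter.style.haveILetI false

open ExtCitation Fermat.Agent.S05Lib NumberField
open Fermat.Agent.CFT
open scoped Pointwise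

namespace Fermat.Agent.TW

noncomputable section

section Compactness

variable {K L : Type*} [Field K] [Field L] [Algebra K L]

/-- in the Krull topology, evaluation at an integral element is locally constant -/
theorem tw_isOpen_eval_eq [Algebra.IsIntegral K L] (y z : L) :
    IsOpen {τ : L ≃ₐ[K] L | τ y = z} := by
  rw [isOpen_iff_forall_mem_open]
  intro τ₀ hτ₀
  refine ⟨τ₀ • (MulAction.stabilizer (L ≃ₐ[K] L) y : Set (L ≃ₐ[K] L)), ?_,
    (stabilizer_isOpen_of_isIntegral y).leftCoset τ₀, ?_⟩
  · rintro _ ⟨s, hs, rfl⟩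
    have hs' : s y = y := hs
    change (τ₀ * s) y = z
    rw [AlgEquiv.mul_apply, hs']
    exact hτ₀
  · exact ⟨1, one_mem _, by simp⟩

theorem tw_isClosed_eval_eq [Algebra.IsIntegral K L] (y z : L) :
    IsClosed {τ : L ≃ₐ[K] L | τ y = z} := by
  rw [← isOpen_compl_iff]
  have : {τ : L ≃ₐ[K] L | τ y = z}ᶜ = ⋃ z' ∈ {z' : L | z' ≠ z}, {τ : L ≃ₐ[K] L | τ y = z'} := by
    ext τ
    simp
  rw [this]
  exact isOpen_biUnion (fun z' _ => tw_isOpen_eval_eq y z')

/-- **compactness of the Galois group**: a family of pointwise conditions `τ (y i) = z i` which is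
finitely satisfiable is satisfiable. -/
theorem tw_exists_algEquiv_of_finitely_satisfiable [IsGalois K L] {ι : Type*} (y z : ι → L)
    (h : ∀ u : Finset ι, ∃ τ : L ≃ₐ[K] L, ∀ i ∈ u, τ (y i) = z i) :
    ∃ τ : L ≃ₐ[K] L, ∀ i, τ (y i) = z i := by
  have := IsCompact.inter_iInter_nonempty (s := (Set.univ : Set (L ≃ₐ[K] L))) isCompact_univ
    (fun i => {τ : L ≃ₐ[K] L | τ (y i) = z i}) (fun i => tw_isClosed_eval_eq (y i) (z i))
    (fun u => by
      obtain ⟨τ, hτ⟩ := h u
      exact ⟨τ, Set.mem_univ _, by simpa using hτ⟩)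
  obtain ⟨τ, -, hτ⟩ := this
  exact ⟨τ, fun i => by simpa using Set.mem_iInter.1 hτ i⟩

end Compactness

end

end Fermat.Agent.TW

namespace Fermat.Agent.TW

noncomputable section

/-- **exact surjectivity of `G_q → D_q`** from surjectivity at all finite levels -/
theorem tw_exists_local_lift_of_levels (q : Nat.Primes)
    {σ : Qbar ≃ₐ[ℚ] Qbar}
    (hR4 : ∀ F : IntermediateField ℚ Qbar, FiniteDimensional ℚ F →
      ∃ τ : primeLocalGaloisGroup q, ∀ x ∈ F, primeLocalToGlobal q τ x = σ x) :
    ∃ τ : primeLocalGaloisGroup q, primeLocalToGlobal q τ = σ := by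
  haveI : Fact (q : ℕ).Prime := ⟨q.2⟩
  have key := tw_exists_algEquiv_of_finitely_satisfiable (K := ℚ_[(q : ℕ)]) (L := PadicAlgCl (q : ℕ))
    (fun x : Qbar => padicEmbedding (q : ℕ) x) (fun x : Qbar => padicEmbedding (q : ℕ) (σ x))
    (fun u => by
      have hfd : FiniteDimensional ℚ (IntermediateField.adjoin ℚ ((u : Finset Qbar) : Set Qbar)) :=
        IntermediateField.finiteDimensional_adjoin
          (fun x _ => (Algebra.IsIntegral.isIntegral x))
      obtain ⟨τ, hτ⟩ := hR4 _ hfd
      refine ⟨τ, fun x hx => ?_⟩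
      have h1 := hτ x (IntermediateField.subset_adjoin ℚ _ (by exact_mod_cast hx))
      have h2 := padicEmbedding_localGaloisToGlobal (q : ℕ) τ x
      rw [← h2]
      congr 1)
  obtain ⟨τ, hτ⟩ := key
  refine ⟨τ, ?_⟩
  ext x
  apply (padicEmbedding (q : ℕ)).injective
  have h2 := padicEmbedding_localGaloisToGlobal (q : ℕ) τ x
  exact h2.trans (hτ x)

end

end Fermat.Agent.TW

namespace Fermat.Agent.TW

/-- exact surjectivity of the local Galois group onto the decomposition group of the distinguished
place -/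
def TwLocalSurj (q : Nat.Primes) : Prop :=
  ∀ σ ∈ (primeLocalPlace q).decompositionSubgroup ℚ,
    ∃ τ : primeLocalGaloisGroup q, primeLocalToGlobal q τ = σ

/-- exact surjectivity from surjectivity modulo every finite level -/
theorem tw_localSurj_of_levels (q : Nat.Primes)
    (hR4 : ∀ σ ∈ (primeLocalPlace q).decompositionSubgroup ℚ,
      ∀ F : IntermediateField ℚ Qbar, FiniteDimensional ℚ F →
        ∃ τ : primeLocalGaloisGroup q, ∀ x ∈ F, primeLocalToGlobal q τ x = σ x) :
    TwLocalSurj q :=
  fun σ hσ => tw_exists_local_lift_of_levels q (hR4 σ hσ)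

end Fermat.Agent.TW
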