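/-
P10 / G6 (helper8): dimensions of local cohomology at `q ≠ p`, given the exact surjectivity
`TwLocalSurj q` of `G_q → D_q`:

* `tw_local_decomp`: `G_q = τ_φ^ℕ · I_q · (level)`;
* `tw_finrank_twUr_le` (R1): `dim H¹_ur(G_q, M) ≤ h⁰(G_q, M)`;
* `tw_finrank_locCont_le`: `dim H¹_cont(G_q, M) ≤ 2 h⁰(G_q, M)` for `M` unramified, `q = 1` in `k`;
* `tw_contractLocMin_of_surj`, `tw_contractLocTW_of_surj`: the contracts (C-LOC-min), (C-LOC-TW).
-/
import Fermat.Agent.Lib.TW.Local.LocalLift
import Fermat.Agent.Lib.TW.Local.TameStructure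
import Fermat.Agent.Lib.TW.Local.OrdCondition
import Fermat.Agent.Lib.TW.Local.AdInvariants

set_option autoImplicit false
set_option linter.style.haveILetI false

open Fermat.Agent.S53Lib groupCohomology ExtCitation Polynomial CategoryTheory IsLocalRing
open scoped Pointwise

namespace Fermat.Agent.TW

noncomputable section

local notation "Qb" => AlgebraicClosure ℚ

/-- **structure of the local Galois group modulo a finite level**: `G_q = τ_φ^ℕ · I_q · (level)` -/
theorem tw_local_decomp (q : Nat.Primes) (hs : TwLocalSurj q) (F : IntermediateField ℚ Qb)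
    (hfd : FiniteDimensional ℚ F) {φ : GQ} (hφ : (primeLocalPlace q).IsFrobeniusAt φ (q : ℕ))
    {τφ : primeLocalGaloisGroup q} (hτφ : primeLocalToGlobal q τφ = φ)
    (τ : primeLocalGaloisGroup q) :
    ∃ n : ℕ, ∃ ι ∈ twLocInertia q, ∃ s : primeLocalGaloisGroup q,
      primeLocalToGlobal q s ∈ F.fixingSubgroup ∧ τ = τφ ^ n * ι * s := by
  haveI : Algebra.IsAlgebraic ℚ Qb := AlgebraicClosure.isAlgebraic ℚ
  haveI : IsAlgClosure ℚ Qb := ⟨inferInstance, inferInstance⟩
  haveI : Normal ℚ Qb := IsAlgClosure.normal ℚ Qb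
  set F' : IntermediateField ℚ Qb := IntermediateField.normalClosure ℚ ↥F Qb with hF'
  have hfd' : FiniteDimensional ℚ ↥F' := normalClosure.is_finiteDimensional ℚ _ Qb
  have hnorm : Normal ℚ ↥F' := normalClosure.normal ℚ _ Qb
  have hnorm' : @Normal ℚ ↥F' _ _ F'.algebra' := by
    convert hnorm using 1
    exact Subsingleton.elim _ _
  have hle : F ≤ F' := IntermediateField.le_normalClosure _
  have hσ : primeLocalToGlobal q τ ∈ (primeLocalPlace q).decompositionSubgroup ℚ :=
    tw_primeLocalToGlobal_mem_decomp q τ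
  obtain ⟨n, ι₀, hι₀, hn⟩ := tw_decomp_eq_frob_pow_mul_inertia F' hfd' hnorm' q.2
    (tw_primeLocalPlace_liesOver q) hφ hσ
  obtain ⟨ι, hι⟩ := hs ι₀ (Fermat.Agent.S05Lib.qv_mem_inertiaSubgroupIn _ hι₀).1
  refine ⟨n, ι, ?_, (τφ ^ n * ι)⁻¹ * τ, ?_, ?_⟩
  · show ι ∈ ((primeLocalPlace q).inertiaSubgroupIn ℚ).comap (primeLocalToGlobal q)
    rw [Subgroup.mem_comap, hι]; exact hι₀
  · rw [IntermediateField.mem_fixingSubgroup_iff]
    intro x hx
    rw [map_mul, map_inv, map_mul, map_pow, hτφ, hι]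
    change (φ ^ n * ι₀)⁻¹ (primeLocalToGlobal q τ x) = x
    rw [hn x (hle hx)]
    change (φ ^ n * ι₀).symm ((φ ^ n * ι₀) x) = x
    exact (φ ^ n * ι₀).symm_apply_apply x
  · group

variable {k : Type} [Field k]

/-- the local inertia group is normal -/
theorem tw_conj_mem_locInertia (q : Nat.Primes) {ι : primeLocalGaloisGroup q}
    (hι : ι ∈ twLocInertia q) (g : primeLocalGaloisGroup q) : g * ι * g⁻¹ ∈ twLocInertia q := by
  change primeLocalToGlobal q (g * ι * g⁻¹) ∈ (primeLocalPlace q).inertiaSubgroupIn ℚ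
  rw [map_mul, map_mul, map_inv]
  exact tw_conj_mem_inertia _ (tw_primeLocalToGlobal_mem_decomp q g) hι

section Cocycles

variable (q : Nat.Primes) (M : Rep k GQ)

theorem tw_coc_mul (c : cocycles₁ (locAt q M)) (g h : primeLocalGaloisGroup q) :
    c (g * h) = (locAt q M).ρ g (c h) + c g :=
  (mem_cocycles₁_iff (A := locAt q M) c).mp c.2 g h

theorem tw_coc_pow_eq_zero (c : cocycles₁ (locAt q M)) {g : primeLocalGaloisGroup q}
    (hg : c g = 0) (n : ℕ) : c (g ^ n) = 0 := by
  induction n with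
  | zero => rw [pow_zero]; exact cocycles₁_map_one c
  | succ n ih => rw [pow_succ, tw_coc_mul, hg, map_zero, ih, add_zero]

/-- the invariants of inertia -/
def twInertiaInv : Submodule k M.V where
  carrier := {m | ∀ ι ∈ twLocInertia q, (locAt q M).ρ ι m = m}
  add_mem' := by
    intro a b ha hb ι hι
    rw [map_add, ha ι hι, hb ι hι]
  zero_mem' := fun ι _ => map_zero _
  smul_mem' := by
    intro a m hm ι hι
    rw [map_smul, hm ι hι]

theorem mem_twInertiaInv_iff (m : M.V) :
    m ∈ twInertiaInv q M ↔ ∀ ι ∈ twLocInertia q, (locAt q M).ρ ι m = m := Iff.rfl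

/-- the inertia invariants are stable under the local Galois group -/
theorem tw_rho_mem_inertiaInv (g : primeLocalGaloisGroup q) {m : M.V}
    (hm : m ∈ twInertiaInv q M) : (locAt q M).ρ g m ∈ twInertiaInv q M := by
  intro ι hι
  have h1 : g⁻¹ * ι * g⁻¹⁻¹ ∈ twLocInertia q := tw_conj_mem_locInertia q hι g⁻¹
  have h2 := hm _ h1
  have h3 : ι * g = g * (g⁻¹ * ι * g⁻¹⁻¹) := by group
  rw [← Module.End.mul_apply, ← map_mul, h3, map_mul, Module.End.mul_apply, h2]

variable {q M}

/-- an unramified cocycle is determined by its value at a Frobenius lift -/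
theorem tw_urCocycle_eq_zero (hs : TwLocalSurj q) {φ : GQ}
    (hφ : (primeLocalPlace q).IsFrobeniusAt φ (q : ℕ))
    {τφ : primeLocalGaloisGroup q} (hτφ : primeLocalToGlobal q τφ = φ)
    {c : cocycles₁ (locAt q M)} (hc : c ∈ twUrCocycles q M) (h0 : c τφ = 0)
    (τ : primeLocalGaloisGroup q) : c τ = 0 := by
  obtain ⟨⟨F, hF, hFc⟩, hI⟩ := hc
  obtain ⟨n, ι, hι, s, hsF, rfl⟩ := tw_local_decomp q hs F hF hφ hτφ τ
  rw [hFc _ s hsF, tw_coc_mul, hI ι hι, map_zero, zero_add]
  exact tw_coc_pow_eq_zero q M c h0 n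

/-- the value of an unramified cocycle at a Frobenius lift is invariant under inertia -/
theorem tw_urCocycle_apply_mem {c : cocycles₁ (locAt q M)} (hc : c ∈ twUrCocycles q M)
    (g : primeLocalGaloisGroup q) : c g ∈ twInertiaInv q M := by
  intro ι hι
  have h1 : g⁻¹ * ι * g⁻¹⁻¹ ∈ twLocInertia q := tw_conj_mem_locInertia q hι g⁻¹
  have h3 : ι * g = g * (g⁻¹ * ι * g⁻¹⁻¹) := by group
  have e1 : c (ι * g) = (locAt q M).ρ ι (c g) := by
    rw [tw_coc_mul, hc.2 ι hι, add_zero]
  have e2 : c (ι * g) = c g := by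
    rw [h3, tw_coc_mul, hc.2 _ h1, map_zero, zero_add]
  rw [← e1, e2]

/-- coboundaries of inertia-invariant vectors are unramified cocycles -/
theorem tw_cob_mem_twUrCocycles
    (hsm : ∃ F : IntermediateField ℚ Qb, FiniteDimensional ℚ F ∧
      ∀ s ∈ F.fixingSubgroup, M.ρ s = 1) {m : M.V} (hm : m ∈ twInertiaInv q M) :
    (⟨(d₀₁ (locAt q M)).hom m, d₀₁_apply_mem_cocycles₁ (A := locAt q M) m⟩ : cocycles₁ (locAt q M)) ∈
      twUrCocycles q M := by
  obtain ⟨F, hF, hFs⟩ := hsm
  refine ⟨⟨F, hF, fun g s hs => ?_⟩, fun ι hι => ?_⟩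
  · show (d₀₁ (locAt q M)).hom m (g * s) = (d₀₁ (locAt q M)).hom m g
    rw [d₀₁_hom_apply, d₀₁_hom_apply, map_mul, Module.End.mul_apply]
    have : (locAt q M).ρ s m = m := by
      show M.ρ (primeLocalToGlobal q s) m = m
      rw [hFs _ hs]; rfl
    rw [this]
  · show (d₀₁ (locAt q M)).hom m ι = 0
    rw [d₀₁_hom_apply, hm ι hι, sub_self]

/-- **(R1)** `dim H¹_ur(G_q, M) ≤ h⁰(G_q, M)` -/
theorem tw_finrank_twUr_le (hs : TwLocalSurj q) [Module.Finite k M.V]
    (hsm : ∃ F : IntermediateField ℚ Qb, FiniteDimensional ℚ F ∧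
      ∀ s ∈ F.fixingSubgroup, M.ρ s = 1) :
    FiniteDimensional k (twUr q M) ∧
      Module.finrank k (twUr q M) ≤ Module.finrank k (locAt q M).ρ.invariants := by
  obtain ⟨φ, hφ⟩ := Fermat.Agent.Lib.Helper6.exists_isFrobeniusAt (primeLocalPlace q) q.2
    (tw_primeLocalPlace_liesOver q)
  obtain ⟨τφ, hτφ⟩ := hs φ hφ.mem_decompositionSubgroup
  set W := twInertiaInv q M with hW
  let T : W →ₗ[k] W := ((locAt q M).ρ τφ).restrict (fun m hm => tw_rho_mem_inertiaInv q M τφ hm)
  let D : W →ₗ[k] W := T - LinearMap.id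
  have hD : ∀ m : W, ((D m : W) : M.V) = (locAt q M).ρ τφ (m : M.V) - (m : M.V) := fun m => rfl
  let Z := twUrCocycles q M
  let g : Z →ₗ[k] (W ⧸ LinearMap.range D) :=
    { toFun := fun c => Submodule.Quotient.mk ⟨c.1 τφ, tw_urCocycle_apply_mem c.2 τφ⟩
      map_add' := fun c c' => by
        rw [← Submodule.Quotient.mk_add]
        rfl
      map_smul' := fun a c => by
        rw [← Submodule.Quotient.mk_smul]
        rfl }
  let f : Z →ₗ[k] H1 (locAt q M) := (H1π (locAt q M)).hom ∘ₗ Z.subtype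
  have hrange : LinearMap.range f = twUr q M := by
    rw [LinearMap.range_comp, Submodule.range_subtype]
    rfl
  have hle : LinearMap.ker g ≤ LinearMap.ker f := by
    intro c hc
    rw [LinearMap.mem_ker] at hc ⊢
    have h1 : (⟨c.1 τφ, tw_urCocycle_apply_mem c.2 τφ⟩ : W) ∈ LinearMap.range D :=
      (Submodule.Quotient.mk_eq_zero _).1 hc
    obtain ⟨m, hm⟩ := h1
    have hm' : (locAt q M).ρ τφ (m : M.V) - (m : M.V) = c.1 τφ := by
      rw [← hD m, hm]
    show (H1π (locAt q M)).hom c.1 = 0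
    rw [H1π_eq_zero_iff]
    refine ⟨(m : M.V), ?_⟩
    funext τ
    let cob : cocycles₁ (locAt q M) :=
      ⟨(d₀₁ (locAt q M)).hom (m : M.V), d₀₁_apply_mem_cocycles₁ (A := locAt q M) (m : M.V)⟩
    have hcob : cob ∈ twUrCocycles q M := tw_cob_mem_twUrCocycles hsm m.2
    have hdiff : c.1 - cob ∈ twUrCocycles q M := Submodule.sub_mem _ c.2 hcob
    have h0 : (c.1 - cob) τφ = 0 := by
      show c.1 τφ - (d₀₁ (locAt q M)).hom (m : M.V) τφ = 0
      rw [d₀₁_hom_apply, hm', sub_self]
    have h2 := tw_urCocycle_eq_zero hs hφ hτφ hdiff h0 τ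
    have h3 : c.1 τ - (d₀₁ (locAt q M)).hom (m : M.V) τ = 0 := h2
    exact (sub_eq_zero.1 h3).symm
  haveI : Module.Finite k ↥W := inferInstance
  obtain ⟨hfin, hrk, -⟩ := tw_finrank_range_le (k := k) (Z := ↥Z) (X := H1 (locAt q M))
    (Y := W ⧸ LinearMap.range D) f g hle
  rw [hrange] at hfin hrk
  refine ⟨hfin, hrk.trans ?_⟩
  -- `dim (W / (T - 1) W) = dim ker (T - 1)`
  have e1 := Submodule.finrank_quotient_add_finrank (LinearMap.range D)
  have e2 := LinearMap.finrank_range_add_finrank_ker D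
  have e3 : Module.finrank k (LinearMap.range g) ≤ Module.finrank k (W ⧸ LinearMap.range D) :=
    Submodule.finrank_le _
  -- `ker (T - 1)` consists of invariant vectors
  obtain ⟨F, hF, hFs⟩ := hsm
  have hinv : ∀ m : LinearMap.ker D, ((m : W) : M.V) ∈ (locAt q M).ρ.invariants := by
    intro m
    rw [Representation.mem_invariants]
    have hm1 : (locAt q M).ρ τφ ((m : W) : M.V) = ((m : W) : M.V) := by
      have := LinearMap.mem_ker.1 m.2
      have h4 := hD (m : W)
      rw [this] at h4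
      exact (sub_eq_zero.1 h4.symm)
    have hpow : ∀ n : ℕ, (locAt q M).ρ (τφ ^ n) ((m : W) : M.V) = ((m : W) : M.V) := by
      intro n
      induction n with
      | zero => rw [pow_zero, map_one]; rfl
      | succ n ih => rw [pow_succ, map_mul, Module.End.mul_apply, hm1, ih]
    intro τ
    obtain ⟨n, ι, hι, s, hsF, rfl⟩ := tw_local_decomp q hs F hF hφ hτφ τ
    have hs1 : (locAt q M).ρ s ((m : W) : M.V) = ((m : W) : M.V) := by
      show M.ρ (primeLocalToGlobal q s) _ = _
      rw [hFs _ hsF]; rfl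
    rw [map_mul, map_mul, Module.End.mul_apply, Module.End.mul_apply, hs1, (m : W).2 ι hι, hpow]
  let h : LinearMap.ker D →ₗ[k] (locAt q M).ρ.invariants :=
    LinearMap.codRestrict _ (W.subtype ∘ₗ (LinearMap.ker D).subtype) hinv
  have hinj : Function.Injective h := by
    intro a b hab
    have := congrArg Subtype.val hab
    exact Subtype.ext (Subtype.ext this)
  have e4 := LinearMap.finrank_le_finrank_of_injective hinj
  omega

end Cocycles

/-- **two-step dimension bound**: if `f` maps `ker e` into `P` then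
`dim (range f) ≤ dim P + dim (range e)`. -/
theorem tw_finrank_range_le_add {k Z X Y : Type*} [Field k] [AddCommGroup Z] [Module k Z]
    [AddCommGroup X] [Module k X] [AddCommGroup Y] [Module k Y] (f : Z →ₗ[k] X) (e : Z →ₗ[k] Y)
    (P : Submodule k X) (hP : ∀ z, e z = 0 → f z ∈ P)
    [FiniteDimensional k P] [FiniteDimensional k (LinearMap.range e)] :
    FiniteDimensional k (LinearMap.range f) ∧
      Module.finrank k (LinearMap.range f) ≤
        Module.finrank k P + Module.finrank k (LinearMap.range e) := by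
  obtain ⟨K', hK'⟩ := Submodule.exists_isCompl (LinearMap.ker e)
  -- `e` is injective on `K'`
  let e' : K' →ₗ[k] LinearMap.range e :=
    LinearMap.codRestrict _ (e ∘ₗ K'.subtype) (fun z => LinearMap.mem_range_self e _)
  have he' : Function.Injective e' := by
    rw [← LinearMap.ker_eq_bot, eq_bot_iff]
    intro z hz
    have h1 : e (z : Z) = 0 := by
      have := congrArg Subtype.val (LinearMap.mem_ker.1 hz)
      exact this
    have h2 : (z : Z) ∈ LinearMap.ker e ⊓ K' := ⟨LinearMap.mem_ker.2 h1, z.2⟩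
    rw [hK'.inf_eq_bot, Submodule.mem_bot] at h2
    exact (Submodule.mem_bot k).2 (Subtype.ext h2)
  haveI : FiniteDimensional k K' := Module.Finite.of_injective e' he'
  have hK'rk : Module.finrank k K' ≤ Module.finrank k (LinearMap.range e) :=
    LinearMap.finrank_le_finrank_of_injective he'
  have hle : LinearMap.range f ≤ P ⊔ K'.map f := by
    rintro _ ⟨z, rfl⟩
    have hz : z ∈ LinearMap.ker e ⊔ K' := by rw [hK'.sup_eq_top]; trivial
    obtain ⟨a, ha, b, hb, rfl⟩ := Submodule.mem_sup.1 hz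
    rw [map_add]
    exact Submodule.add_mem_sup (hP a (LinearMap.mem_ker.1 ha)) (Submodule.mem_map_of_mem hb)
  haveI : FiniteDimensional k (K'.map f) := inferInstance
  haveI : FiniteDimensional k ↥(P ⊔ K'.map f) := inferInstance
  refine ⟨Submodule.finiteDimensional_of_le hle, ?_⟩
  calc Module.finrank k (LinearMap.range f) ≤ Module.finrank k ↥(P ⊔ K'.map f) :=
        Submodule.finrank_mono hle
    _ ≤ Module.finrank k P + Module.finrank k (K'.map f) :=
        Submodule.finrank_add_le_finrank_add_finrank _ _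
    _ ≤ Module.finrank k P + Module.finrank k K' := by
        have := Submodule.finrank_map_le f K'
        omega
    _ ≤ _ := by omega


section Tame

variable {q : Nat.Primes} {M : Rep k GQ}

/-- on inertia, a cocycle with values in an unramified module is additive -/
theorem tw_coc_mul_inertia (hur : ∀ g ∈ (primeLocalPlace q).inertiaSubgroupIn ℚ, M.ρ g = 1)
    (c : cocycles₁ (locAt q M)) {ι : primeLocalGaloisGroup q} (hι : ι ∈ twLocInertia q)
    (g : primeLocalGaloisGroup q) : c (ι * g) = c g + c ι := by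
  rw [tw_coc_mul]
  have h1 : (locAt q M).ρ ι = 1 := hur _ hι
  rw [h1]
  rfl

theorem tw_coc_pow_inertia (hur : ∀ g ∈ (primeLocalPlace q).inertiaSubgroupIn ℚ, M.ρ g = 1)
    (c : cocycles₁ (locAt q M)) {ι : primeLocalGaloisGroup q} (hι : ι ∈ twLocInertia q) (n : ℕ) :
    c (ι ^ n) = n • c ι := by
  induction n with
  | zero => rw [pow_zero, zero_smul]; exact cocycles₁_map_one c
  | succ n ih => rw [pow_succ', tw_coc_mul_inertia hur c hι, ih, succ_nsmul]

theorem tw_coc_inv_inertia (hur : ∀ g ∈ (primeLocalPlace q).inertiaSubgroupIn ℚ, M.ρ g = 1)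
    (c : cocycles₁ (locAt q M)) {ι : primeLocalGaloisGroup q} (hι : ι ∈ twLocInertia q) :
    c ι⁻¹ = - c ι := by
  have h := cocycles₁_map_inv c ι
  have h1 : (locAt q M).ρ ι = 1 := hur _ hι
  rw [h1] at h
  exact h

theorem tw_coc_zpow_inertia (hur : ∀ g ∈ (primeLocalPlace q).inertiaSubgroupIn ℚ, M.ρ g = 1)
    (c : cocycles₁ (locAt q M)) {ι : primeLocalGaloisGroup q} (hι : ι ∈ twLocInertia q) (n : ℤ) :
    c (ι ^ n) = n • c ι := by
  cases n with
  | ofNat n =>
    rw [Int.ofNat_eq_natCast, zpow_natCast, natCast_zsmul]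
    exact tw_coc_pow_inertia hur c hι n
  | negSucc n =>
    rw [zpow_negSucc, tw_coc_inv_inertia hur c (Subgroup.pow_mem _ hι _),
      tw_coc_pow_inertia hur c hι, negSucc_zsmul]

/-- a cocycle of level `F` vanishes on inertia elements of `q`-power order modulo `F` -/
theorem tw_coc_wild_eq_zero (hur : ∀ g ∈ (primeLocalPlace q).inertiaSubgroupIn ℚ, M.ρ g = 1)
    (hq1 : ((q : ℕ) : k) = 1) {F : IntermediateField ℚ Qb} (c : cocycles₁ (locAt q M))
    (hcF : ∀ g s : primeLocalGaloisGroup q, primeLocalToGlobal q s ∈ F.fixingSubgroup →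
      c (g * s) = c g) {ι : primeLocalGaloisGroup q} (hι : ι ∈ twLocInertia q) {a : ℕ}
    (ha : (primeLocalToGlobal q ι) ^ ((q : ℕ) ^ a) ∈ F.fixingSubgroup) : c ι = 0 := by
  have h1 := tw_coc_pow_inertia hur c hι ((q : ℕ) ^ a)
  have h2 : c (ι ^ ((q : ℕ) ^ a)) = 0 := by
    have := hcF 1 (ι ^ ((q : ℕ) ^ a)) (by rw [map_pow]; exact ha)
    rw [one_mul] at this
    rw [this]
    exact cocycles₁_map_one c
  rw [h2, ← Nat.cast_smul_eq_nsmul k, Nat.cast_pow, hq1, one_pow, one_smul] at h1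
  exact h1.symm

/-- cocycles which are constant modulo the level `F` -/
def twLevelCocycles (q : Nat.Primes) (M : Rep k GQ) (F : IntermediateField ℚ Qb) :
    Submodule k (cocycles₁ (locAt q M)) where
  carrier := {c | ∀ g s : primeLocalGaloisGroup q, primeLocalToGlobal q s ∈ F.fixingSubgroup →
    c (g * s) = c g}
  add_mem' := by
    intro c c' h h' g s hs
    show c (g * s) + c' (g * s) = c g + c' g
    rw [h g s hs, h' g s hs]
  zero_mem' := fun _ _ _ => rfl
  smul_mem' := by
    intro a c h g s hs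
    show a • c (g * s) = a • c g
    rw [h g s hs]

/-- **the classes of a fixed level at a Taylor–Wiles type prime**: if `M` is unramified at `q` and
`q = 1` in `k`, the classes of cocycles of level `F` span a space of dimension `≤ 2 h⁰(G_q, M)`. -/
theorem tw_finrank_levelClasses_le (hs : TwLocalSurj q) [Module.Finite k M.V]
    (hsm : ∃ F : IntermediateField ℚ Qb, FiniteDimensional ℚ F ∧
      ∀ s ∈ F.fixingSubgroup, M.ρ s = 1)
    (hur : ∀ g ∈ (primeLocalPlace q).inertiaSubgroupIn ℚ, M.ρ g = 1)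
    (hq1 : ((q : ℕ) : k) = 1) (F : IntermediateField ℚ Qb) (hF : FiniteDimensional ℚ F) :
    FiniteDimensional k ((twLevelCocycles q M F).map (H1π (locAt q M)).hom) ∧
      Module.finrank k ((twLevelCocycles q M F).map (H1π (locAt q M)).hom) ≤
        2 * Module.finrank k (locAt q M).ρ.invariants := by
  obtain ⟨hPfin, hPrk⟩ := tw_finrank_twUr_le (q := q) (M := M) hs hsm
  obtain ⟨φ, hφ⟩ := Fermat.Agent.Lib.Helper6.exists_isFrobeniusAt (primeLocalPlace q) q.2
    (tw_primeLocalPlace_liesOver q)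
  obtain ⟨τφ, hτφ⟩ := hs φ hφ.mem_decompositionSubgroup
  obtain ⟨F₀, hF₀, hF₀s⟩ := hsm
  haveI := hF
  haveI := hF₀
  set F₁ : IntermediateField ℚ Qb := F ⊔ F₀ with hF₁
  haveI : FiniteDimensional ℚ ↥F₁ := IntermediateField.finiteDimensional_sup _ _
  obtain ⟨t, ht, htI, htφ⟩ := tame_structure q.2 (primeLocalPlace q)
    (tw_primeLocalPlace_liesOver q) F₁
  obtain ⟨τt, hτt⟩ := hs t (Fermat.Agent.S05Lib.qv_mem_inertiaSubgroupIn _ ht).1
  have hτtI : τt ∈ twLocInertia q := by
    show τt ∈ ((primeLocalPlace q).inertiaSubgroupIn ℚ).comap (primeLocalToGlobal q)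
    rw [Subgroup.mem_comap, hτt]; exact ht
  have hF₁F : F₁.fixingSubgroup ≤ F.fixingSubgroup :=
    IntermediateField.fixingSubgroup_antitone le_sup_left
  set Z := twLevelCocycles q M F with hZ
  -- (iv) the restriction to inertia is determined by the value at `τt`
  have hgen : ∀ c ∈ Z, ∀ ι ∈ twLocInertia q, ∃ n : ℤ, c ι = n • c τt := by
    intro c hc ι hι
    obtain ⟨n, a, hna⟩ := htI _ hι
    have hι' : ι * τt ^ (-n) ∈ twLocInertia q := mul_mem hι (zpow_mem hτtI _)
    have h0 : c (ι * τt ^ (-n)) = 0 :=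
      tw_coc_wild_eq_zero hur hq1 c hc hι' (a := a) (by
        rw [map_mul, map_zpow, hτt]; exact hF₁F hna)
    refine ⟨n, ?_⟩
    have e : c ι = c ((ι * τt ^ (-n)) * τt ^ n) := by
      congr 1; group
    rw [e, tw_coc_mul_inertia hur c hι', h0, add_zero, tw_coc_zpow_inertia hur c hτtI]
  -- (v) the value at `τt` is fixed by Frobenius
  have hfix : ∀ c ∈ Z, (locAt q M).ρ τφ (c τt) = c τt := by
    intro c hc
    have e1 : c (τφ * τt * τφ⁻¹) = (locAt q M).ρ τφ (c τt) := by
      rw [tw_coc_mul, tw_coc_mul, map_mul, Module.End.mul_apply]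
      have h1 : (locAt q M).ρ τt = 1 := hur _ hτtI
      rw [h1, Module.End.one_apply, cocycles₁_map_inv]
      abel
    obtain ⟨a, ha⟩ := htφ φ hφ
    have hconj : τφ * τt * τφ⁻¹ ∈ twLocInertia q := tw_conj_mem_locInertia q hτtI τφ
    have hw : τφ * τt * τφ⁻¹ * τt ^ (-((q : ℕ) : ℤ)) ∈ twLocInertia q :=
      mul_mem hconj (zpow_mem hτtI _)
    have h0 : c (τφ * τt * τφ⁻¹ * τt ^ (-((q : ℕ) : ℤ))) = 0 :=
      tw_coc_wild_eq_zero hur hq1 c hc hw (a := a) (by
        rw [map_mul, map_mul, map_mul, map_inv, map_zpow, hτt, hτφ]; exact hF₁F ha)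
    have e2 : c (τφ * τt * τφ⁻¹) =
        c ((τφ * τt * τφ⁻¹ * τt ^ (-((q : ℕ) : ℤ))) * τt ^ (((q : ℕ) : ℤ))) := by
      congr 1; group
    rw [← e1, e2, tw_coc_mul_inertia hur c hw, h0, add_zero, tw_coc_zpow_inertia hur c hτtI,
      natCast_zsmul, ← Nat.cast_smul_eq_nsmul k, hq1, one_smul]
  -- the value at `τt` is invariant
  have hinv : ∀ c ∈ Z, c τt ∈ (locAt q M).ρ.invariants := by
    intro c hc
    rw [Representation.mem_invariants]
    have hpow : ∀ n : ℕ, (locAt q M).ρ (τφ ^ n) (c τt) = c τt := by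
      intro n
      induction n with
      | zero => rw [pow_zero, map_one]; rfl
      | succ n ih => rw [pow_succ, map_mul, Module.End.mul_apply, hfix c hc, ih]
    intro τ
    obtain ⟨n, ι, hι, s, hsF, rfl⟩ := tw_local_decomp q hs F₀ hF₀ hφ hτφ τ
    have hs1 : (locAt q M).ρ s = 1 := hF₀s _ hsF
    have hι1 : (locAt q M).ρ ι = 1 := hur _ hι
    rw [map_mul, map_mul, hs1, hι1, mul_one, mul_one, hpow]
  let e : Z →ₗ[k] (locAt q M).ρ.invariants :=
    { toFun := fun c => ⟨c.1 τt, hinv c.1 c.2⟩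
      map_add' := fun c c' => rfl
      map_smul' := fun a c => rfl }
  let f : Z →ₗ[k] H1 (locAt q M) := (H1π (locAt q M)).hom ∘ₗ Z.subtype
  have hrange : LinearMap.range f = Z.map (H1π (locAt q M)).hom := by
    rw [LinearMap.range_comp, Submodule.range_subtype]
  have hP : ∀ c : Z, e c = 0 → f c ∈ twUr q M := by
    intro c hc
    have h0 : c.1 τt = 0 := congrArg Subtype.val hc
    refine (mem_twUr_iff q M _).2 ⟨c.1, ⟨F, hF, c.2⟩, fun ι hι => ?_, rfl⟩
    obtain ⟨n, hn⟩ := hgen c.1 c.2 ι hι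
    rw [hn, h0, smul_zero]
  haveI : Module.Finite k (locAt q M).V := ‹Module.Finite k M.V›
  haveI := hPfin
  obtain ⟨hfin, hrk⟩ := tw_finrank_range_le_add (k := k) (Z := ↥Z) (X := H1 (locAt q M))
    (Y := (locAt q M).ρ.invariants) f e (twUr q M) hP
  rw [hrange] at hfin hrk
  refine ⟨hfin, ?_⟩
  have e3 : Module.finrank k (LinearMap.range e) ≤ Module.finrank k (locAt q M).ρ.invariants :=
    Submodule.finrank_le _
  omega

/-- **`dim H¹_cont(G_q, M) ≤ 2 h⁰(G_q, M)`** for `M` unramified at `q` and `q = 1` in `k`. -/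
theorem tw_finrank_locCont_le (hs : TwLocalSurj q) [Module.Finite k M.V]
    (hsm : ∃ F : IntermediateField ℚ Qb, FiniteDimensional ℚ F ∧
      ∀ s ∈ F.fixingSubgroup, M.ρ s = 1)
    (hur : ∀ g ∈ (primeLocalPlace q).inertiaSubgroupIn ℚ, M.ρ g = 1)
    (hq1 : ((q : ℕ) : k) = 1) :
    FiniteDimensional k (locCont q M) ∧
      Module.finrank k (locCont q M) ≤ 2 * Module.finrank k (locAt q M).ρ.invariants := by
  set N := 2 * Module.finrank k (locAt q M).ρ.invariants with hN
  have hx : ∀ x : locCont q M, ∃ c : cocycles₁ (locAt q M), ∃ F : IntermediateField ℚ Qb,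
      FiniteDimensional ℚ F ∧ (∀ g s : primeLocalGaloisGroup q,
        primeLocalToGlobal q s ∈ F.fixingSubgroup → c (g * s) = c g) ∧
      (H1π (locAt q M)).hom c = (x : H1 (locAt q M)) := by
    intro x
    obtain ⟨c, ⟨F, hF, hc⟩, hcx⟩ := (mem_continuousH1_iff _ _ _).1 x.2
    exact ⟨c, F, hF, hc, hcx⟩
  choose cx Fx hFx hcx hπx using hx
  have key : Module.rank k (locCont q M) ≤ (N : Cardinal) := by
    apply rank_le
    intro s hli
    set F : IntermediateField ℚ Qb := ⨆ x ∈ s, Fx x with hF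
    have hFfd : FiniteDimensional ℚ ↥F :=
      IntermediateField.finiteDimensional_iSup_of_finset' (fun x _ => hFx x)
    obtain ⟨hRfin, hRrk⟩ := tw_finrank_levelClasses_le (q := q) (M := M) hs hsm hur hq1 F hFfd
    set R := (twLevelCocycles q M F).map (H1π (locAt q M)).hom with hR
    have hmem : ∀ x ∈ s, ((x : locCont q M) : H1 (locAt q M)) ∈ R := by
      intro x hxs
      refine Submodule.mem_map.2 ⟨cx x, ?_, hπx x⟩
      intro g t ht
      have hle : Fx x ≤ F := le_iSup₂ (f := fun x _ => Fx x) x hxs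
      exact hcx x g t (IntermediateField.fixingSubgroup_antitone hle ht)
    have hli' : LinearIndependent k (fun i : s => (((i : locCont q M)) : H1 (locAt q M))) :=
      hli.map' (locCont q M).subtype (Submodule.ker_subtype _)
    have hli'' : LinearIndependent k
        (fun i : s => (⟨((i : locCont q M) : H1 (locAt q M)), hmem i i.2⟩ : R)) := by
      apply LinearIndependent.of_comp R.subtype
      exact hli'
    haveI := hRfin
    have := hli''.fintype_card_le_finrank
    rw [Fintype.card_coe] at this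
    exact this.trans hRrk
  have hfin : Module.Finite k (locCont q M) :=
    Module.rank_lt_aleph0_iff.1 (lt_of_le_of_lt key Cardinal.natCast_lt_aleph0)
  exact ⟨hfin, Module.finrank_le_of_rank_le key⟩

end Tame

section Contracts

variable (p : ℕ) [Fact p.Prime] (ρbar : ResidualGaloisRep k)
  (b : Module.Basis (Fin 2) k ρbar.V)

/-- `ad⁰ ρbar` is unramified where `ρbar` is -/
theorem tw_ad0Rep_unramified {q : Nat.Primes} (hur : ρbar.IsUnramifiedAt q) :
    ∀ g ∈ (primeLocalPlace q).inertiaSubgroupIn ℚ, (ad0Rep ρbar).ρ g = 1 := by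
  intro g hg
  have hA := tw_primeLocalPlace_liesOver q
  have h1 : ρbar.ρ g = 1 := hur _ hA g hg
  have h2 : ρbar.ρ g⁻¹ = 1 := by
    have := rho_inv_mul_rho ρbar g
    rwa [h1, mul_one] at this
  apply LinearMap.ext
  intro x
  apply ad0Val_injective ρbar
  rw [ad0Val_ρ, adRepn_apply, h1, h2]
  rfl

/-- `h⁰(G_q, ad⁰ ρbar) ≤ 1` at a Taylor–Wiles prime -/
theorem tw_h0At_le_one {q : Nat.Primes} (hs : TwLocalSurj q) (hTW : IsTWPrime ρbar q) : h0At ρbar q ≤ 1 := by
  obtain ⟨φ, hφ⟩ := Fermat.Agent.Lib.Helper6.exists_isFrobeniusAt (primeLocalPlace q) q.2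
    (tw_primeLocalPlace_liesOver q)
  obtain ⟨α, β, hαβ, hchar⟩ := hTW _ (tw_primeLocalPlace_liesOver q) φ hφ
  set g : Module.End k ρbar.V := ρbar.ρ φ with hg
  rw [← tw_finrank_commSub ρbar.finrank_eq g hαβ hchar]
  obtain ⟨τφ, hτφ⟩ := hs φ hφ.mem_decompositionSubgroup
  let N := locAt q (ad0Rep ρbar)
  let Φ : N.ρ.invariants →ₗ[k] twCommSub g :=
    { toFun := fun x => ⟨ad0Val ρbar x.1, by
        refine ⟨trace_ad0Val ρbar x.1, ?_⟩
        have h1 := (Representation.mem_invariants _ _).mp x.2 τφ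
        have h1' : (ad0Rep ρbar).ρ φ x.1 = x.1 := by
          rw [← hτφ]; exact h1
        have h3 := congrArg (ad0Val ρbar) h1'
        rw [ad0Val_ρ, adRepn_apply] at h3
        replace h3 : ρbar.ρ φ * ad0Val ρbar x.1 * ρbar.ρ φ⁻¹ = ad0Val ρbar x.1 := by
          rw [mul_assoc]; exact h3
        calc g * ad0Val ρbar x.1 = g * ad0Val ρbar x.1 * (ρbar.ρ φ⁻¹ * ρbar.ρ φ) := by
              rw [rho_inv_mul_rho, mul_one]
          _ = (ρbar.ρ φ * ad0Val ρbar x.1 * ρbar.ρ φ⁻¹) * g := by simp only [mul_assoc, hg]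
          _ = ad0Val ρbar x.1 * g := by rw [h3]⟩
      map_add' := fun x y => rfl
      map_smul' := fun c x => rfl }
  have hinj : Function.Injective Φ := by
    intro x y hxy
    apply Subtype.ext
    apply ad0Val_injective ρbar
    have := congrArg (fun z : twCommSub g => (z : Module.End k ρbar.V)) hxy
    exact this
  exact LinearMap.finrank_le_finrank_of_injective hinj

/-- **(C-LOC-min)** from the exact surjectivity of `G_q → D_q` -/
theorem tw_contractLocMin_of_surj (hpk : (p : k) = 0) (h2 : (2 : k) ≠ 0)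
    (hs : ∀ q : Nat.Primes, (q : ℕ) ≠ p → TwLocalSurj q) : ContractLocMin p ρbar b :=
  tw_contractLocMin ρbar b p hpk h2 (fun q hq =>
    (tw_finrank_twUr_le (q := q) (M := ad0Rep ρbar) (hs q hq) (tw_ad0Rep_smooth (ρbar := ρbar))).2)

omit [Fact p.Prime] in
/-- **(C-LOC-TW)** from the exact surjectivity of `G_q → D_q` -/
theorem tw_contractLocTW_of_surj (hpk : (p : k) = 0)
    (hs : ∀ q : Nat.Primes, (q : ℕ) ≠ p → TwLocalSurj q) : ContractLocTW p ρbar := by
  intro q hqp hdvd hur hTW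
  have hq1 : ((q : ℕ) : k) = 1 := by
    obtain ⟨c, hc⟩ := hdvd
    have hq : (q : ℕ) = p * c + 1 := by
      have := q.2.one_le
      omega
    rw [hq]
    push_cast
    rw [hpk, zero_mul, zero_add]
  have h1 := (tw_finrank_locCont_le (q := q) (M := ad0Rep ρbar) (hs q hqp)
    (tw_ad0Rep_smooth (ρbar := ρbar)) (tw_ad0Rep_unramified ρbar hur) hq1).2
  have h2 := tw_h0At_le_one ρbar (hs q hqp) hTW
  unfold h0At at h2 ⊢
  omega

end Contracts

end

end Fermat.Agent.TW
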