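/-
P10 / G6 (helper8): (R4) surjectivity of `G_q → D_q` modulo finite levels and exactly
(`tw_localSurj_mod`, `tw_localSurj`), and the unconditional local contracts at `q ≠ p`:
`tw_finrank_twUr_ad0_le` (R1), `tw_contractLocMin_final`, `tw_contractLocTW`.
-/
import Fermat.Agent.Lib.TW.Local.DecompNorm
import Fermat.Agent.Lib.TW.Local.UnramifiedDim
import Fermat.Agent.Lib.CFT.Bridge.Levels

set_option autoImplicit false
set_option linter.style.haveILetI false

open ExtCitation
open Fermat.Agent.CFT Fermat.Agent.CFT.Bridge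

namespace Fermat.Agent.TW

/-- **(R4)** every element of the decomposition group of the distinguished place over `q` is,
modulo any finite level, induced by an element of the local Galois group -/
theorem tw_localSurj_mod (q : Nat.Primes) :
    ∀ σ ∈ (primeLocalPlace q).decompositionSubgroup ℚ,
      ∀ F : IntermediateField ℚ (AlgebraicClosure ℚ), FiniteDimensional ℚ F →
        ∃ τ : primeLocalGaloisGroup q, ∀ x ∈ F, primeLocalToGlobal q τ x = σ x := by
  intro σ hσ F hF
  haveI := hF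
  haveI : Fact (q : ℕ).Prime := ⟨q.2⟩
  obtain ⟨L, hL⟩ := exists_level_N_le F
  have hg : L.proj σ ∈ decomp q L := tl_mem_decomp_of_norm_eq q L (L.proj σ) (fun y => by
    rw [Level.coe_proj_smul]
    exact tw_norm_padicEmbedding_of_mem_decomp (q : ℕ) hσ _)
  obtain ⟨σ', ⟨τ, rfl⟩, hτ⟩ := hg
  refine ⟨τ, fun x hx => ?_⟩
  have h1 : (primeLocalToGlobal q τ)⁻¹ * σ ∈ L.N := QuotientGroup.eq.1 hτ
  have h2 := hL h1
  have h3 := (IntermediateField.mem_fixingSubgroup_iff _ _).1 h2 x hx
  have h4 : (primeLocalToGlobal q τ)⁻¹ (σ x) = x := h3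
  have h5 : (primeLocalToGlobal q τ).symm (σ x) = x := h4
  rw [AlgEquiv.symm_apply_eq] at h5
  exact h5.symm

/-- **exact surjectivity of `G_q → D_q`** -/
theorem tw_localSurj (q : Nat.Primes) : TwLocalSurj q :=
  tw_localSurj_of_levels q (tw_localSurj_mod q)

section Contracts

open Fermat.Agent.S53Lib

variable {k : Type} [Field k] (p : ℕ) [Fact p.Prime] (ρbar : ResidualGaloisRep k)
  (b : Module.Basis (Fin 2) k ρbar.V)

/-- **(R1)** `dim H¹_ur(G_q, ad⁰ ρbar) ≤ h⁰(G_q, ad⁰ ρbar)` -/
theorem tw_finrank_twUr_ad0_le (q : Nat.Primes) :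
    Module.finrank k (twUr q (ad0Rep ρbar)) ≤ h0At ρbar q :=
  (tw_finrank_twUr_le (q := q) (M := ad0Rep ρbar) (tw_localSurj q)
    (tw_ad0Rep_smooth (ρbar := ρbar))).2

/-- **(C-LOC-min)** -/
theorem tw_contractLocMin_final (hpk : (p : k) = 0) (h2 : (2 : k) ≠ 0) :
    ContractLocMin p ρbar b :=
  tw_contractLocMin_of_surj p ρbar b hpk h2 (fun q _ => tw_localSurj q)

omit [Fact p.Prime] in
/-- **(C-LOC-TW)** -/
theorem tw_contractLocTW (hpk : (p : k) = 0) : ContractLocTW p ρbar :=
  tw_contractLocTW_of_surj p ρbar hpk (fun q _ => tw_localSurj q)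

end Contracts

end Fermat.Agent.TW
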