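import Fermat.Agent.Lib.CFT.Duality.DualTwistTower
import Fermat.Agent.Lib.CFT.Duality.KummerIso
import Fermat.Agent.Lib.CFT.Duality.FinPTorsion
import Fermat.Agent.Lib.CFT.Duality.FinDual

/-!
# P10 / G2 (local cohomology), part 1 : the double dual `A ≅ Hom(Hom(A, μ), μ)` of tower modules

For a cartesian tower module `μ` all of whose levels have order `p` and a cartesian tower module `A`
all of whose levels are finite and killed by `p`:

* `tlHomTo_isFinPTorsion` : `A.homTo μ` is finite and killed by `p`;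
* `tlEvalHom A μ : A.Hom ((A.homTo μ).homTo μ)`, the evaluation map (generic coefficient ring);
* `tlEvalIso` : it is an isomorphism.
-/

set_option autoImplicit false
set_option linter.unusedSectionVars false
set_option linter.style.haveILetI false

open CategoryTheory

namespace Fermat.Agent.TW

open Fermat.Agent.CFT.Duality Fermat.Agent.CFT.Duality.TowerModule

noncomputable section

/-! ### Algebra: `ℤ`-linear maps into a group of order `p` -/

section algebra

variable (p : ℕ) [hp : Fact p.Prime] {X W : Type} [AddCommGroup X] [AddCommGroup W]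
  [Module ℤ X] [Module ℤ W]

lemma tl_nsmul_eq_zero_of_card (hW : Nat.card W = p) (w : W) : p • w = 0 := by
  have := card_nsmul_eq_zero' (G := W) (x := w)
  rwa [hW] at this

lemma tl_exists_ne_zero_of_card (hW : Nat.card W = p) : ∃ ζ : W, ζ ≠ 0 := by
  haveI : Finite W := Nat.finite_of_card_ne_zero (by rw [hW]; exact hp.out.ne_zero)
  haveI : Nontrivial W := by
    rw [← Finite.one_lt_card_iff_nontrivial, hW]
    exact hp.out.one_lt
  exact exists_ne 0

/-- `ℤ`-linear maps (for arbitrary `ℤ`-module structures) are the additive maps -/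
def tlIntLinEquivAddHom : (X →ₗ[ℤ] W) ≃ (X →+ W) where
  toFun f := f.toAddMonoidHom
  invFun f := addHomToIntLin f
  left_inv _ := rfl
  right_inv _ := rfl

/-- `|Hom_ℤ(X, W)| = |X|` for `X` finite killed by `p` and `W` of order `p` -/
theorem tl_card_intLin [Finite X] (hX : ∀ x : X, p • x = 0) (hW : Nat.card W = p) :
    Nat.card (X →ₗ[ℤ] W) = Nat.card X := by
  obtain ⟨ζ, hζ0⟩ := tl_exists_ne_zero_of_card p (W := W) hW
  have hζ := tl_nsmul_eq_zero_of_card p hW ζ
  have hbij : Function.Bijective (valSmul p hζ) :=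
    ⟨valSmul_injective p hζ hζ0, valSmul_surjective p hζ hζ0 hW⟩
  let e : ZMod p ≃+ W := AddEquiv.ofBijective (valSmul p hζ) hbij
  let e2 : (X →+ W) ≃ (X →+ ZMod p) :=
    { toFun := fun f => e.symm.toAddMonoidHom.comp f
      invFun := fun f => e.toAddMonoidHom.comp f
      left_inv := fun f => by
        ext x
        exact e.apply_symm_apply (f x)
      right_inv := fun f => by
        ext x
        exact e.symm_apply_apply (f x) }
  rw [Nat.card_congr (tlIntLinEquivAddHom (X := X) (W := W)), Nat.card_congr e2]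
  exact @card_addMonoidHom_zmod p _ X _ (AddCommGroup.zmodModule hX) _

lemma tl_exists_addHom_zmod_ne_zero {Y : Type} [AddCommGroup Y] [Module (ZMod p) Y] (x : Y)
    (hx : x ≠ 0) : ∃ φ : Y →+ ZMod p, φ x ≠ 0 := by
  have h1 : ¬ ∀ φ : Module.Dual (ZMod p) Y, φ x = 0 := by
    rw [Module.forall_dual_apply_eq_zero_iff (ZMod p)]
    exact hx
  push Not at h1
  obtain ⟨φ, hφ⟩ := h1
  exact ⟨φ.toAddMonoidHom, hφ⟩

/-- a non-zero element of a group killed by `p` is detected by a map to a group of order `p` -/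
theorem tl_exists_intLin_ne_zero (hX : ∀ x : X, p • x = 0) (hW : Nat.card W = p) (x : X)
    (hx : x ≠ 0) : ∃ f : X →ₗ[ℤ] W, f x ≠ 0 := by
  obtain ⟨ζ, hζ0⟩ := tl_exists_ne_zero_of_card p (W := W) hW
  have hζ := tl_nsmul_eq_zero_of_card p hW ζ
  obtain ⟨φ, hφ⟩ := @tl_exists_addHom_zmod_ne_zero p _ X _ (AddCommGroup.zmodModule hX) x hx
  refine ⟨addHomToIntLin ((valSmul p hζ).comp φ), ?_⟩
  intro h0
  apply hφ
  have h2 : valSmul p hζ (φ x) = valSmul p hζ 0 := by
    rw [map_zero]
    exact h0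
  exact valSmul_injective p hζ hζ0 h2

/-- evaluation at a point, as an additive map -/
def tlEvalAdd (x : X) : (X →ₗ[ℤ] W) →+ W where
  toFun f := f x
  map_zero' := rfl
  map_add' _ _ := rfl

lemma tl_nsmul_apply (n : ℕ) (f : X →ₗ[ℤ] W) (x : X) : (n • f) x = n • f x :=
  map_nsmul (tlEvalAdd (W := W) x) n f

/-- `ℤ`-linear maps from a finite group are finite in number -/
lemma tl_finite_intLin [Finite X] [Finite W] : Finite (X →ₗ[ℤ] W) :=
  Finite.of_injective (fun f : X →ₗ[ℤ] W => (f : X → W)) DFunLike.coe_injective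

end algebra

/-! ### `Hom(A, μ)` is finite and killed by `p` -/

section fin

variable {T : Tower} (p : ℕ) (A μ : TowerModule ℤ T) [A.IsCartesian]

/-- `A.homTo μ` is finite and killed by `p` if `A` is and `μ` has finite levels -/
theorem tlHomTo_isFinPTorsion [A.IsFinPTorsion p] (hμ : ∀ l, Finite (μ.C l)) :
    (A.homTo μ).IsFinPTorsion p where
  finite l := by
    haveI := hμ l
    exact @tl_finite_intLin (A.C l).V (μ.C l).V _ _ (A.C l).hV2 (μ.C l).hV2 _ _
  torsion l := by
    intro (f : @LinearMap ℤ ℤ _ _ (RingHom.id ℤ) (A.C l).V (μ.C l).V _ _ (A.C l).hV2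
      (μ.C l).hV2)
    refine @LinearMap.ext ℤ ℤ (A.C l).V (μ.C l).V _ _ _ _ (A.C l).hV2 (μ.C l).hV2 (RingHom.id ℤ)
      _ _ (fun x => ?_)
    have h1 : (p • f) x = p • f x :=
      @tl_nsmul_apply (A.C l).V (μ.C l).V _ _ (A.C l).hV2 (μ.C l).hV2 p f x
    refine h1.trans ?_
    rw [← map_nsmul, IsFinPTorsion.torsion (p := p) (A := A) l x, map_zero]
    rfl

end fin

/-! ### The evaluation map (generic coefficient ring) -/

section eval

variable {k : Type} [CommRing k] {T : Tower} (A μ : TowerModule k T) [A.IsCartesian]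
  [μ.IsCartesian]

/-- the inverse of the transition maps of `A.homTo μ` -/
lemma tl_inv_homTo_φ_apply {i j : T.ι} (h : i ≤ j) (f : (A.C j).V →ₗ[k] (μ.C j).V)
    (x : (A.C i).V) :
    (show (A.C i).V →ₗ[k] (μ.C i).V from (inv ((A.homTo μ).φ h)).hom f) x =
      (inv (μ.φ h)).hom (f ((A.φ h).hom x)) := by
  have h1 : (inv ((A.homTo μ).φ h)).hom f = homToLinInv A μ h f := by
    apply (A.homTo μ).φ_injective h
    refine ((A.homTo μ).φ_inv_φ h f).trans ?_
    apply LinearMap.ext
    intro y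
    change f y = (μ.φ h).hom ((inv (μ.φ h)).hom (f ((A.φ h).hom ((inv (A.φ h)).hom y))))
    rw [φ_inv_φ, φ_inv_φ]
  rw [h1]
  rfl

/-- the evaluation map `A_j → Hom(Hom(A_j, μ_j), μ_j)` at level `j` -/
def tlEvalAt (j : T.ι) : A.C j ⟶ ((A.homTo μ).homTo μ).C j :=
  repHomMk (A.C j) (((A.homTo μ).homTo μ).C j)
    ((LinearMap.id : ((A.C j).V →ₗ[k] (μ.C j).V) →ₗ[k] ((A.C j).V →ₗ[k] (μ.C j).V)).flip)
    (fun g a => by
      apply LinearMap.ext
      intro (f : (A.C j).V →ₗ[k] (μ.C j).V)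
      change f ((A.C j).ρ g a) =
        (μ.C j).ρ g ((show (A.C j).V →ₗ[k] (μ.C j).V from ((A.homTo μ).C j).ρ g⁻¹ f) a)
      rw [homTo_ρ_apply, inv_inv]
      have h1 : (μ.C j).ρ g ((μ.C j).ρ g⁻¹ (f ((A.C j).ρ g a))) =
          ((μ.C j).ρ g * (μ.C j).ρ g⁻¹) (f ((A.C j).ρ g a)) := rfl
      rw [h1, ← map_mul, mul_inv_cancel, map_one]
      rfl)

lemma tlEvalAt_apply (j : T.ι) (a : (A.C j).V) (f : (A.C j).V →ₗ[k] (μ.C j).V) :
    (show ((A.C j).V →ₗ[k] (μ.C j).V) →ₗ[k] (μ.C j).V from (tlEvalAt A μ j).hom a) f = f a := rfl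

/-- **the evaluation map** `A → Hom(Hom(A, μ), μ)` -/
def tlEvalHom : A.Hom ((A.homTo μ).homTo μ) where
  f j := tlEvalAt A μ j
  comm {i j} h := by
    refine towerHom_comm_of_apply _ h (fun (x : (A.C i).V) => ?_)
    apply LinearMap.ext
    intro (f : (A.C j).V →ₗ[k] (μ.C j).V)
    change f ((A.φ h).hom x) = (μ.φ h).hom
      ((show (A.C i).V →ₗ[k] (μ.C i).V from (inv ((A.homTo μ).φ h)).hom f) x)
    rw [tl_inv_homTo_φ_apply, φ_inv_φ]

end eval

/-! ### The evaluation map is an isomorphism -/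

section iso

variable {T : Tower} (p : ℕ) [hp : Fact p.Prime] (A μ : TowerModule ℤ T) [A.IsCartesian]
  [μ.IsCartesian] [A.IsFinPTorsion p] (hμ : ∀ l, Nat.card (μ.C l) = p)

include hμ in
lemma tl_mu_finite (l : T.ι) : Finite (μ.C l) :=
  Nat.finite_of_card_ne_zero (by rw [hμ l]; exact hp.out.ne_zero)

include hμ in
theorem tlEvalAt_bijective (j : T.ι) : Function.Bijective (tlEvalAt A μ j).hom := by
  haveI hfin := tlHomTo_isFinPTorsion p A μ (tl_mu_finite p μ hμ)
  have hinj : Function.Injective (tlEvalAt A μ j).hom := by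
    rw [injective_iff_map_eq_zero]
    intro a ha
    by_contra hne
    obtain ⟨f, hf⟩ := @tl_exists_intLin_ne_zero p _ (A.C j).V (μ.C j).V _ _ (A.C j).hV2
      (μ.C j).hV2 (IsFinPTorsion.torsion (p := p) (A := A) j) (hμ j) a hne
    apply hf
    have h1 := tlEvalAt_apply A μ j a f
    rw [← h1, ha]
    rfl
  have hc1 : Nat.card ((A.homTo μ).C j).V = Nat.card (A.C j).V :=
    @tl_card_intLin p _ (A.C j).V (μ.C j).V _ _ (A.C j).hV2 (μ.C j).hV2
      (IsFinPTorsion.finite (p := p) j) (IsFinPTorsion.torsion (p := p) (A := A) j) (hμ j)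
  have hc2 : Nat.card (((A.homTo μ).homTo μ).C j).V = Nat.card ((A.homTo μ).C j).V :=
    @tl_card_intLin p _ ((A.homTo μ).C j).V (μ.C j).V _ _ ((A.homTo μ).C j).hV2 (μ.C j).hV2
      (IsFinPTorsion.finite (p := p) j) (IsFinPTorsion.torsion (p := p) (A := A.homTo μ) j) (hμ j)
  haveI : Finite (A.C j).V := IsFinPTorsion.finite (p := p) j
  haveI : Finite (((A.homTo μ).homTo μ).C j).V := by
    apply Nat.finite_of_card_ne_zero
    rw [hc2, hc1]
    exact Nat.card_pos.ne'
  exact (Nat.bijective_iff_injective_and_card _).2 ⟨hinj, (hc2.trans hc1).symm⟩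

include hμ in
theorem tlEvalHom_isIso (j : T.ι) : IsIso ((tlEvalHom A μ).f j) :=
  repIsIso_of_bijective _ (tlEvalAt_bijective p A μ hμ j)

/-- **the double dual isomorphism** `A ≅ Hom(Hom(A, μ), μ)` -/
def tlEvalIso : A.Iso ((A.homTo μ).homTo μ) :=
  haveI : ∀ j, IsIso ((tlEvalHom A μ).f j) := tlEvalHom_isIso p A μ hμ
  (tlEvalHom A μ).toIso

end iso

end

end Fermat.Agent.TW
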