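import Fermat.Agent.Lib.TW.Local.AbsDuality
import Fermat.Agent.Lib.CFT.Bridge.LocalTowerHur
import Fermat.Agent.Lib.CFT.Bridge.LocalPDiv
import Fermat.Agent.Lib.CFT.Bridge.LocalFields
import Fermat.Agent.Lib.CFT.Duality.InvOfFundamental
import Fermat.Agent.Lib.CFT.Duality.LocInj

/-!
# P10 / G2 (local cohomology), part 3 : local Tate duality over the FULL local tower at `q`

For a level `L₀ ⊇ μ_p` and a rational prime `q` (`q = p` allowed), over the full local tower
`towerLoc q L₀` (decomposition groups at `q` in ALL levels above `L₀`, i.e. the tower of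
`Gal(ℚ̄_q / (L₀)_{w₀})`) with the class formation `Lqtow q L₀` (`L ↦ L_{w₀}^×`), for every finite
`p`-torsion cartesian tower module `A`:

* `tlLoc_alpha1_bijective`, `tlLoc_alpha2_bijective` : `α¹`, `α²` are bijective;
* `tlLocDual1 : H¹(Hom(A, μ_p)) ≃ H¹(A)^∨`, `tlLocDual2 : H²(Hom(A, μ_p)) ≃ H⁰(A)^∨`;
* `tlLoc_finite_hlim_one`, `tlLoc_card_hlim_one_dual`, `tlLoc_card_hlim_two_dual`.
-/

set_option autoImplicit false
set_option linter.unusedSectionVars false
set_option linter.style.haveILetI false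

open CategoryTheory

namespace Fermat.Agent.TW

open Fermat.Agent.CFT Fermat.Agent.CFT.Duality Fermat.Agent.CFT.Duality.TowerModule
  Fermat.Agent.CFT.Bridge

noncomputable section

variable (p : ℕ) [hp : Fact p.Prime] (q : Nat.Primes) (L₀ : Level)

/-- the bottom level of the full local tower -/
def tlBot : (towerLoc q L₀).ι := (⟨L₀, le_refl L₀⟩ : {L : Level // L₀ ≤ L})

lemma tlBot_le (l : (towerLoc q L₀).ι) : tlBot q L₀ ≤ l := l.2

/-- the `p`-class formation of the full local tower at `q` (Frobenius-normalised invariants) -/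
def tlLocCF : PClassFormation p (towerLoc q L₀) (Lqtow q L₀) :=
  (pFundamentalLqtow q L₀ p).toPClassFormation

/-- `L_{w₀}^×` is `p`-divisible in the limit -/
lemma tlLoc_isPDiv : (Lqtow q L₀).IsPDiv p := Lqtow_pdiv q p L₀

/-- `μ_p` over the full local tower -/
abbrev tlMuLoc : TowerModule ℤ (towerLoc q L₀) := (muTow p L₀).resSub (decompFamily q L₀)

variable {p L₀} (hμ : HasMu p L₀)

include hμ in
lemma tlMuLoc_isCartesian : (tlMuLoc p q L₀).IsCartesian :=
  haveI := muTow_isCartesian hμ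
  inferInstance

include hμ in
lemma tlMuLoc_card (l : (towerLoc q L₀).ι) : Nat.card ((tlMuLoc p q L₀).C l) = p :=
  muTow_card hμ l

variable (A : TowerModule ℤ (towerLoc q L₀)) [A.IsCartesian] [A.IsFinPTorsion p]

include hμ in
/-- **local Tate duality**: `α¹(A)` is bijective over the full local tower -/
theorem tlLoc_alpha1_bijective :
    Function.Bijective ((tlLocCF p q L₀).limFormation.alpha A 1 1 rfl) :=
  haveI := tlMuLoc_isCartesian q hμ
  tl_alpha1_bijective (tlLocCF p q L₀) (tlBot_le q L₀) (tlLoc_isPDiv p q L₀) (tlMuLoc p q L₀)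
    (tlMuLoc_card q hμ) (kappaLoc p L₀ q) (kappaLoc_injective p L₀ q) (kappaLoc_surjective hμ q) A

/-- `α²(A)` is bijective over the full local tower -/
theorem tlLoc_alpha2_bijective :
    Function.Bijective ((tlLocCF p q L₀).limFormation.alpha A 2 0 rfl) :=
  alpha2_bijective (tlLocCF p q L₀) (tlBot_le q L₀) A

variable (p) in
include p in
/-- `H¹(A)` is finite over the full local tower -/
theorem tlLoc_finite_hlim_one : Finite (HLim A 1) :=
  finite_hlim_one (tlLocCF p q L₀) (tlBot_le q L₀) A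

variable (p) in
include p in
/-- `H⁰(A)` is finite over the full local tower -/
theorem tlLoc_finite_hlim_zero : Finite (HLim A 0) :=
  haveI : Finite (A.C (tlBot q L₀)) := IsFinPTorsion.finite (p := p) _
  finite_hlim_zero A (tlBot_le q L₀)

/-- **local Tate duality in degree 1** over the full local tower: `H¹(Hom(A, μ_p)) ≃ H¹(A)^∨` -/
def tlLocDual1 : HLim (A.homTo (tlMuLoc p q L₀)) 1 ≃+ (HLim A 1 →+ AddCircle (1 : ℚ)) :=
  haveI := tlMuLoc_isCartesian q hμ
  tlDual1 (tlLocCF p q L₀) (tlBot_le q L₀) (tlLoc_isPDiv p q L₀) (tlMuLoc p q L₀)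
    (tlMuLoc_card q hμ) (kappaLoc p L₀ q) (kappaLoc_injective p L₀ q) (kappaLoc_surjective hμ q) A

/-- **local Tate duality in degree 2** over the full local tower: `H²(Hom(A, μ_p)) ≃ H⁰(A)^∨` -/
def tlLocDual2 : HLim (A.homTo (tlMuLoc p q L₀)) 2 ≃+ (HLim A 0 →+ AddCircle (1 : ℚ)) :=
  haveI := tlMuLoc_isCartesian q hμ
  tlDual2 (tlLocCF p q L₀) (tlBot_le q L₀) (tlLoc_isPDiv p q L₀) (tlMuLoc p q L₀)
    (kappaLoc p L₀ q) (kappaLoc_injective p L₀ q) (kappaLoc_surjective hμ q) A

include hμ in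
/-- `|H¹(Hom(A, μ_p))| = |H¹(A)|` over the full local tower -/
theorem tlLoc_card_hlim_one_dual :
    Nat.card (HLim (A.homTo (tlMuLoc p q L₀)) 1) = Nat.card (HLim A 1) :=
  haveI := tlMuLoc_isCartesian q hμ
  tl_card_hlim_one_dual (tlLocCF p q L₀) (tlBot_le q L₀) (tlLoc_isPDiv p q L₀) (tlMuLoc p q L₀)
    (tlMuLoc_card q hμ) (kappaLoc p L₀ q) (kappaLoc_injective p L₀ q) (kappaLoc_surjective hμ q) A

include hμ in
/-- `|H²(Hom(A, μ_p))| = |H⁰(A)|` over the full local tower -/
theorem tlLoc_card_hlim_two_dual :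
    Finite (HLim (A.homTo (tlMuLoc p q L₀)) 2) ∧
      Nat.card (HLim (A.homTo (tlMuLoc p q L₀)) 2) = Nat.card (HLim A 0) :=
  haveI := tlMuLoc_isCartesian q hμ
  tl_card_hlim_two_dual (tlLocCF p q L₀) (tlBot_le q L₀) (tlLoc_isPDiv p q L₀) (tlMuLoc p q L₀)
    (tlMuLoc_card q hμ) (kappaLoc p L₀ q) (kappaLoc_injective p L₀ q) (kappaLoc_surjective hμ q) A

end

end Fermat.Agent.TW
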