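import Mathlib

/-!
# P10 / G2 (local cohomology), part 6 : lifting `𝔽_p`-valued balanced pairings to `k`-bilinear ones

For a finite field `k` of characteristic `p` (`[Algebra (ZMod p) k]`) with trace `tr : k → 𝔽_p`:

* `tlTrLift` : every additive `f : k → 𝔽_p` is `a ↦ tr (a * c)` for a unique `c = tlTrLift f`;
* `tlLiftK B₀ hbal : V →ₗ[k] W →ₗ[k] k` for a biadditive `B₀ : V → W → 𝔽_p` which is `k`-balanced
  (`B₀ (a • x) y = B₀ x (a • y)`), characterised by `tr (a * tlLiftK x y) = B₀ (a • x) y`;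
* orthogonality w.r.t. `tlLiftK` of `k`-submodules is orthogonality w.r.t. `B₀`.
-/

set_option autoImplicit false
set_option linter.unusedSectionVars false

namespace Fermat.Agent.TW

noncomputable section

variable (p : ℕ) [hp : Fact p.Prime] (k : Type*) [Field k] [Algebra (ZMod p) k] [Finite k]

/-- the trace `k → 𝔽_p` as an additive map -/
def tlTr : k →+ ZMod p := (Algebra.trace (ZMod p) k).toAddMonoidHom

lemma tlTr_apply (a : k) : tlTr p k a = Algebra.trace (ZMod p) k a := rfl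

variable {k}

/-- the element `c` with `f a = tr (a * c)` -/
def tlTrLift (f : k →+ ZMod p) : k :=
  ((Algebra.traceForm (ZMod p) k).toDual (traceForm_nondegenerate (ZMod p) k)).symm
    (f.toZModLinearMap p)

theorem tlTr_mul_tlTrLift (f : k →+ ZMod p) (a : k) : tlTr p k (a * tlTrLift p f) = f a := by
  have h := LinearMap.BilinForm.apply_toDual_symm_apply
    (B := Algebra.traceForm (ZMod p) k) (hB := traceForm_nondegenerate (ZMod p) k)
    (f.toZModLinearMap p) a
  rw [Algebra.traceForm_apply] at h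
  rw [mul_comm]
  exact h

theorem tl_eq_zero_of_tlTr_mul_eq_zero (c : k) (h : ∀ a : k, tlTr p k (a * c) = 0) : c = 0 := by
  have hnd := traceForm_nondegenerate (ZMod p) k
  apply hnd.1 c
  intro a
  rw [Algebra.traceForm_apply, mul_comm]
  exact h a

theorem tlTrLift_unique (f : k →+ ZMod p) (c : k) (h : ∀ a : k, tlTr p k (a * c) = f a) :
    c = tlTrLift p f := by
  rw [← sub_eq_zero]
  apply tl_eq_zero_of_tlTr_mul_eq_zero p
  intro a
  rw [mul_sub, map_sub, h, tlTr_mul_tlTrLift, sub_self]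

/-! ### Lifting balanced pairings -/

variable {V W : Type*} [AddCommGroup V] [Module k V] [AddCommGroup W] [Module k W]
  (B₀ : V →+ W →+ ZMod p) (hbal : ∀ (a : k) (x : V) (y : W), B₀ (a • x) y = B₀ x (a • y))

/-- `a ↦ B₀ (a • x) y` -/
def tlSlice (x : V) (y : W) : k →+ ZMod p where
  toFun a := B₀ (a • x) y
  map_zero' := by rw [zero_smul, map_zero, AddMonoidHom.zero_apply]
  map_add' a a' := by rw [add_smul, map_add, AddMonoidHom.add_apply]

@[simp] lemma tlSlice_apply (x : V) (y : W) (a : k) : tlSlice p B₀ x y a = B₀ (a • x) y := rfl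

/-- the value of the lifted pairing -/
def tlLiftVal (x : V) (y : W) : k := tlTrLift p (tlSlice p B₀ x y)

theorem tlTr_mul_tlLiftVal (x : V) (y : W) (a : k) :
    tlTr p k (a * tlLiftVal p B₀ x y) = B₀ (a • x) y :=
  tlTr_mul_tlTrLift p (tlSlice p B₀ x y) a

theorem tlLiftVal_eq (x : V) (y : W) (c : k) (h : ∀ a : k, tlTr p k (a * c) = B₀ (a • x) y) :
    tlLiftVal p B₀ x y = c :=
  (tlTrLift_unique p (tlSlice p B₀ x y) c h).symm

include hbal in
/-- **the `k`-bilinear lift of a balanced `𝔽_p`-valued pairing** -/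
def tlLiftK : V →ₗ[k] W →ₗ[k] k :=
  LinearMap.mk₂ k (tlLiftVal p B₀)
    (fun x x' y => tlLiftVal_eq p B₀ _ _ _ (fun a => by
      rw [mul_add, map_add, tlTr_mul_tlLiftVal, tlTr_mul_tlLiftVal, smul_add, map_add,
        AddMonoidHom.add_apply]))
    (fun c x y => tlLiftVal_eq p B₀ _ _ _ (fun a => by
      rw [smul_eq_mul, ← mul_assoc, tlTr_mul_tlLiftVal, smul_smul]))
    (fun x y y' => tlLiftVal_eq p B₀ _ _ _ (fun a => by
      rw [mul_add, map_add, tlTr_mul_tlLiftVal, tlTr_mul_tlLiftVal, map_add]))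
    (fun c x y => tlLiftVal_eq p B₀ _ _ _ (fun a => by
      rw [smul_eq_mul, ← mul_assoc, tlTr_mul_tlLiftVal, ← hbal, smul_smul, mul_comm]))

theorem tlLiftK_apply (x : V) (y : W) : tlLiftK p B₀ hbal x y = tlLiftVal p B₀ x y := rfl

theorem tlTr_mul_tlLiftK (a : k) (x : V) (y : W) :
    tlTr p k (a * tlLiftK p B₀ hbal x y) = B₀ (a • x) y :=
  tlTr_mul_tlLiftVal p B₀ x y a

theorem tlTr_tlLiftK (x : V) (y : W) : tlTr p k (tlLiftK p B₀ hbal x y) = B₀ x y := by
  have h := tlTr_mul_tlLiftK p B₀ hbal 1 x y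
  rwa [one_mul, one_smul] at h

/-- orthogonality to a `k`-submodule w.r.t. the lift is orthogonality w.r.t. `B₀` -/
theorem tlLiftK_orth_iff (L : Submodule k V) (y : W) :
    (∀ x ∈ L, tlLiftK p B₀ hbal x y = 0) ↔ ∀ x ∈ L, B₀ x y = 0 := by
  constructor
  · intro h x hx
    rw [← tlTr_tlLiftK p B₀ hbal, h x hx, map_zero]
  · intro h x hx
    apply tl_eq_zero_of_tlTr_mul_eq_zero p
    intro a
    rw [tlTr_mul_tlLiftK]
    exact h _ (L.smul_mem a hx)

/-- orthogonality to a `k`-submodule in the second variable -/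
theorem tlLiftK_orth_iff' (L : Submodule k W) (x : V) :
    (∀ y ∈ L, tlLiftK p B₀ hbal x y = 0) ↔ ∀ y ∈ L, B₀ x y = 0 := by
  constructor
  · intro h y hy
    rw [← tlTr_tlLiftK p B₀ hbal, h y hy, map_zero]
  · intro h y hy
    apply tl_eq_zero_of_tlTr_mul_eq_zero p
    intro a
    rw [tlTr_mul_tlLiftK, hbal]
    exact h _ (L.smul_mem a hy)

end

end Fermat.Agent.TW
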