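import Fermat.Agent.Lib.TW.Local.DoubleDual
import Fermat.Agent.Lib.TW.Local.TraceLift
import Fermat.Agent.Lib.CFT.Duality.DualTwistTower

/-!
# P10 / G2 (local cohomology), part 7 : `M^*(1) ≅ Hom(M, μ_p)` as tower modules, general `k`

For a finite field `k` of characteristic `p`, `M : Rep k G_ℚ` finite dimensional, `χ : G_ℚ → kˣ`
the mod `p` cyclotomic character (`(χ σ : k) = algebraMap (cycloChar p σ)`), `M' = M.dualTwist χ`, and a
cartesian tower module `μ` of order `p` on which `G_ℚ` acts through the cyclotomic character: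

* `tlTwHom : (towerOf M' L₀ hM').Hom ((towerOf M L₀ hM).homTo μ)`,
  `f ↦ (m ↦ tr_{k/𝔽_p}(f m) • ζ)`; it is a levelwise isomorphism (`tlTwHom_isIso`, `tlTwIso`);
* `tlTwHom_smul` : multiplication by `a ∈ k` on `M'` corresponds to precomposition with the
  multiplication by `a` on `M`.
-/

set_option autoImplicit false
set_option linter.unusedSectionVars false
set_option linter.style.haveILetI false

open CategoryTheory ExtCitation

namespace Fermat.Agent.TW

open Fermat.Agent.CFT Fermat.Agent.CFT.Duality Fermat.Agent.CFT.Duality.TowerModule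

noncomputable section

/-! ### Algebra -/

section algebra

variable (p : ℕ) [hp : Fact p.Prime] {k : Type} [Field k] [Algebra (ZMod p) k] [Finite k]
  {V : Type} [AddCommGroup V] [Module k V] [FiniteDimensional k V]
  {W : Type} [AddCommGroup W] [Module ℤ V] [Module ℤ W]

variable (k) in
include k in
lemma tl_nsmul_eq_zero_of_algebra (v : V) : p • v = 0 := by
  have h1 : ((p : ℕ) : k) = 0 := by
    have h2 : ((p : ℕ) : k) = algebraMap (ZMod p) k ((p : ℕ) : ZMod p) := (map_natCast _ p).symm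
    rw [h2, ZMod.natCast_self, map_zero]
  rw [← Nat.cast_smul_eq_nsmul k p v, h1, zero_smul]

variable (k V) in
include k in
lemma tl_finite_of_finiteDimensional : Finite V := Module.finite_of_finite k

/-- `f ↦ (m ↦ tr (f m) • ζ)` : `V^* → Hom_ℤ(V, W)` -/
def tlTwPair {ζ : W} (hζ : p • ζ = 0) : Module.Dual k V →+ (V →ₗ[ℤ] W) where
  toFun f := addHomToIntLin ((valSmul p hζ).comp ((tlTr p k).comp f.toAddMonoidHom))
  map_zero' := by
    apply LinearMap.ext
    intro m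
    change valSmul p hζ (tlTr p k ((0 : Module.Dual k V) m)) = 0
    rw [LinearMap.zero_apply, map_zero, map_zero]
  map_add' f f' := by
    apply LinearMap.ext
    intro m
    change valSmul p hζ (tlTr p k ((f + f') m)) =
      valSmul p hζ (tlTr p k (f m)) + valSmul p hζ (tlTr p k (f' m))
    rw [LinearMap.add_apply, map_add, map_add]

@[simp] lemma tlTwPair_apply {ζ : W} (hζ : p • ζ = 0) (f : Module.Dual k V) (m : V) :
    tlTwPair p hζ f m = (tlTr p k (f m)).val • ζ := rfl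

lemma tlTwPair_injective {ζ : W} (hζ : p • ζ = 0) (hζ0 : ζ ≠ 0) :
    Function.Injective (tlTwPair (k := k) (V := V) p hζ) := by
  rw [injective_iff_map_eq_zero]
  intro f hf
  by_contra hne
  obtain ⟨m₀, hm₀⟩ : ∃ m₀, f m₀ ≠ 0 := by
    by_contra h
    push Not at h
    exact hne (LinearMap.ext h)
  have h1 : ∀ a : k, tlTr p k (a * 1) = 0 := by
    intro a
    have h2 : tlTwPair p hζ f ((a * (f m₀)⁻¹) • m₀) = 0 := by rw [hf]; rfl
    rw [tlTwPair_apply, map_smul, smul_eq_mul, mul_assoc, inv_mul_cancel₀ hm₀] at h2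
    have h3 : valSmul p hζ (tlTr p k (a * 1)) = valSmul p hζ 0 := by
      rw [map_zero]
      exact h2
    exact valSmul_injective p hζ hζ0 h3
  exact one_ne_zero (tl_eq_zero_of_tlTr_mul_eq_zero p (1 : k) h1)

lemma tlTwPair_bijective {ζ : W} (hζ : p • ζ = 0) (hζ0 : ζ ≠ 0) (hW : Nat.card W = p) :
    Function.Bijective (tlTwPair (k := k) (V := V) p hζ) := by
  haveI : Finite V := tl_finite_of_finiteDimensional k V
  haveI : Finite (Module.Dual k V) := Module.finite_of_finite k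
  have hc1 : Nat.card (Module.Dual k V) = Nat.card V := by
    rw [Module.natCard_eq_pow_finrank (K := k) (V := Module.Dual k V),
      Module.natCard_eq_pow_finrank (K := k) (V := V), Subspace.dual_finrank_eq]
  have hc2 : Nat.card (V →ₗ[ℤ] W) = Nat.card V :=
    tl_card_intLin p (tl_nsmul_eq_zero_of_algebra p k) hW
  haveI : Finite (V →ₗ[ℤ] W) := by
    apply Nat.finite_of_card_ne_zero
    rw [hc2]
    exact Nat.card_pos.ne'
  exact (Nat.bijective_iff_injective_and_card _).2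
    ⟨tlTwPair_injective p hζ hζ0, hc1.trans hc2.symm⟩

end algebra

/-! ### The tower modules -/

section tower

variable (p : ℕ) [hp : Fact p.Prime] {k : Type} [Field k] [Algebra (ZMod p) k] [Finite k]
  (M : Rep.{0} k GQ) [FiniteDimensional k M.V] (χ : GQ →* kˣ)
  (hχ : ∀ σ, ((χ σ : kˣ) : k) = algebraMap (ZMod p) k ((cycloChar p σ : (ZMod p)ˣ) : ZMod p))
  (L₀ : Level) (hM : TrivialOn M L₀) (hM' : TrivialOn (M.dualTwist χ) L₀)
  (μ : TowerModule ℤ (levelTower L₀)) [μ.IsCartesian]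
  (hcard : ∀ L, Nat.card (μ.C L) = p)
  (hcyc : ∀ (L : (levelTower L₀).ι) (σ : GQ) (m : μ.C L),
    (μ.C L).ρ (L.1.proj σ) m = ((cycloChar p σ : (ZMod p)ˣ) : ZMod p).val • m)
  (ζ₀ : μ.C (baseLevel L₀))

/-- the tower module `Hom(M, μ)` -/
abbrev tlHomMu : TowerModule ℤ (levelTower L₀) := (towerOf M L₀ hM).homTo μ

/-- the carrier of `Hom(M, μ)` at level `L`, with the module structures of the tower modules -/
abbrev tlHomMuV (L : (levelTower L₀).ι) : Type :=
  @LinearMap ℤ ℤ _ _ (RingHom.id ℤ) M.V (μ.C L).V _ _ (AddCommGroup.toIntModule M.V) (μ.C L).hV2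

/-- the pairing map at level `L`, as an additive map -/
def tlTwAddAt (L : (levelTower L₀).ι) : Module.Dual k M.V →+ tlHomMuV M L₀ μ L :=
  @tlTwPair p _ k _ _ M.V _ _ (μ.C L).V _ (AddCommGroup.toIntModule M.V) (μ.C L).hV2
    (zetaAt L₀ μ ζ₀ L) (nsmul_eq_zero_of_card p L₀ μ hcard L (zetaAt L₀ μ ζ₀ L))

lemma tlTwAddAt_apply (L : (levelTower L₀).ι) (f : Module.Dual k M.V) (m : M.V) :
    tlTwAddAt p M L₀ μ hcard ζ₀ L f m = (tlTr p k (f m)).val • zetaAt L₀ μ ζ₀ L := rfl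

include hχ hcyc in
lemma tlTwAddAt_equivariant (L : (levelTower L₀).ι) (σ : GQ) (f : Module.Dual k M.V) (m : M.V) :
    tlTwAddAt p M L₀ μ hcard ζ₀ L ((M.dualTwist χ).ρ σ f) m =
      (μ.C L).ρ (L.1.proj σ) (tlTwAddAt p M L₀ μ hcard ζ₀ L f (M.ρ σ⁻¹ m)) := by
  have hζ := nsmul_eq_zero_of_card p L₀ μ hcard L (zetaAt L₀ μ ζ₀ L)
  rw [tlTwAddAt_apply, tlTwAddAt_apply, map_nsmul, hcyc, Rep.dualTwist_ρ_apply,
    val_nsmul_val_nsmul p hζ]
  congr 2
  rw [LinearMap.smul_apply, LinearMap.comp_apply, hχ]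
  have h5 : ∀ (c : ZMod p) (x : k), (algebraMap (ZMod p) k c) • x = c • x := fun c x => by
    rw [smul_eq_mul, Algebra.smul_def]
  rw [h5, tlTr_apply, tlTr_apply, map_smul, smul_eq_mul, mul_comm]

/-- the pairing map at level `L`, as a `ℤ`-linear map between the carriers of the tower modules -/
def tlTwLinAt (L : (levelTower L₀).ι) :
    @LinearMap ℤ ℤ _ _ (RingHom.id ℤ) ((towerOf (M.dualTwist χ) L₀ hM').C L).V
      ((tlHomMu M L₀ hM μ).C L).V _ _ ((towerOf (M.dualTwist χ) L₀ hM').C L).hV2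
      ((tlHomMu M L₀ hM μ).C L).hV2 :=
  @addHomToIntLin (Module.Dual k M.V) (tlHomMuV M L₀ μ L) _ _
    ((towerOf (M.dualTwist χ) L₀ hM').C L).hV2 ((tlHomMu M L₀ hM μ).C L).hV2
    (tlTwAddAt p M L₀ μ hcard ζ₀ L)

/-- the pairing map at level `L`, as a morphism of representations -/
def tlTwHomAt (L : (levelTower L₀).ι) :
    (towerOf (M.dualTwist χ) L₀ hM').C L ⟶ (tlHomMu M L₀ hM μ).C L :=
  repHomMk ((towerOf (M.dualTwist χ) L₀ hM').C L) ((tlHomMu M L₀ hM μ).C L)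
    (tlTwLinAt p M χ L₀ hM hM' μ hcard ζ₀ L) (fun g f => by
      obtain ⟨σ, rfl⟩ := L.1.proj_surjective g
      change (_ : tlHomMuV M L₀ μ L) = _
      refine DFunLike.ext _ _ (fun m => ?_)
      refine (tlTwAddAt_equivariant p M χ hχ L₀ μ hcard hcyc ζ₀ L σ f m).trans ?_
      rfl)

lemma tlTwHomAt_apply (L : (levelTower L₀).ι) (f : Module.Dual k M.V) (m : M.V) :
    (show tlHomMuV M L₀ μ L from (tlTwHomAt p M χ hχ L₀ hM hM' μ hcard hcyc ζ₀ L).hom f) m =
      (tlTr p k (f m)).val • zetaAt L₀ μ ζ₀ L := rfl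

/-- **the morphism of tower modules `M^*(1) → Hom(M, μ)`** -/
def tlTwHom : (towerOf (M.dualTwist χ) L₀ hM').Hom (tlHomMu M L₀ hM μ) where
  f L := tlTwHomAt p M χ hχ L₀ hM hM' μ hcard hcyc ζ₀ L
  comm {L L'} h := by
    refine towerHom_comm_of_apply _ h (fun (f : Module.Dual k M.V) => ?_)
    change (_ : tlHomMuV M L₀ μ L') = _
    refine DFunLike.ext _ _ (fun m => ?_)
    change (tlTr p k (f m)).val • zetaAt L₀ μ ζ₀ L' =
      (μ.φ h).hom ((tlTr p k (f ((inv ((towerOf M L₀ hM).φ h)).hom m))).val • zetaAt L₀ μ ζ₀ L)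
    rw [inv_towerOf_φ_apply, map_nsmul, φ_zetaAt]

include hcard in
lemma tlTwHomAt_bijective (h0 : ζ₀ ≠ 0) (L : (levelTower L₀).ι) :
    Function.Bijective (tlTwHomAt p M χ hχ L₀ hM hM' μ hcard hcyc ζ₀ L).hom :=
  @tlTwPair_bijective p _ k _ _ _ M.V _ _ _ (μ.C L).V _ (AddCommGroup.toIntModule M.V) (μ.C L).hV2
    (zetaAt L₀ μ ζ₀ L) (nsmul_eq_zero_of_card p L₀ μ hcard L (zetaAt L₀ μ ζ₀ L))
    (zetaAt_ne_zero L₀ μ h0 L) (hcard L)

include hcard in
lemma tlTwHom_isIso (h0 : ζ₀ ≠ 0) (L : (levelTower L₀).ι) :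
    IsIso ((tlTwHom p M χ hχ L₀ hM hM' μ hcard hcyc ζ₀).f L) :=
  repIsIso_of_bijective _ (tlTwHomAt_bijective p M χ hχ L₀ hM hM' μ hcard hcyc ζ₀ h0 L)

/-- **`M^*(1) ≅ Hom(M, μ)`** as tower modules -/
def tlTwIso (h0 : ζ₀ ≠ 0) : (towerOf (M.dualTwist χ) L₀ hM').Iso (tlHomMu M L₀ hM μ) :=
  haveI : ∀ L, IsIso ((tlTwHom p M χ hχ L₀ hM hM' μ hcard hcyc ζ₀).f L) :=
    tlTwHom_isIso p M χ hχ L₀ hM hM' μ hcard hcyc ζ₀ h0
  (tlTwHom p M χ hχ L₀ hM hM' μ hcard hcyc ζ₀).toIso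

end tower

end

end Fermat.Agent.TW
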