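import Fermat.Agent.Lib.TW.Local.AbsDuality
import Fermat.Agent.Lib.CFT.Duality.ThetaNat

/-!
# P10 / G2 (local cohomology), part 5 : naturality of local Tate duality in the module

For a morphism `g : A₁ → A₂` of finite `p`-torsion cartesian tower modules, with
`tlHomPre g B : Hom(A₂, B) → Hom(A₁, B)`, `v ↦ v ∘ g`:

* `tlTheta1_mapLeft` : `θ¹_{A₁}(g^* ξ) = H¹(tlHomPre g μ)(θ¹_{A₂} ξ)`;
* `tlDual1_natural` : `⟨H¹(tlHomPre g μ) y, x⟩_{A₁} = ⟨y, H¹(g) x⟩_{A₂}` (adjointness).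
-/

set_option autoImplicit false
set_option linter.unusedSectionVars false
set_option linter.style.haveILetI false

open CategoryTheory Abelian

namespace Fermat.Agent.TW

open Fermat.Agent.CFT.Duality Fermat.Agent.CFT.Duality.TowerModule

noncomputable section

/-! ### Precomposition (generic coefficient ring) -/

section pre

variable {k : Type} [CommRing k] {T : Tower} {A₁ A₂ : TowerModule k T} [A₁.IsCartesian]
  [A₂.IsCartesian] (g : A₁.Hom A₂)

/-- a morphism of tower modules, contravariantly along the identity of the tower -/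
def tlCoHomOfHom : CoHomAlong (TowerMor.id T) A₂ A₁ where
  f i := g.f i
  comm h x := g.comm_apply h x

/-- `Hom(A₂, B) → Hom(A₁, B)`, `v ↦ v ∘ g` -/
def tlHomPre (B : TowerModule k T) : (A₂.homTo B).Hom (A₁.homTo B) :=
  Hom.mk' (fun i => (homA (tlCoHomOfHom g) (HomAlong.ofHom (Hom.id B))).f i)
    (fun hij x => (homA (tlCoHomOfHom g) (HomAlong.ofHom (Hom.id B))).comm hij x)

lemma tlHomPre_apply (B : TowerModule k T) (i : T.ι) (v : (A₂.C i).V →ₗ[k] (B.C i).V)
    (x : (A₁.C i).V) :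
    (show (A₁.C i).V →ₗ[k] (B.C i).V from ((tlHomPre g B).f i).hom v) x = v ((g.f i).hom x) := rfl

/-- `pull` along the identity with a contravariant morphism is `mapLeft` -/
theorem tl_pull_coHomOfHom (B : TowerModule k T) (r : ℕ) (x : ExtLim A₂ B r) :
    ExtLim.pull (tlCoHomOfHom g) (HomAlong.ofHom (Hom.id B)) r x = ExtLim.mapLeft B g r x := by
  induction x using ExtLim.induction_on with
  | h i ξ =>
    rw [ExtLim.pull_of, ExtLim.mapLeft_of]
    congr 1
    change extPull (MonoidHom.id _) (g.f i) (𝟙 (B.C i)) r ξ = _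
    rw [extPull_apply, mapExactFunctor_res_id]
    congr 1
    exact Ext.comp_mk₀_id _

/-- `pull` of cohomology along the identity with `homA` is `mapRight` of `tlHomPre` -/
theorem tl_pull_homA (B : TowerModule k T) (r : ℕ) (y : HLim (A₂.homTo B) r) :
    ExtLim.pull (CoHomAlong.triv (TowerMor.id T))
        (homA (tlCoHomOfHom g) (HomAlong.ofHom (Hom.id B))) r y =
      ExtLim.mapRight (triv k T) (tlHomPre g B) r y := by
  rw [← ExtLim.pull_id_ofHom]
  exact ExtLim.pull_congr _ _ _ _ (fun _ _ => rfl) (fun _ _ => rfl) r y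

/-- `tlHomPre` commutes with `homToMap` -/
lemma tlHomPre_homToMap {B B' : TowerModule k T} (f : B.Hom B') :
    (tlHomPre g B).comp (homToMap A₁ f) = (homToMap A₂ f).comp (tlHomPre g B') := by
  refine Hom.ext' (fun i => ?_)
  apply Rep.hom_ext
  refine DFunLike.ext _ _ (fun (v : (A₂.C i).V →ₗ[k] (B.C i).V) => ?_)
  rfl

end pre

/-! ### Naturality of the Kummer comparison and of the duality -/

section nat

variable {p : ℕ} [hp : Fact p.Prime] {T : Tower} {C : TowerModule ℤ T}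
  (cf : PClassFormation p T C) {b : T.ι} (hb : ∀ l, b ≤ l) (hC : C.IsPDiv p)
  (μ : TowerModule ℤ T) [μ.IsCartesian] (hμ : ∀ l, Nat.card (μ.C l) = p)
  (κ : μ.Hom C) (hinj : ∀ j, Function.Injective (κ.f j).hom)
  (hsurj : ∀ j (e : C.C j), p • e = 0 → ∃ m : μ.C j, (κ.f j).hom m = e)
  {A₁ A₂ : TowerModule ℤ T} [A₁.IsCartesian] [A₁.IsFinPTorsion p] [A₂.IsCartesian]
  [A₂.IsFinPTorsion p] (g : A₁.Hom A₂)

/-- `θ¹` is natural in the first variable -/
theorem tl_theta1Lim_mapLeft (ξ : ExtLim A₂ C 1) :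
    theta1Lim A₁ C p (fun j => rep_moduleFinite (A₁.C j) (IsFinPTorsion.finite (p := p) j))
        (IsFinPTorsion.torsion (p := p) (A := A₁)) hC (ExtLim.mapLeft C g 1 ξ) =
      ExtLim.mapRight (triv ℤ T) (tlHomPre g C) 1
        (theta1Lim A₂ C p (fun j => rep_moduleFinite (A₂.C j) (IsFinPTorsion.finite (p := p) j))
          (IsFinPTorsion.torsion (p := p) (A := A₂)) hC ξ) := by
  rw [← tl_pull_coHomOfHom, ← tl_pull_homA]
  exact theta1Lim_pull (tlCoHomOfHom g) (HomAlong.ofHom (Hom.id C)) p _ _ _ _ hC hC ξ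

/-- the Kummer comparison `tlTheta1` is natural in the first variable -/
theorem tlTheta1_mapLeft (ξ : ExtLim A₂ C 1) :
    tlTheta1 hC μ κ hinj hsurj A₁ (ExtLim.mapLeft C g 1 ξ) =
      ExtLim.mapRight (triv ℤ T) (tlHomPre g μ) 1 (tlTheta1 hC μ κ hinj hsurj A₂ ξ) := by
  unfold tlTheta1
  rw [AddEquiv.trans_apply, AddEquiv.trans_apply, AddEquiv.symm_apply_eq,
    tl_theta1Lim_mapLeft hC g ξ]
  change _ = ExtLim.mapRight (triv ℤ T) (homToMap A₁ κ) 1 _
  rw [← ExtLim.mapRight_comp, tlHomPre_homToMap, ExtLim.mapRight_comp]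
  congr 1
  exact ((tlKappaEquiv μ κ hinj hsurj A₂ 1).apply_symm_apply _).symm

/-- **adjointness**: `⟨(g^*) y, x⟩_{A₁} = ⟨y, g_* x⟩_{A₂}` -/
theorem tlDual1_natural (y : HLim (A₂.homTo μ) 1) (x : HLim A₁ 1) :
    tlDual1 cf hb hC μ hμ κ hinj hsurj A₁ (ExtLim.mapRight (triv ℤ T) (tlHomPre g μ) 1 y) x =
      tlDual1 cf hb hC μ hμ κ hinj hsurj A₂ y (ExtLim.mapRight (triv ℤ T) g 1 x) := by
  rw [tlDual1_apply, tlDual1_apply]
  obtain ⟨ξ, rfl⟩ := (tlTheta1 hC μ κ hinj hsurj A₂).surjective y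
  rw [← tlTheta1_mapLeft, AddEquiv.symm_apply_apply, AddEquiv.symm_apply_apply,
    cf.limFormation.alpha_mapLeft]

end nat

end

end Fermat.Agent.TW
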