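import Fermat.Agent.Lib.TW.Local.H1Bridge
import Fermat.Agent.Lib.TW.Local.PairNat
import Fermat.Agent.Lib.TW.Local.DualTwistK
import Fermat.Agent.Lib.TW.Local.LocalDuality

/-!
# P10 / G2 (local cohomology), part 9 : the local Tate pairing on continuous classes, `𝔽_p`-valued

For a finite field `k` of characteristic `p`, `M : Rep k G_ℚ` finite dimensional and trivial on
`Gal(ℚ̄/L₀)`, `L₀ ⊇ μ_p`, `M' = M.dualTwist χ` (`χ` = the mod `p` cyclotomic character with values in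
`k`), and a rational prime `q`:

* `tlPsiIso` : `M'|_{G_q} ≅ Hom(M|_{G_q}, μ_p)` as tower modules over the full local tower;
* `tlPairFp : H¹_cont(G_q, M) →+ H¹_cont(G_q, M') →+ 𝔽_p`, the local Tate pairing;
* `tlPairFp_balanced` : `⟨a x, y⟩ = ⟨x, a y⟩` for `a ∈ k`;
* `tlPairFp_right_nondeg`, `tlPairFp_left_nondeg`.
-/

set_option autoImplicit false
set_option linter.unusedSectionVars false
set_option linter.style.haveILetI false

open groupCohomology CategoryTheory ExtCitation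

namespace Fermat.Agent.TW

open Fermat.Agent.CFT Fermat.Agent.CFT.Bridge Fermat.Agent.CFT.Duality
  Fermat.Agent.CFT.Duality.TowerModule

noncomputable section

/-! ### Characters with values in `𝔽_p` -/

section char

variable (p : ℕ) [hp : Fact p.Prime] {X : Type*} [AddCommGroup X] (hX : ∀ x : X, p • x = 0)

/-- characters of a group killed by `p` have values in `𝔽_p` -/
def tlCharEquiv : (X →+ ZMod p) ≃+ (X →+ AddCircle (1 : ℚ)) :=
  { homZModEquivChar p hX with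
    map_add' := fun φ ψ => by
      change (zmodToCircle p).comp (φ + ψ) = (zmodToCircle p).comp φ + (zmodToCircle p).comp ψ
      exact AddMonoidHom.comp_add _ _ _ }

lemma tlCharEquiv_apply (φ : X →+ ZMod p) (x : X) :
    tlCharEquiv p hX φ x = zmodToCircle p (φ x) := rfl

lemma tlCharEquiv_symm_apply (c : X →+ AddCircle (1 : ℚ)) (x : X) :
    zmodToCircle p ((tlCharEquiv p hX).symm c x) = c x := by
  rw [← tlCharEquiv_apply p hX, AddEquiv.apply_symm_apply]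

end char

/-! ### Levelwise isomorphisms -/

section iso

variable {k : Type} [CommRing k] {T : Tower}

lemma tl_comp_isIso {A B C : TowerModule k T} (f : A.Hom B) (g : B.Hom C) (i : T.ι)
    [IsIso (f.f i)] [IsIso (g.f i)] : IsIso ((f.comp g).f i) := by
  change IsIso (f.f i ≫ g.f i)
  infer_instance

lemma tl_resSub_isIso {B B' : TowerModule k T} (F : B.Hom B') (D : T.SubgroupFamily) (i : T.ι)
    [IsIso (F.f i)] : IsIso ((F.resSub D).f i) := by
  exact Functor.map_isIso (Rep.resFunctor (D.D i).subtype) (F.f i)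

lemma tl_homToResSub_isIso (A μ : TowerModule k T) [A.IsCartesian] (D : T.SubgroupFamily)
    (i : T.ι) : IsIso ((homToResSub A μ D).f i) := by
  change IsIso (𝟙 _)
  infer_instance

end iso

/-! ### The data over a fixed level -/

section fixed

variable (p : ℕ) [hp : Fact p.Prime] {k : Type} [Field k] [Algebra (ZMod p) k] [Finite k]
  (M : Rep.{0} k GQ) [FiniteDimensional k M.V] (χ : GQ →* kˣ)
  (hχ : ∀ σ, ((χ σ : kˣ) : k) = algebraMap (ZMod p) k ((cycloChar p σ : (ZMod p)ˣ) : ZMod p))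
  (L₀ : Level) (hM : TrivialOn M L₀) (hM' : TrivialOn (M.dualTwist χ) L₀)
  (hμ : HasMu p L₀) (ζ₀ : (muTow p L₀).C (baseLevel L₀)) (hζ₀ : ζ₀ ≠ 0) (q : Nat.Primes)

include p in
/-- the local tower module of a finite-dimensional representation over a finite field of
characteristic `p` is finite and killed by `p` -/
lemma tlTowerOfLoc_isFinPTorsion : (towerOfLoc M L₀ hM q).IsFinPTorsion p where
  finite _ := show Finite M.V from Module.finite_of_finite k
  torsion _ x := tl_nsmul_eq_zero_of_algebra p k (show M.V from x)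

lemma tl_muTow_cyc (L : (levelTower L₀).ι) (σ : GQ) (m : (muTow p L₀).C L) :
    ((muTow p L₀).C L).ρ (L.1.proj σ) m = ((cycloChar p σ : (ZMod p)ˣ) : ZMod p).val • m := by
  rw [muTow_cyclo]
  exact Nat.cast_smul_eq_nsmul ℤ _ _

/-- `M^*(1)|_{G_q} → Hom(M|_{G_q}, μ_p)` over the full local tower -/
def tlPsiHom : (towerOfLoc (M.dualTwist χ) L₀ hM' q).Hom
    ((towerOfLoc M L₀ hM q).homTo (tlMuLoc p q L₀)) :=
  haveI := muTow_isCartesian hμ
  ((tlTwHom p M χ hχ L₀ hM hM' (muTow p L₀) (muTow_card hμ) (tl_muTow_cyc p L₀) ζ₀).resSub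
    (decompFamily q L₀)).comp (homToResSub (towerOf M L₀ hM) (muTow p L₀) (decompFamily q L₀))

include hζ₀ in
lemma tlPsiHom_isIso (l : (towerLoc q L₀).ι) :
    IsIso ((tlPsiHom p M χ hχ L₀ hM hM' hμ ζ₀ q).f l) := by
  haveI := muTow_isCartesian hμ
  haveI := tlTwHom_isIso p M χ hχ L₀ hM hM' (muTow p L₀) (muTow_card hμ) (tl_muTow_cyc p L₀) ζ₀
    hζ₀ l
  haveI : IsIso (((tlTwHom p M χ hχ L₀ hM hM' (muTow p L₀) (muTow_card hμ) (tl_muTow_cyc p L₀)
      ζ₀).resSub (decompFamily q L₀)).f l) :=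
    tl_resSub_isIso (tlTwHom p M χ hχ L₀ hM hM' (muTow p L₀) (muTow_card hμ) (tl_muTow_cyc p L₀)
      ζ₀) (decompFamily q L₀) l
  haveI : IsIso ((homToResSub (towerOf M L₀ hM) (muTow p L₀) (decompFamily q L₀)).f l) :=
    tl_homToResSub_isIso (towerOf M L₀ hM) (muTow p L₀) (decompFamily q L₀) l
  exact tl_comp_isIso _ _ l

/-- **`M^*(1)|_{G_q} ≅ Hom(M|_{G_q}, μ_p)`** over the full local tower -/
def tlPsiIso : (towerOfLoc (M.dualTwist χ) L₀ hM' q).Iso
    ((towerOfLoc M L₀ hM q).homTo (tlMuLoc p q L₀)) :=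
  haveI : ∀ l, IsIso ((tlPsiHom p M χ hχ L₀ hM hM' hμ ζ₀ q).f l) :=
    tlPsiHom_isIso p M χ hχ L₀ hM hM' hμ ζ₀ hζ₀ q
  (tlPsiHom p M χ hχ L₀ hM hM' hμ ζ₀ q).toIso

lemma tlPsiHom_apply (l : (towerLoc q L₀).ι) (f : Module.Dual k M.V) (m : M.V) :
    (show tlHomMuV M L₀ (muTow p L₀) l from
      ((tlPsiHom p M χ hχ L₀ hM hM' hμ ζ₀ q).f l).hom f) m =
      (tlTr p k (f m)).val • zetaAt L₀ (muTow p L₀) ζ₀ l := rfl

/-- `H¹(G_q, M^*(1)) ≃ H¹(G_q, Hom(M, μ_p))` (tower form) -/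
def tlPsiH1 : HLim (towerOfLoc (M.dualTwist χ) L₀ hM' q) 1 ≃+
    HLim ((towerOfLoc M L₀ hM q).homTo (tlMuLoc p q L₀)) 1 :=
  ExtLim.congrRight (triv ℤ (towerLoc q L₀)) (tlPsiIso p M χ hχ L₀ hM hM' hμ ζ₀ hζ₀ q) 1

lemma tlPsiH1_apply (y : HLim (towerOfLoc (M.dualTwist χ) L₀ hM' q) 1) :
    tlPsiH1 p M χ hχ L₀ hM hM' hμ ζ₀ hζ₀ q y =
      ExtLim.mapRight (triv ℤ (towerLoc q L₀)) (tlPsiHom p M χ hχ L₀ hM hM' hμ ζ₀ q) 1 y := rfl

/-- the local Tate pairing in tower form, with values in `ℚ/ℤ` -/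
def tlPairCircle : HLim (towerOfLoc (M.dualTwist χ) L₀ hM' q) 1 →+
    (HLim (towerOfLoc M L₀ hM q) 1 →+ AddCircle (1 : ℚ)) :=
  haveI := tlTowerOfLoc_isFinPTorsion p M L₀ hM q
  (tlLocDual1 q hμ (towerOfLoc M L₀ hM q)).toAddMonoidHom.comp
    (tlPsiH1 p M χ hχ L₀ hM hM' hμ ζ₀ hζ₀ q).toAddMonoidHom

lemma tlPairCircle_apply (y : HLim (towerOfLoc (M.dualTwist χ) L₀ hM' q) 1)
    (x : HLim (towerOfLoc M L₀ hM q) 1) :
    tlPairCircle p M χ hχ L₀ hM hM' hμ ζ₀ hζ₀ q y x =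
      (haveI := tlTowerOfLoc_isFinPTorsion p M L₀ hM q
       tlLocDual1 q hμ (towerOfLoc M L₀ hM q)
        (tlPsiH1 p M χ hχ L₀ hM hM' hμ ζ₀ hζ₀ q y) x) := rfl

lemma tlPairCircle_injective :
    Function.Injective (tlPairCircle p M χ hχ L₀ hM hM' hμ ζ₀ hζ₀ q) := by
  haveI := tlTowerOfLoc_isFinPTorsion p M L₀ hM q
  exact (tlLocDual1 q hμ (towerOfLoc M L₀ hM q)).injective.comp
    (tlPsiH1 p M χ hχ L₀ hM hM' hμ ζ₀ hζ₀ q).injective

lemma tlPairCircle_surjective :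
    Function.Surjective (tlPairCircle p M χ hχ L₀ hM hM' hμ ζ₀ hζ₀ q) := by
  haveI := tlTowerOfLoc_isFinPTorsion p M L₀ hM q
  exact (tlLocDual1 q hμ (towerOfLoc M L₀ hM q)).surjective.comp
    (tlPsiH1 p M χ hχ L₀ hM hM' hμ ζ₀ hζ₀ q).surjective

include p in
lemma tl_hlim_torsion (x : HLim (towerOfLoc M L₀ hM q) 1) : p • x = 0 :=
  haveI := tlTowerOfLoc_isFinPTorsion p M L₀ hM q
  hlim_torsion (p := p) (towerOfLoc M L₀ hM q) 1 x

/-- the local Tate pairing in tower form, with values in `𝔽_p` -/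
def tlPairLim : HLim (towerOfLoc (M.dualTwist χ) L₀ hM' q) 1 →+
    (HLim (towerOfLoc M L₀ hM q) 1 →+ ZMod p) :=
  (tlCharEquiv p (tl_hlim_torsion p M L₀ hM q)).symm.toAddMonoidHom.comp
    (tlPairCircle p M χ hχ L₀ hM hM' hμ ζ₀ hζ₀ q)

lemma zmodToCircle_tlPairLim (y : HLim (towerOfLoc (M.dualTwist χ) L₀ hM' q) 1)
    (x : HLim (towerOfLoc M L₀ hM q) 1) :
    zmodToCircle p (tlPairLim p M χ hχ L₀ hM hM' hμ ζ₀ hζ₀ q y x) =
      tlPairCircle p M χ hχ L₀ hM hM' hμ ζ₀ hζ₀ q y x :=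
  tlCharEquiv_symm_apply p (tl_hlim_torsion p M L₀ hM q) _ x

/-- **the local Tate pairing** on continuous classes, with values in `𝔽_p` -/
def tlPairFp : continuousH1 (primeLocalToGlobal q) (locRep M q) →+
    continuousH1 (primeLocalToGlobal q) (locRep (M.dualTwist χ) q) →+ ZMod p :=
  (((tlPairLim p M χ hχ L₀ hM hM' hμ ζ₀ hζ₀ q).comp
    (tlBridge1 (M.dualTwist χ) L₀ hM' q).symm.toAddMonoidHom).flip).comp
      (tlBridge1 M L₀ hM q).symm.toAddMonoidHom

lemma tlPairFp_apply (x : continuousH1 (primeLocalToGlobal q) (locRep M q))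
    (y : continuousH1 (primeLocalToGlobal q) (locRep (M.dualTwist χ) q)) :
    tlPairFp p M χ hχ L₀ hM hM' hμ ζ₀ hζ₀ q x y =
      tlPairLim p M χ hχ L₀ hM hM' hμ ζ₀ hζ₀ q ((tlBridge1 (M.dualTwist χ) L₀ hM' q).symm y)
        ((tlBridge1 M L₀ hM q).symm x) := rfl

/-- right non-degeneracy of the local Tate pairing -/
theorem tlPairFp_right_nondeg
    (y : continuousH1 (primeLocalToGlobal q) (locRep (M.dualTwist χ) q))
    (h : ∀ x, tlPairFp p M χ hχ L₀ hM hM' hμ ζ₀ hζ₀ q x y = 0) : y = 0 := by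
  have h1 : tlPairCircle p M χ hχ L₀ hM hM' hμ ζ₀ hζ₀ q
      ((tlBridge1 (M.dualTwist χ) L₀ hM' q).symm y) = 0 := by
    ext x
    have h2 := h (tlBridge1 M L₀ hM q x)
    rw [tlPairFp_apply, AddEquiv.symm_apply_apply] at h2
    rw [← zmodToCircle_tlPairLim, h2, map_zero, AddMonoidHom.zero_apply]
  have h3 := tlPairCircle_injective p M χ hχ L₀ hM hM' hμ ζ₀ hζ₀ q (h1.trans (map_zero _).symm)
  exact (AddEquiv.map_eq_zero_iff _).1 h3

/-- left non-degeneracy of the local Tate pairing -/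
theorem tlPairFp_left_nondeg (x : continuousH1 (primeLocalToGlobal q) (locRep M q))
    (h : ∀ y, tlPairFp p M χ hχ L₀ hM hM' hμ ζ₀ hζ₀ q x y = 0) : x = 0 := by
  by_contra hx
  have hx' : (tlBridge1 M L₀ hM q).symm x ≠ 0 := fun h0 =>
    hx ((AddEquiv.map_eq_zero_iff _).1 h0)
  obtain ⟨c, hc⟩ := CharacterModule.exists_character_apply_ne_zero_of_ne_zero hx'
  obtain ⟨y', hy'⟩ := tlPairCircle_surjective p M χ hχ L₀ hM hM' hμ ζ₀ hζ₀ q c
  have h2 := h (tlBridge1 (M.dualTwist χ) L₀ hM' q y')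
  rw [tlPairFp_apply, AddEquiv.symm_apply_apply] at h2
  apply hc
  have h3 := zmodToCircle_tlPairLim p M χ hχ L₀ hM hM' hμ ζ₀ hζ₀ q y'
    ((tlBridge1 M L₀ hM q).symm x)
  rw [h2, map_zero] at h3
  rw [← hy']
  exact h3.symm

/-! ### The pairing is balanced for the `k`-module structures -/

/-- the bridge turns the multiplication by `a ∈ k` into the functoriality for `tlSmulHom a M` -/
lemma tlBridge1_symm_smul {k : Type} [CommRing k] (M : Rep.{0} k GQ) (L₀ : Level)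
    (hM : TrivialOn M L₀) (q : Nat.Primes) (a : k)
    (x : continuousH1 (primeLocalToGlobal q) (locRep M q)) :
    (tlBridge1 M L₀ hM q).symm (a • x) =
      ExtLim.mapRight (triv ℤ (towerLoc q L₀))
        (tlTowerOfLocHom (tlSmulHom a M) L₀ hM hM q) 1 ((tlBridge1 M L₀ hM q).symm x) := by
  rw [AddEquiv.symm_apply_eq]
  apply Subtype.ext
  rw [tlBridge1_natural, AddEquiv.apply_symm_apply]
  exact (tl_map_smulHom a (locRep M q) (x : H1 (locRep M q))).symm

include hζ₀ in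
/-- the comparison `tlPsiHom` turns the multiplication by `a` on `M^*(1)` into the precomposition
with the multiplication by `a` on `M` -/
lemma tlPsiHom_smul (a : k) :
    (tlTowerOfLocHom (tlSmulHom a (M.dualTwist χ)) L₀ hM' hM' q).comp
        (tlPsiHom p M χ hχ L₀ hM hM' hμ ζ₀ q) =
      (tlPsiHom p M χ hχ L₀ hM hM' hμ ζ₀ q).comp
        (tlHomPre (tlTowerOfLocHom (tlSmulHom a M) L₀ hM hM q) (tlMuLoc p q L₀)) := by
  refine Hom.ext' (fun l => ?_)
  apply Rep.hom_ext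
  refine DFunLike.ext _ _ (fun (f : Module.Dual k M.V) => ?_)
  change (_ : tlHomMuV M L₀ (muTow p L₀) l) = _
  refine DFunLike.ext _ _ (fun m => ?_)
  change (tlTr p k ((a • f) m)).val • zetaAt L₀ (muTow p L₀) ζ₀ l =
    (tlTr p k (f (a • m))).val • zetaAt L₀ (muTow p L₀) ζ₀ l
  rw [LinearMap.smul_apply, f.map_smul a m]

/-- naturality of `tlLocDual1` in the module (adjointness) -/
theorem tlLocDual1_natural {A₁ A₂ : TowerModule ℤ (towerLoc q L₀)} [A₁.IsCartesian]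
    [A₁.IsFinPTorsion p] [A₂.IsCartesian] [A₂.IsFinPTorsion p] (g : A₁.Hom A₂)
    (y : HLim (A₂.homTo (tlMuLoc p q L₀)) 1) (x : HLim A₁ 1) :
    tlLocDual1 q hμ A₁ (ExtLim.mapRight (triv ℤ (towerLoc q L₀)) (tlHomPre g (tlMuLoc p q L₀)) 1 y)
        x =
      tlLocDual1 q hμ A₂ y (ExtLim.mapRight (triv ℤ (towerLoc q L₀)) g 1 x) :=
  haveI := tlMuLoc_isCartesian q hμ
  tlDual1_natural (tlLocCF p q L₀) (tlBot_le q L₀) (tlLoc_isPDiv p q L₀) (tlMuLoc p q L₀)
    (tlMuLoc_card q hμ) (kappaLoc p L₀ q) (kappaLoc_injective p L₀ q) (kappaLoc_surjective hμ q)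
    g y x

/-- **the local Tate pairing is balanced** : `⟨a x, y⟩ = ⟨x, a y⟩` -/
theorem tlPairFp_balanced (a : k) (x : continuousH1 (primeLocalToGlobal q) (locRep M q))
    (y : continuousH1 (primeLocalToGlobal q) (locRep (M.dualTwist χ) q)) :
    tlPairFp p M χ hχ L₀ hM hM' hμ ζ₀ hζ₀ q (a • x) y =
      tlPairFp p M χ hχ L₀ hM hM' hμ ζ₀ hζ₀ q x (a • y) := by
  haveI := tlTowerOfLoc_isFinPTorsion p M L₀ hM q
  apply zmodToCircle_injective p
  rw [tlPairFp_apply, tlPairFp_apply, zmodToCircle_tlPairLim, zmodToCircle_tlPairLim,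
    tlPairCircle_apply, tlPairCircle_apply, tlBridge1_symm_smul, tlBridge1_symm_smul,
    ← tlLocDual1_natural, tlPsiH1_apply, tlPsiH1_apply, ← ExtLim.mapRight_comp,
    ← ExtLim.mapRight_comp, tlPsiHom_smul p M χ hχ L₀ hM hM' hμ ζ₀ hζ₀ q a]

end fixed

end

end Fermat.Agent.TW
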