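import Fermat.Agent.Lib.TW.Interface
import Fermat.Agent.Lib.TW.Local.LocalPairing
import Fermat.Agent.Lib.CFT.Bridge.Levels
import Fermat.Agent.Lib.CFT.Duality.Assembly
import Fermat.Agent.Lib.CFT.Bridge.PTDataLiteral

/-!
# P10 / G2 : THE LOCAL PAIRINGS `tlTP p M` AND THE CONTRACT (C-PERF)

For a finite field `k` of characteristic `p` and a finite-dimensional smooth `M : Rep k G_ℚ`:

* `TlData p M` : the auxiliary choices (a level `L₀ ⊇ μ_p` trivialising `M`, a generator of `μ_p`);
* `tlPairK p M d q : locCont q M →ₗ[k] locCont q (tateDual p M) →ₗ[k] k`, the `k`-bilinear local Tate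
  pairing on continuous classes (`tr_{k/𝔽_p}` of it is the `𝔽_p`-valued pairing `tlPairFp`);
* `tlTP p M : LocalPairings M (tateDual p M)`, its extension to all of `H¹` by linear projections;
* `tl_contractPerf : ContractPerf (tlTP p M)`.
-/

set_option autoImplicit false
set_option linter.unusedSectionVars false
set_option linter.style.haveILetI false

open groupCohomology CategoryTheory ExtCitation

namespace Fermat.Agent.TW

open Fermat.Agent.CFT Fermat.Agent.CFT.Bridge Fermat.Agent.CFT.Duality
  Fermat.Agent.CFT.Duality.TowerModule Fermat.Agent.CFT.Pinf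

noncomputable section

variable (p : ℕ) [hp : Fact p.Prime] {k : Type} [Field k] [Algebra (ZMod p) k]

/-! ### The cyclotomic character with values in `k` -/

lemma tl_cycloK_coe (σ : GQ) :
    ((cycloK p k σ : kˣ) : k) = algebraMap (ZMod p) k ((cycloChar p σ : (ZMod p)ˣ) : ZMod p) :=
  rfl

lemma tl_cycloK_eq_one {σ : GQ} (h : cycloChar p σ = 1) : cycloK p k σ = 1 := by
  apply Units.ext
  rw [tl_cycloK_coe, h, Units.val_one, map_one, Units.val_one]

/-- `M^*(1)` is trivial where `M` and the cyclotomic character are -/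
lemma tl_trivialOn_tateDual (M : Rep.{0} k GQ) (L₀ : Level) (hM : TrivialOn M L₀)
    (hχ : ∀ s ∈ L₀.N, cycloChar p s = 1) : TrivialOn (tateDual p M) L₀ := by
  intro s hs
  have h1 : cycloK p k s = 1 := tl_cycloK_eq_one p (hχ s hs)
  have h2 : M.ρ s⁻¹ = 1 := hM s⁻¹ (L₀.N.inv_mem hs)
  ext f
  rw [Rep.dualTwist_ρ_apply, h1, h2]
  simp only [Units.val_one, one_smul]
  rfl

/-! ### The auxiliary data -/

/-- the auxiliary choices for the definition of the local pairings of `M` -/
structure TlData (M : Rep.{0} k GQ) : Type where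
  /-- a level trivialising `M` and containing `μ_p` -/
  L₀ : Level
  hM : TrivialOn M L₀
  hχ : ∀ s ∈ L₀.N, cycloChar p s = 1
  /-- a generator of `μ_p` -/
  ζ₀ : (muTow p L₀).C (baseLevel L₀)
  hζ₀ : ζ₀ ≠ 0
  /-- `L₀` is unramified outside every finite set of primes `S' ∋ p` outside of which `M` is
  unramified -/
  hS : ∀ S' : Finset Nat.Primes, pPrime p ∈ S' → IsUnramifiedOutsideRep S' M → L₀.IsS S'

namespace TlData

variable {p} {M : Rep.{0} k GQ} (d : TlData p M)

lemma hμ : HasMu p d.L₀ := hasMu_of_cycloChar d.hχ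

lemma hM' : TrivialOn (tateDual p M) d.L₀ := tl_trivialOn_tateDual p M d.L₀ d.hM d.hχ

end TlData

/-- a finite-dimensional smooth representation is trivial on some level -/
theorem tl_exists_level_trivialOn (M : Rep.{0} k GQ) [FiniteDimensional k M.V]
    (hsm : IsSmoothRep M) : ∃ L : Level, TrivialOn M L := by
  classical
  obtain ⟨b, hb⟩ := Module.Finite.fg_top (R := k) (M := M.V)
  choose F hFfin hF using hsm
  have hlev : ∀ t : Finset M.V, ∃ L : Level, ∀ s ∈ L.N, ∀ m ∈ t, M.ρ s m = m := by
    intro t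
    induction t using Finset.induction_on with
    | empty => exact ⟨Classical.arbitrary Level, fun _ _ _ h => absurd h (Finset.notMem_empty _)⟩
    | insert a t _ ih =>
      obtain ⟨L, hL⟩ := ih
      haveI := hFfin a
      obtain ⟨L', hL'⟩ := exists_level_N_le (F a)
      refine ⟨L ⊔ L', fun s hs m hm => ?_⟩
      rcases Finset.mem_insert.mp hm with rfl | hm
      · exact hF _ s (hL' (Level.N_anti le_sup_right hs))
      · exact hL s (Level.N_anti le_sup_left hs) m hm
  obtain ⟨L, hL⟩ := hlev b
  refine ⟨L, fun s hs => ?_⟩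
  apply LinearMap.ext_on_range (v := fun x : b => (x : M.V))
  · rw [Subtype.range_coe_subtype]; simpa using hb
  · intro x
    simpa using hL s hs x.1 x.2

/-- the splitting field of a finite-dimensional smooth representation: a level `L` with
`Gal(ℚ̄/L) = ker ρ` -/
theorem tl_exists_kerLevel (M : Rep.{0} k GQ) [FiniteDimensional k M.V] (hsm : IsSmoothRep M) :
    ∃ L : Level, L.N = (M.ρ : GQ →* (M.V →ₗ[k] M.V)).ker := by
  obtain ⟨L₁, hL₁⟩ := tl_exists_level_trivialOn M hsm
  have hle : L₁.N ≤ (M.ρ : GQ →* (M.V →ₗ[k] M.V)).ker := fun s hs => by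
    rw [MonoidHom.mem_ker]
    exact hL₁ s hs
  exact exists_level_N_eq _ (Subgroup.isOpen_mono hle (Level.N_isOpen L₁))

/-- the auxiliary data exist for finite-dimensional smooth representations -/
theorem tl_nonempty_data (M : Rep.{0} k GQ) [FiniteDimensional k M.V] (hsm : IsSmoothRep M) :
    Nonempty (TlData p M) := by
  haveI : NeZero p := ⟨hp.out.ne_zero⟩
  obtain ⟨L₁, hL₁N⟩ := tl_exists_kerLevel M hsm
  have hL₁ : TrivialOn M L₁ := fun s hs => by
    rw [hL₁N, MonoidHom.mem_ker] at hs
    exact hs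
  have hχ : ∀ s ∈ (L₁ ⊔ cycloLevel p).N, cycloChar p s = 1 := fun s hs =>
    cycloChar_eq_one_of_mem_cycloLevel p s (Level.N_anti (le_sup_right (a := L₁)) hs)
  have hμ : HasMu p (L₁ ⊔ cycloLevel p) := hasMu_of_cycloChar hχ
  haveI := muTow_isCartesian hμ
  obtain ⟨ζ₀, hζ₀⟩ := exists_ne_zero_of_card p (L₁ ⊔ cycloLevel p) (muTow p _) (muTow_card hμ)
  refine ⟨⟨L₁ ⊔ cycloLevel p, hL₁.mono le_sup_left, hχ, ζ₀, hζ₀, fun S' hpS hur => ?_⟩⟩
  refine Level.IsS.sup ?_ (cycloLevel_isS_of_mem p S' hpS)
  rw [Level.isS_iff]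
  intro q hq A hA g hg
  rw [hL₁N, MonoidHom.mem_ker]
  exact hur q hq A hA g hg

/-! ### The `k`-bilinear pairing on continuous classes -/

section pairing

variable [Finite k] (M : Rep.{0} k GQ) [FiniteDimensional k M.V] (d : TlData p M) (q : Nat.Primes)

/-- the `𝔽_p`-valued local Tate pairing attached to the data `d` -/
def tlPairD : locCont q M →+ locCont q (tateDual p M) →+ ZMod p :=
  tlPairFp p M (cycloK p k) (tl_cycloK_coe p) d.L₀ d.hM d.hM' d.hμ d.ζ₀ d.hζ₀ q

lemma tlPairD_balanced (a : k) (x : locCont q M) (y : locCont q (tateDual p M)) :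
    tlPairD p M d q (a • x) y = tlPairD p M d q x (a • y) :=
  tlPairFp_balanced p M (cycloK p k) (tl_cycloK_coe p) d.L₀ d.hM d.hM' d.hμ d.ζ₀ d.hζ₀ q a x y

lemma tlPairD_right_nondeg (y : locCont q (tateDual p M))
    (h : ∀ x, tlPairD p M d q x y = 0) : y = 0 :=
  tlPairFp_right_nondeg p M (cycloK p k) (tl_cycloK_coe p) d.L₀ d.hM d.hM' d.hμ d.ζ₀ d.hζ₀ q y h

lemma tlPairD_left_nondeg (x : locCont q M)
    (h : ∀ y, tlPairD p M d q x y = 0) : x = 0 :=
  tlPairFp_left_nondeg p M (cycloK p k) (tl_cycloK_coe p) d.L₀ d.hM d.hM' d.hμ d.ζ₀ d.hζ₀ q x h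

/-- **the `k`-bilinear local Tate pairing on continuous classes** -/
def tlPairK : locCont q M →ₗ[k] locCont q (tateDual p M) →ₗ[k] k :=
  tlLiftK p (tlPairD p M d q) (tlPairD_balanced p M d q)

lemma tlTr_tlPairK (x : locCont q M) (y : locCont q (tateDual p M)) :
    tlTr p k (tlPairK p M d q x y) = tlPairD p M d q x y :=
  tlTr_tlLiftK p _ _ x y

lemma tlPairK_right_nondeg (y : locCont q (tateDual p M))
    (h : ∀ x, tlPairK p M d q x y = 0) : y = 0 := by
  apply tlPairD_right_nondeg p M d q y
  intro x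
  rw [← tlTr_tlPairK, h x, map_zero]

lemma tlPairK_left_nondeg (x : locCont q M)
    (h : ∀ y, tlPairK p M d q x y = 0) : x = 0 := by
  apply tlPairD_left_nondeg p M d q x
  intro y
  rw [← tlTr_tlPairK, h y, map_zero]

/-- orthogonality w.r.t. `tlPairK` to a `k`-subspace is orthogonality w.r.t. `tlPairD` -/
lemma tlPairK_orth_iff (L : Submodule k (locCont q M)) (y : locCont q (tateDual p M)) :
    (∀ x ∈ L, tlPairK p M d q x y = 0) ↔ ∀ x ∈ L, tlPairD p M d q x y = 0 :=
  tlLiftK_orth_iff p _ _ L y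

end pairing

/-! ### Extension to all classes -/

section proj

variable (q : Nat.Primes) (M : Rep.{0} k GQ)

/-- a `k`-linear projection of `H¹(G_q, M)` onto the continuous classes -/
def tlProj : H1 (locAt q M) →ₗ[k] locCont q M :=
  Submodule.projectionOnto (locCont q M)
    (Classical.choose (Submodule.exists_isCompl (locCont q M)))
    (Classical.choose_spec (Submodule.exists_isCompl (locCont q M)))

lemma tlProj_apply_of_mem {x : H1 (locAt q M)} (hx : x ∈ locCont q M) :
    tlProj q M x = ⟨x, hx⟩ :=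
  Submodule.projectionOnto_apply_left _ (⟨x, hx⟩ : locCont q M)

end proj

section tp

variable [Finite k] (M : Rep.{0} k GQ)

open Classical in
/-- **THE LOCAL PAIRINGS** of `M` (zero unless `M` is finite dimensional and smooth) -/
def tlTP : LocalPairings M (tateDual p M) := fun q =>
  if h : FiniteDimensional k M.V ∧ IsSmoothRep M then
    haveI := h.1
    (tlPairK p M (Classical.choice (tl_nonempty_data p M h.2)) q).compl₁₂ (tlProj q M)
      (tlProj q (tateDual p M))
  else 0

variable [FiniteDimensional k M.V] (hsm : IsSmoothRep M)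

/-- the auxiliary data used in the definition of `tlTP` -/
def tlDataOf : TlData p M := Classical.choice (tl_nonempty_data p M hsm)

lemma tlTP_eq (q : Nat.Primes) :
    tlTP p M q = (tlPairK p M (tlDataOf p M hsm) q).compl₁₂ (tlProj q M)
      (tlProj q (tateDual p M)) := by
  unfold tlTP
  rw [dif_pos ⟨inferInstance, hsm⟩]
  rfl

/-- on continuous classes `tlTP` is the local Tate pairing `tlPairK` -/
lemma tlTP_apply_of_mem (q : Nat.Primes) {x : H1 (locAt q M)} (hx : x ∈ locCont q M)
    {y : H1 (locAt q (tateDual p M))} (hy : y ∈ locCont q (tateDual p M)) :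
    tlTP p M q x y = tlPairK p M (tlDataOf p M hsm) q ⟨x, hx⟩ ⟨y, hy⟩ := by
  rw [tlTP_eq p M hsm, LinearMap.compl₁₂_apply, tlProj_apply_of_mem q M hx,
    tlProj_apply_of_mem q (tateDual p M) hy]

include hsm in
/-- **(C-PERF)** : the local pairings are right non-degenerate on continuous classes -/
theorem tl_contractPerf : ContractPerf (tlTP p M) := by
  intro q y hy h
  have h1 : (⟨y, hy⟩ : locCont q (tateDual p M)) = 0 := by
    apply tlPairK_right_nondeg p M (tlDataOf p M hsm) q
    intro x
    rw [← tlTP_apply_of_mem p M hsm q x.2 hy]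
    exact h x.1 x.2
  exact congrArg Subtype.val h1

include hsm in
/-- the local pairings are left non-degenerate on continuous classes -/
theorem tlTP_left_nondeg (q : Nat.Primes) (x : H1 (locAt q M)) (hx : x ∈ locCont q M)
    (h : ∀ y ∈ locCont q (tateDual p M), tlTP p M q x y = 0) : x = 0 := by
  have h1 : (⟨x, hx⟩ : locCont q M) = 0 := by
    apply tlPairK_left_nondeg p M (tlDataOf p M hsm) q
    intro y
    rw [← tlTP_apply_of_mem p M hsm q hx y.2]
    exact h y.1 y.2
  exact congrArg Subtype.val h1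

end tp

end

end Fermat.Agent.TW
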