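import Fermat.Agent.Lib.TW.Local.DoubleDual
import Fermat.Agent.Lib.CFT.Duality.D1One
import Fermat.Agent.Lib.CFT.Duality.KummerIso

/-!
# P10 / G2 (local cohomology), part 2 : abstract local Tate duality

Let `T` be a tower with a bottom level, `C` a `p`-class formation on `T` which is `p`-divisible in the
limit, `μ` a cartesian tower module of order `p` and `κ : μ → C` an isomorphism onto the `p`-torsion
of `C` (think: the tower of all finite extensions of a local field `K ⊇ μ_p`, `C = L^×`).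
Then for every finite `p`-torsion cartesian tower module `A`:

* `tlTheta1`, `tlTheta2` : the Kummer comparison `ExtLim A C r ≃ H^r(Hom(A, μ))`, `r = 1, 2`;
* `tl_card_hlim_one_dual` : `|H¹(Hom(A, μ))| = |H¹(A)|`;
* `tl_alpha1_bijective` : `α¹ : ExtLim A C 1 → H¹(A)^∨` is BIJECTIVE (no existence theorem needed:
  the symmetry `A ↔ Hom(A, μ)` and the surjectivity of `α¹` for both suffice);
* `tlDual1 : H¹(Hom(A, μ)) ≃ H¹(A)^∨`, `tlDual2 : H²(Hom(A, μ)) ≃ H⁰(A)^∨`  (local Tate duality).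
-/

set_option autoImplicit false
set_option linter.unusedSectionVars false
set_option linter.style.haveILetI false

open CategoryTheory

namespace Fermat.Agent.TW

open Fermat.Agent.CFT.Duality Fermat.Agent.CFT.Duality.TowerModule

noncomputable section

variable {p : ℕ} [hp : Fact p.Prime] {T : Tower} {C : TowerModule ℤ T}
  (cf : PClassFormation p T C) {b : T.ι} (hb : ∀ l, b ≤ l) (hC : C.IsPDiv p)
  (μ : TowerModule ℤ T) [μ.IsCartesian] (hμ : ∀ l, Nat.card (μ.C l) = p)
  (κ : μ.Hom C) (hinj : ∀ j, Function.Injective (κ.f j).hom)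
  (hsurj : ∀ j (e : C.C j), p • e = 0 → ∃ m : μ.C j, (κ.f j).hom m = e)
  (A : TowerModule ℤ T) [A.IsCartesian] [A.IsFinPTorsion p]

/-- `H^r(Hom(A, μ)) ≃ H^r(Hom(A, C))` in the limit -/
def tlKappaEquiv (r : ℕ) : HLim (A.homTo μ) r ≃+ HLim (A.homTo C) r :=
  AddEquiv.ofBijective (ExtLim.mapRight (triv ℤ T) (homToMap A κ) r)
    (mapRight_homToMap_bijective A κ p (IsFinPTorsion.torsion (p := p) (A := A)) hinj hsurj r)

/-- **Kummer comparison** `ExtLim A C 1 ≃ H¹(Hom(A, μ))` -/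
def tlTheta1 : ExtLim A C 1 ≃+ HLim (A.homTo μ) 1 :=
  (theta1Lim A C p (fun j => rep_moduleFinite (A.C j) (IsFinPTorsion.finite (p := p) j))
    (IsFinPTorsion.torsion (p := p) (A := A)) hC).trans (tlKappaEquiv μ κ hinj hsurj A 1).symm

/-- **Kummer comparison** `ExtLim A C 2 ≃ H²(Hom(A, μ))` -/
def tlTheta2 : ExtLim A C 2 ≃+ HLim (A.homTo μ) 2 :=
  (theta2Lim A C p (fun j => rep_moduleFinite (A.C j) (IsFinPTorsion.finite (p := p) j))
    (IsFinPTorsion.torsion (p := p) (A := A)) hC).trans (tlKappaEquiv μ κ hinj hsurj A 2).symm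

include cf hb hC hμ hinj hsurj in
/-- `|H¹(A)| ≤ |H¹(Hom(A, μ))|` -/
theorem tl_card_hlim_one_le :
    Nat.card (HLim A 1) ≤ Nat.card (HLim (A.homTo μ) 1) := by
  haveI : (A.homTo μ).IsFinPTorsion p := tlHomTo_isFinPTorsion p A μ (tl_mu_finite p μ hμ)
  haveI := finite_hlim_one cf hb A
  haveI := finite_hlim_one cf hb (A.homTo μ)
  haveI : Finite (ExtLim A C 1) := Finite.of_equiv _ (tlTheta1 hC μ κ hinj hsurj A).symm.toEquiv
  have h1 := Nat.card_le_card_of_surjective _ (alpha1_surjective cf hb A)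
  rw [card_addMonoidHom_addCircle p (hlim_torsion (p := p) A 1)] at h1
  exact h1.trans (Nat.card_congr (tlTheta1 hC μ κ hinj hsurj A).toEquiv).le

include cf hb hC hμ hinj hsurj in
/-- **`|H¹(Hom(A, μ))| = |H¹(A)|`** -/
theorem tl_card_hlim_one_dual :
    Nat.card (HLim (A.homTo μ) 1) = Nat.card (HLim A 1) := by
  haveI : (A.homTo μ).IsFinPTorsion p := tlHomTo_isFinPTorsion p A μ (tl_mu_finite p μ hμ)
  refine le_antisymm ?_ (tl_card_hlim_one_le cf hb hC μ hμ κ hinj hsurj A)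
  refine (tl_card_hlim_one_le cf hb hC μ hμ κ hinj hsurj (A.homTo μ)).trans ?_
  exact (Nat.card_congr (ExtLim.congrRight (triv ℤ T) (tlEvalIso p A μ hμ) 1).toEquiv).ge

include hb hC hμ hinj hsurj in
/-- **abstract local Tate duality**: `α¹(A)` is bijective -/
theorem tl_alpha1_bijective : Function.Bijective (cf.limFormation.alpha A 1 1 rfl) := by
  haveI : (A.homTo μ).IsFinPTorsion p := tlHomTo_isFinPTorsion p A μ (tl_mu_finite p μ hμ)
  haveI := finite_hlim_one cf hb A
  haveI := finite_hlim_one cf hb (A.homTo μ)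
  haveI : Finite (ExtLim A C 1) := Finite.of_equiv _ (tlTheta1 hC μ κ hinj hsurj A).symm.toEquiv
  refine bijective_of_surjective_of_card_le p _ (hlim_torsion (p := p) A 1)
    (alpha1_surjective cf hb A) ?_
  rw [Nat.card_congr (tlTheta1 hC μ κ hinj hsurj A).toEquiv]
  exact (tl_card_hlim_one_dual cf hb hC μ hμ κ hinj hsurj A).le

/-- **local Tate duality in degree 1**: `H¹(Hom(A, μ)) ≃ H¹(A)^∨` -/
def tlDual1 : HLim (A.homTo μ) 1 ≃+ (HLim A 1 →+ AddCircle (1 : ℚ)) :=
  (tlTheta1 hC μ κ hinj hsurj A).symm.trans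
    (AddEquiv.ofBijective (cf.limFormation.alpha A 1 1 rfl)
      (tl_alpha1_bijective cf hb hC μ hμ κ hinj hsurj A))

/-- **local Tate duality in degree 2**: `H²(Hom(A, μ)) ≃ H⁰(A)^∨` -/
def tlDual2 : HLim (A.homTo μ) 2 ≃+ (HLim A 0 →+ AddCircle (1 : ℚ)) :=
  (tlTheta2 hC μ κ hinj hsurj A).symm.trans
    (AddEquiv.ofBijective (cf.limFormation.alpha A 2 0 rfl) (alpha2_bijective cf hb A))

lemma tlDual1_apply (y : HLim (A.homTo μ) 1) :
    tlDual1 cf hb hC μ hμ κ hinj hsurj A y =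
      cf.limFormation.alpha A 1 1 rfl ((tlTheta1 hC μ κ hinj hsurj A).symm y) := rfl

lemma tlDual2_apply (y : HLim (A.homTo μ) 2) :
    tlDual2 cf hb hC μ κ hinj hsurj A y =
      cf.limFormation.alpha A 2 0 rfl ((tlTheta2 hC μ κ hinj hsurj A).symm y) := rfl

include cf hb hC hμ hinj hsurj in
/-- `H²(Hom(A, μ))` is finite of the same order as `H⁰(A)` -/
theorem tl_card_hlim_two_dual :
    Finite (HLim (A.homTo μ) 2) ∧ Nat.card (HLim (A.homTo μ) 2) = Nat.card (HLim A 0) := by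
  haveI : Finite (A.C b) := IsFinPTorsion.finite (p := p) b
  haveI := finite_hlim_zero A hb
  haveI := finite_char p (hlim_torsion (p := p) A 0)
  refine ⟨Finite.of_equiv _ (tlDual2 cf hb hC μ κ hinj hsurj A).symm.toEquiv, ?_⟩
  rw [Nat.card_congr (tlDual2 cf hb hC μ κ hinj hsurj A).toEquiv,
    card_addMonoidHom_addCircle p (hlim_torsion (p := p) A 0)]

end

end Fermat.Agent.TW
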