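import Fermat.Agent.Lib.TW.Local.LocContBridge
import Fermat.Agent.Lib.CFT.Duality.TowerOf
import Fermat.Agent.Lib.CFT.Duality.HLimCoh
import Fermat.Agent.Lib.CFT.Duality.DualTwistTower
import Fermat.Agent.Lib.CFT.Duality.TowerQuot

/-!
# P10 / G2 (local cohomology), part 8 : `H¹` of the local tower module is the continuous `H¹(G_q, M)`

For `M : Rep k G_ℚ` trivial on `Gal(ℚ̄/L₀)` :

* `tlBridge1 : HLim (towerOfLoc M L₀ hM q) 1 ≃+ continuousH1 (primeLocalToGlobal q) (locRep M q)`;
* `tlTowerOfHom f : (towerOf M L₀ hM).Hom (towerOf N L₀ hN)` for `f : M ⟶ N`, and the naturality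
  `tlBridge1_natural` of `tlBridge1`;
* `tlBridge1_smul` : the `k`-module structure corresponds to the functoriality for the
  multiplication maps `tlSmulHom a M : M ⟶ M`.
-/

set_option autoImplicit false
set_option linter.unusedSectionVars false
set_option linter.style.haveILetI false

open groupCohomology CategoryTheory ExtCitation

namespace Fermat.Agent.TW

open Fermat.Agent.CFT Fermat.Agent.CFT.Bridge Fermat.Agent.CFT.Duality
  Fermat.Agent.CFT.Duality.TowerModule

noncomputable section

variable {k : Type} [CommRing k]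

/-! ### The bridge -/

section bridge

variable (M : Rep.{0} k GQ) (L₀ : Level) (hM : TrivialOn M L₀) (q : Nat.Primes)

include hM in
lemma tl_nonempty_levelA : Nonempty (LevelA M) := ⟨⟨L₀, hM⟩⟩

/-- the comparison at a level -/
def tlLevelMap (j : (towerLoc q L₀).ι) :
    groupCohomology ((towerOfLoc M L₀ hM q).C j) 1 →+ H1 (locRep M q) :=
  (pullLocH1 M q j.1 (hM.mono j.2)).toAddMonoidHom.comp
    (h1Int (atDecomp M q j.1 (hM.mono j.2))).symm.toAddMonoidHom

/-- **`H¹` of the local tower module of `M` is the continuous part of `H¹(G_q, M)`** -/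
def tlBridge1 :
    HLim (towerOfLoc M L₀ hM q) 1 ≃+ continuousH1 (primeLocalToGlobal q) (locRep M q) :=
  haveI := tl_nonempty_levelA M L₀ hM
  (hlimEquivCohLim (towerOfLoc M L₀ hM q) 1).trans
    ((cohLimLocEquiv M L₀ hM q intIso₁).trans (tlLocContEquiv M q).toAddEquiv)

theorem tlBridge1_of (j : (towerLoc q L₀).ι)
    (ξ : Abelian.Ext ((triv ℤ (towerLoc q L₀)).C j) ((towerOfLoc M L₀ hM q).C j) 1) :
    ((tlBridge1 M L₀ hM q (ExtLim.of (triv ℤ (towerLoc q L₀)) (towerOfLoc M L₀ hM q) 1 j ξ) :
      continuousH1 (primeLocalToGlobal q) (locRep M q)) : H1 (locRep M q)) =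
      tlLevelMap M L₀ hM q j ((cohToExt ((towerOfLoc M L₀ hM q).C j) 1).symm ξ) := by
  haveI := tl_nonempty_levelA M L₀ hM
  change compLocH1 M q (cohLimLocEquiv M L₀ hM q intIso₁
    (hlimEquivCohLim (towerOfLoc M L₀ hM q) 1 (ExtLim.of _ _ 1 j ξ))) = _
  rw [hlimEquivCohLim_of, cohLimLocEquiv_of]
  exact compLocH1_of M q (locIdx M L₀ hM q j) _

end bridge

/-! ### Functoriality in `M` -/

section functorial

variable {M N : Rep.{0} k GQ} (f : M ⟶ N) (L₀ : Level) (hM : TrivialOn M L₀)
  (hN : TrivialOn N L₀) (q : Nat.Primes)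

/-- a morphism of representations at a level -/
def tlAtLevelHom (L : Level) (hL : TrivialOn M L) (hL' : TrivialOn N L) :
    atLevel M L hL ⟶ atLevel N L hL' :=
  repHomMk (atLevel M L hL) (atLevel N L hL') f.hom.toLinearMap (fun g x => by
    obtain ⟨σ, rfl⟩ := L.proj_surjective g
    exact Rep.hom_comm_apply f σ x)

@[simp] lemma tlAtLevelHom_apply (L : Level) (hL : TrivialOn M L) (hL' : TrivialOn N L) (x : M.V) :
    (tlAtLevelHom f L hL hL').hom x = f.hom x := rfl

/-- the morphism of tower modules induced by a morphism of representations -/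
def tlTowerOfHom : (towerOf M L₀ hM).Hom (towerOf N L₀ hN) :=
  Hom.mk' (fun i : (levelTower L₀).ι => intHom (tlAtLevelHom f i.1 (hM.mono i.2) (hN.mono i.2)))
    (fun _ _ => rfl)

@[simp] lemma tlTowerOfHom_apply (i : (levelTower L₀).ι) (x : M.V) :
    ((tlTowerOfHom f L₀ hM hN).f i).hom x = f.hom x := rfl

/-- the same over the local tower at `q` -/
abbrev tlTowerOfLocHom : (towerOfLoc M L₀ hM q).Hom (towerOfLoc N L₀ hN q) :=
  (tlTowerOfHom f L₀ hM hN).resSub (decompFamily q L₀)

/-- the induced morphism of the restrictions to the local Galois group -/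
abbrev tlLocRepHom : locRep M q ⟶ locRep N q := (Rep.resFunctor (primeLocalToGlobal q)).map f

/-- the induced morphism on `atDecomp` -/
abbrev tlAtDecompHom (L : Level) (hL : TrivialOn M L) (hL' : TrivialOn N L) :
    atDecomp M q L hL ⟶ atDecomp N q L hL' :=
  (Rep.resFunctor (decomp q L).subtype).map (tlAtLevelHom f L hL hL')

lemma tl_pullLocH1_natural (L : Level) (hL : TrivialOn M L) (hL' : TrivialOn N L)
    (x : H1 (atDecomp M q L hL)) :
    pullLocH1 N q L hL' ((groupCohomology.map (MonoidHom.id _) (tlAtDecompHom f q L hL hL') 1).hom x)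
      = (groupCohomology.map (MonoidHom.id _) (tlLocRepHom f q) 1).hom (pullLocH1 M q L hL x) := by
  have h1 := groupCohomology.map_comp (A := atDecomp M q L hL) (MonoidHom.id (decomp q L))
    (toDecomp q L) (tlAtDecompHom f q L hL hL') (toDecompHom N q L hL') 1
  have h2 := groupCohomology.map_comp (B := locRep M q) (toDecomp q L)
    (MonoidHom.id (primeLocalGaloisGroup q)) (toDecompHom M q L hL) (tlLocRepHom f q) 1
  have h3 : groupCohomology.map ((MonoidHom.id (decomp q L)).comp (toDecomp q L))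
      ((Rep.resFunctor (toDecomp q L)).map (tlAtDecompHom f q L hL hL') ≫ toDecompHom N q L hL') 1
      = groupCohomology.map ((toDecomp q L).comp (MonoidHom.id (primeLocalGaloisGroup q)))
        ((Rep.resFunctor (MonoidHom.id (primeLocalGaloisGroup q))).map (toDecompHom M q L hL)
          ≫ tlLocRepHom f q) 1 :=
    groupCohomology.map_congr rfl rfl 1
  have h4 := (congrArg ModuleCat.Hom.hom h1).symm.trans
    ((congrArg ModuleCat.Hom.hom h3).trans (congrArg ModuleCat.Hom.hom h2))
  exact LinearMap.congr_fun h4 x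

lemma tlLevelMap_natural (j : (towerLoc q L₀).ι)
    (y : groupCohomology ((towerOfLoc M L₀ hM q).C j) 1) :
    tlLevelMap N L₀ hN q j
        ((groupCohomology.map (MonoidHom.id _) ((tlTowerOfLocHom f L₀ hM hN q).f j) 1).hom y) =
      (groupCohomology.map (MonoidHom.id _) (tlLocRepHom f q) 1).hom (tlLevelMap M L₀ hM q j y) := by
  obtain ⟨x, rfl⟩ := (h1Int (atDecomp M q j.1 (hM.mono j.2))).surjective y
  have h1 := h1Int_map (MonoidHom.id (decomp q j.1)) (atDecomp M q j.1 (hM.mono j.2))
    (atDecomp N q j.1 (hN.mono j.2)) (tlAtDecompHom f q j.1 (hM.mono j.2) (hN.mono j.2)) x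
  have h2 : (groupCohomology.map (MonoidHom.id _) ((tlTowerOfLocHom f L₀ hM hN q).f j) 1).hom
      (h1Int (atDecomp M q j.1 (hM.mono j.2)) x) =
      h1Int (atDecomp N q j.1 (hN.mono j.2)) ((groupCohomology.map (MonoidHom.id _)
        (tlAtDecompHom f q j.1 (hM.mono j.2) (hN.mono j.2)) 1).hom x) := h1.symm
  have e1 : tlLevelMap N L₀ hN q j ((groupCohomology.map (MonoidHom.id _)
      ((tlTowerOfLocHom f L₀ hM hN q).f j) 1).hom (h1Int (atDecomp M q j.1 (hM.mono j.2)) x)) =
      pullLocH1 N q j.1 (hN.mono j.2) ((groupCohomology.map (MonoidHom.id _)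
        (tlAtDecompHom f q j.1 (hM.mono j.2) (hN.mono j.2)) 1).hom x) := by
    refine (congrArg (tlLevelMap N L₀ hN q j) h2).trans ?_
    change pullLocH1 N q j.1 _ ((h1Int _).symm (h1Int _ _)) = _
    rw [AddEquiv.symm_apply_apply]
  have e2 : tlLevelMap M L₀ hM q j (h1Int (atDecomp M q j.1 (hM.mono j.2)) x) =
      pullLocH1 M q j.1 (hM.mono j.2) x := by
    change pullLocH1 M q j.1 _ ((h1Int _).symm (h1Int _ _)) = _
    rw [AddEquiv.symm_apply_apply]
  exact e1.trans ((tl_pullLocH1_natural f q j.1 _ _ x).trans (congrArg _ e2.symm))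

/-- **naturality of the bridge** -/
theorem tlBridge1_natural (x : HLim (towerOfLoc M L₀ hM q) 1) :
    ((tlBridge1 N L₀ hN q (ExtLim.mapRight (triv ℤ (towerLoc q L₀))
        (tlTowerOfLocHom f L₀ hM hN q) 1 x) :
      continuousH1 (primeLocalToGlobal q) (locRep N q)) : H1 (locRep N q)) =
      (groupCohomology.map (MonoidHom.id _) (tlLocRepHom f q) 1).hom
        ((tlBridge1 M L₀ hM q x : continuousH1 (primeLocalToGlobal q) (locRep M q)) :
          H1 (locRep M q)) := by
  induction x using ExtLim.induction_on with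
  | h j ξ =>
    rw [ExtLim.mapRight_of, tlBridge1_of, tlBridge1_of, ← tlLevelMap_natural f L₀ hM hN q]
    congr 1
    apply (cohToExt ((towerOfLoc N L₀ hN q).C j) 1).injective
    refine ((cohToExt ((towerOfLoc N L₀ hN q).C j) 1).apply_symm_apply _).trans ?_
    refine Eq.trans ?_ (cohToExt_naturality ((tlTowerOfLocHom f L₀ hM hN q).f j) 1 _).symm
    exact congrArg (fun z => z.comp (Abelian.Ext.mk₀ ((tlTowerOfLocHom f L₀ hM hN q).f j))
      (add_zero 1)) ((cohToExt ((towerOfLoc M L₀ hM q).C j) 1).apply_symm_apply ξ).symm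

end functorial

/-! ### Scalar multiplication -/

section smul

variable (a : k) (M : Rep.{0} k GQ)

/-- multiplication by `a ∈ k` as an endomorphism of a representation -/
def tlSmulHom {G : Type} [Group G] (a : k) (X : Rep.{0} k G) : X ⟶ X :=
  repHomMk X X (a • LinearMap.id) (fun g x => by
    rw [LinearMap.smul_apply, LinearMap.smul_apply, LinearMap.id_apply, LinearMap.id_apply,
      map_smul])

@[simp] lemma tlSmulHom_apply {G : Type} [Group G] (a : k) (X : Rep.{0} k G) (x : X.V) :
    (tlSmulHom a X).hom x = a • x := rfl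

/-- the map induced on `H¹` by the multiplication by `a` is the multiplication by `a` -/
theorem tl_map_smulHom {G : Type} [Group G] (a : k) (X : Rep.{0} k G) (x : H1 X) :
    (groupCohomology.map (MonoidHom.id G) (tlSmulHom a X) 1).hom x = a • x := by
  obtain ⟨z, rfl⟩ := H1π_surjective X x
  rw [H1π_comp_map_apply, ← map_smul]
  congr 1

end smul

end

end Fermat.Agent.TW
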