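import Fermat.Agent.Lib.CFT.Bridge.Sha1
import Fermat.Agent.Lib.CFT.Bridge.LocalH2

/-!
# P10 / G2 (local cohomology), part 4 : the continuous classes of `H¹(G_q, M)` are `Hloc M q 1`

`compLocH1 M q : Hloc M q 1 → H¹(G_q, M)` (abstract cohomology of the Prelude local Galois group) is
injective with image the continuous classes `continuousH1 (primeLocalToGlobal q) (locRep M q)`:

* `tl_compLocH1_mem`, `tl_exists_compLocH1_eq`;
* `tlLocContEquiv : Hloc M q 1 ≃ₗ[k] continuousH1 (primeLocalToGlobal q) (locRep M q)`.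
-/

set_option autoImplicit false
set_option linter.unusedSectionVars false

open groupCohomology CategoryTheory ExtCitation

namespace Fermat.Agent.TW

open Fermat.Agent.CFT Fermat.Agent.CFT.Bridge

noncomputable section

variable {k : Type} [CommRing k] (M : Rep k GQ) (q : Nat.Primes)

lemma tl_pullLocH1_H1π (L : Level) (h : TrivialOn M L) (z : cocycles₁ (atDecomp M q L h)) :
    pullLocH1 M q L h ((H1π _).hom z) =
      (H1π (locRep M q)).hom (mapCocycles₁ (toDecomp q L) (toDecompHom M q L h) z) :=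
  H1π_comp_map_apply (toDecomp q L) (toDecompHom M q L h) z

lemma tl_mapCocycles₁_toDecomp (L : Level) (h : TrivialOn M L) (z : cocycles₁ (atDecomp M q L h)) :
    (mapCocycles₁ (toDecomp q L) (toDecompHom M q L h) z : primeLocalGaloisGroup q → M.V) =
      Gen.pull₁ (toDecomp q L) (z : decomp q L → M.V) := rfl

/-- the image of `compLocH1` consists of continuous classes -/
theorem tl_compLocH1_mem [Nonempty (LevelA M)] (x : Hloc M q 1) :
    compLocH1 M q x ∈ continuousH1 (primeLocalToGlobal q) (locRep M q) := by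
  obtain ⟨L, y, rfl⟩ := Hloc.exists_of M q 1 x
  obtain ⟨z, rfl⟩ := H1π_surjective _ y
  rw [compLocH1_of, tl_pullLocH1_H1π, mem_continuousH1_iff]
  refine ⟨_, ?_, rfl⟩
  rw [tl_mapCocycles₁_toDecomp]
  exact isLevelConstant₁_pull q L.1 _

/-- every continuous class is in the image of `compLocH1` -/
theorem tl_exists_compLocH1_eq [Nonempty (LevelA M)] {x : H1 (locRep M q)}
    (hx : x ∈ continuousH1 (primeLocalToGlobal q) (locRep M q)) :
    ∃ y : Hloc M q 1, compLocH1 M q y = x := by
  rw [mem_continuousH1_iff] at hx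
  obtain ⟨c, ⟨F, hF, hconst⟩, rfl⟩ := hx
  obtain ⟨L₀⟩ := ‹Nonempty (LevelA M)›
  haveI := hF
  obtain ⟨L, -, hL⟩ := exists_levelA_ge M L₀ F
  have hpull : Gen.pull₁ (toDecomp q L.1)
      (Gen.desc₁ (toDecomp q L.1) (toDecomp_surjective q L.1)
        (c : primeLocalGaloisGroup q → M.V)) = c :=
    Gen.pull₁_desc₁ _ _ _ (toDecomp_const_of_levelConstant₁ q L.1 hL hconst)
  have hz : Gen.desc₁ (toDecomp q L.1) (toDecomp_surjective q L.1)
      (c : primeLocalGaloisGroup q → M.V) ∈ cocycles₁ (atDecomp M q L.1 L.2) :=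
    Gen.mem_cocycles₁_of_pull₁ (toDecomp q L.1) (toDecomp_surjective q L.1)
      (atDecomp M q L.1 L.2).ρ (locRep M q).ρ (locRep_ρ M q L.1 L.2) (hpull.symm ▸ c.2)
  refine ⟨Hloc.of M q 1 L ((H1π _).hom ⟨_, hz⟩), ?_⟩
  rw [compLocH1_of, tl_pullLocH1_H1π]
  congr 1
  exact Subtype.ext hpull

/-- **the continuous classes of `H¹(G_q, M)` are the direct limit `Hloc M q 1`** -/
def tlLocContEquiv [Nonempty (LevelA M)] :
    Hloc M q 1 ≃ₗ[k] continuousH1 (primeLocalToGlobal q) (locRep M q) :=
  LinearEquiv.ofBijective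
    ((compLocH1 M q).codRestrict (continuousH1 (primeLocalToGlobal q) (locRep M q))
      (tl_compLocH1_mem M q))
    ⟨fun x y hxy => compLocH1_injective M q (congrArg Subtype.val hxy),
     fun y => by
      obtain ⟨x, hx⟩ := tl_exists_compLocH1_eq M q y.2
      exact ⟨x, Subtype.ext hx⟩⟩

@[simp] lemma tlLocContEquiv_coe [Nonempty (LevelA M)] (x : Hloc M q 1) :
    ((tlLocContEquiv M q x : continuousH1 (primeLocalToGlobal q) (locRep M q)) :
      H1 (locRep M q)) = compLocH1 M q x := rfl

end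

end Fermat.Agent.TW
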